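import Mathlib
import Fermat.Prelude.Def_AlgebraicCurve_DivisorClassGroup

/-!
# Function fields of one variable

`IsFF K F`: the extension `F/K` has a separating element `x`, that is, `x` is transcendental over
`K` and `F` is finite and separable over `K(x)`. This is the standing hypothesis of the `FF`
files, which develop places, Riemann–Roch and differentials for such fields, usually with `K`
algebraically closed.
-/

set_option autoImplicit false

namespace FLTAgent.FF

/-- `F/K` is a function field of one variable with a separating transcendental element. -/
class IsFF (K F : Type*) [Field K] [Field F] [Algebra K F] : Prop where
  exists_sep : ∃ x : F, Transcendental K x ∧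
    FiniteDimensional (IntermediateField.adjoin K ({x} : Set F)) F ∧
    Algebra.IsSeparable (IntermediateField.adjoin K ({x} : Set F)) F

end FLTAgent.FF
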