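import Mathlib
import Fermat.Agent.FF.Defs
import Fermat.Prelude.Def_AlgebraicCurve_DivisorPushPull

/-!
# Elementary facts on places

Rules for `Place.ord`, `place_eq_of_le` (a place ring is maximal among proper subrings),
`exists_ord_neg_forall_pos`, weak approximation (`exists_sub_ord_ge`, `exists_forall_ord_eq`), and
the places attached to the height one primes of a Dedekind domain
(`ord_ofHeightOneSpectrum`, `exists_eq_ofHeightOneSpectrum`).
-/

set_option autoImplicit false

noncomputable section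

open WithZero IsDedekindDomain AlgebraicCurve

namespace FLTAgent.FF

variable {K F : Type*} [Field K] [Field F] [Algebra K F]

theorem val_eq_exp (v : Place K F) {f : F} (hf : f ≠ 0) :
    v.adicValuation f = exp (-v.ord f) := by
  unfold Place.ord
  rw [neg_neg, exp_log (v.adicValuation_ne_zero hf)]

theorem mem_iff_val_le_one (v : Place K F) (f : F) :
    f ∈ v.toValuationSubring ↔ v.adicValuation f ≤ 1 := by
  constructor
  · intro h
    have h2 := (v.adicValuation_coe ⟨f, h⟩).trans_le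
      (v.heightOneSpectrum.intValuation_le_one ⟨f, h⟩)
    simpa using h2
  · intro h
    rcases eq_or_ne f 0 with rfl | hf
    · exact zero_mem _
    obtain ⟨π, hπ⟩ := IsDiscreteValuationRing.exists_irreducible v.toValuationSubring
    obtain ⟨u, hu⟩ := v.exists_unit_mul_zpow hf hπ
    have hord : 0 ≤ v.ord f := by
      rw [val_eq_exp v hf, ← exp_zero, exp_le_exp] at h
      omega
    rw [hu, ← Int.toNat_of_nonneg hord, zpow_natCast]
    exact mul_mem (u : v.toValuationSubring).2 (pow_mem π.2 _)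

theorem mem_iff_ord_nonneg (v : Place K F) {f : F} (hf : f ≠ 0) :
    f ∈ v.toValuationSubring ↔ 0 ≤ v.ord f := by
  rw [mem_iff_val_le_one, val_eq_exp v hf, ← exp_zero, exp_le_exp]
  omega

theorem mem_iff (v : Place K F) (f : F) :
    f ∈ v.toValuationSubring ↔ f = 0 ∨ 0 ≤ v.ord f := by
  rcases eq_or_ne f 0 with rfl | hf
  · simp
  · simp [mem_iff_ord_nonneg v hf, hf]

theorem ord_nonneg_of_mem_placeRing (v : Place K F) {f : F} (hf : f ∈ v.toValuationSubring) :
    0 ≤ v.ord f := by
  rcases (mem_iff v f).mp hf with rfl | h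
  · simp
  · exact h

@[simp]
theorem ord_algebraMap (v : Place K F) (a : K) : v.ord (algebraMap K F a) = 0 := by
  rcases eq_or_ne a 0 with rfl | ha
  · simp
  have h1 := ord_nonneg_of_mem_placeRing v (v.algebraMap_mem' a)
  have h2 := ord_nonneg_of_mem_placeRing v (v.algebraMap_mem' a⁻¹)
  rw [map_inv₀, v.ord_inv] at h2
  omega

theorem ord_neg (v : Place K F) (f : F) : v.ord (-f) = v.ord f := by
  simp only [Place.ord, Valuation.map_neg]

theorem ord_sub_comm (v : Place K F) (f g : F) : v.ord (f - g) = v.ord (g - f) := by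
  rw [← ord_neg v (f - g), neg_sub]

theorem ord_pow (v : Place K F) (f : F) (n : ℕ) : v.ord (f ^ n) = n * v.ord f := by
  rw [← zpow_natCast, v.ord_zpow]

theorem ord_div (v : Place K F) {f g : F} (hf : f ≠ 0) (hg : g ≠ 0) :
    v.ord (f / g) = v.ord f - v.ord g := by
  rw [div_eq_mul_inv, v.ord_mul hf (inv_ne_zero hg), v.ord_inv]
  ring

theorem ord_prod {ι : Type*} (v : Place K F) (s : Finset ι) (f : ι → F)
    (hf : ∀ i ∈ s, f i ≠ 0) : v.ord (∏ i ∈ s, f i) = ∑ i ∈ s, v.ord (f i) := by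
  classical
  induction s using Finset.induction with
  | empty => simp
  | insert a s ha ih =>
    rw [Finset.prod_insert ha, Finset.sum_insert ha,
      v.ord_mul (hf a (Finset.mem_insert_self a s))
        (Finset.prod_ne_zero_iff.mpr fun i hi => hf i (Finset.mem_insert_of_mem hi)),
      ih fun i hi => hf i (Finset.mem_insert_of_mem hi)]

theorem ord_add_ge (v : Place K F) {f g : F} (hf : f ≠ 0) (hg : g ≠ 0) (hfg : f + g ≠ 0) :
    min (v.ord f) (v.ord g) ≤ v.ord (f + g) := by
  have h := Valuation.map_add v.adicValuation f g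
  rw [val_eq_exp v hf, val_eq_exp v hg, val_eq_exp v hfg, le_max_iff, exp_le_exp,
    exp_le_exp] at h
  rw [min_le_iff]
  omega

theorem ord_add_of_lt (v : Place K F) {f g : F} (hf : f ≠ 0) (hg : g = 0 ∨ v.ord f < v.ord g) :
    f + g ≠ 0 ∧ v.ord (f + g) = v.ord f := by
  rcases eq_or_ne g 0 with rfl | hg0
  · simpa using hf
  have hlt : v.ord f < v.ord g := hg.resolve_left hg0
  have hval : v.adicValuation g < v.adicValuation f := by
    rw [val_eq_exp v hf, val_eq_exp v hg0, exp_lt_exp]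
    omega
  have h := Valuation.map_add_eq_of_lt_left v.adicValuation hval
  refine ⟨fun h0 => v.adicValuation_ne_zero hf (by rw [← h, h0, map_zero]), ?_⟩
  simp only [Place.ord, h]

theorem exists_ord_eq (v : Place K F) (n : ℤ) : ∃ f : F, f ≠ 0 ∧ v.ord f = n := by
  obtain ⟨π, hπ⟩ := IsDiscreteValuationRing.exists_irreducible v.toValuationSubring
  have h0 : (π : F) ≠ 0 := by simpa [ne_eq, ZeroMemClass.coe_eq_zero] using hπ.ne_zero
  exact ⟨(π : F) ^ n, zpow_ne_zero n h0, by rw [v.ord_zpow, v.ord_coe_irreducible hπ, mul_one]⟩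

/-- A place ring is maximal among proper subrings: containment of places is equality. -/
theorem valuationSubring_eq_of_le (v : Place K F) {A : ValuationSubring F}
    (hA : A ≠ ⊤) (h : v.toValuationSubring ≤ A) : v.toValuationSubring = A := by
  refine le_antisymm h fun f hf => ?_
  by_contra hfv
  apply hA
  rw [mem_iff] at hfv
  push Not at hfv
  refine SetLike.ext fun x => ⟨fun _ => ValuationSubring.mem_top x, fun _ => ?_⟩
  rcases eq_or_ne x 0 with rfl | hx
  · exact zero_mem _
  obtain ⟨n, hn⟩ : ∃ n : ℕ, 0 ≤ v.ord x + n * (-v.ord f) := by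
    refine ⟨(v.ord x).natAbs, ?_⟩
    have : 1 ≤ -v.ord f := by omega
    have h2 : ((v.ord x).natAbs : ℤ) * 1 ≤ ((v.ord x).natAbs : ℤ) * (-v.ord f) :=
      mul_le_mul_of_nonneg_left this (by omega)
    omega
  have hy : x / f ^ n ∈ v.toValuationSubring := by
    rw [mem_iff, ord_div v hx (pow_ne_zero n hfv.1), ord_pow]
    exact Or.inr (by linarith)
  have := mul_mem (h hy) (pow_mem hf n)
  rwa [div_mul_cancel₀ x (pow_ne_zero n hfv.1)] at this

theorem place_eq_of_le {v w : Place K F} (h : v.toValuationSubring ≤ w.toValuationSubring) :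
    v = w :=
  Place.ext (valuationSubring_eq_of_le v w.ne_top' h)

theorem place_eq_of_ord_nonneg {v w : Place K F} (h : ∀ f : F, 0 ≤ v.ord f → 0 ≤ w.ord f) :
    v = w :=
  place_eq_of_le fun f hf => (mem_iff w f).mpr <|
    Or.inr (h f (ord_nonneg_of_mem_placeRing v hf))

theorem exists_ord_neg_pos {v w : Place K F} (h : v ≠ w) :
    ∃ f : F, f ≠ 0 ∧ v.ord f < 0 ∧ 0 < w.ord f := by
  obtain ⟨f, hfv, hfw⟩ : ∃ f, 0 ≤ v.ord f ∧ w.ord f < 0 := by
    by_contra hc
    push Not at hc
    exact h (place_eq_of_ord_nonneg hc)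
  obtain ⟨g, hgw, hgv⟩ : ∃ g, 0 ≤ w.ord g ∧ v.ord g < 0 := by
    by_contra hc
    push Not at hc
    exact h (place_eq_of_ord_nonneg hc).symm
  have hf : f ≠ 0 := fun h0 => by simp [h0] at hfw
  have hg : g ≠ 0 := fun h0 => by simp [h0] at hgv
  refine ⟨g / f, div_ne_zero hg hf, ?_, ?_⟩
  · rw [ord_div v hg hf]; omega
  · rw [ord_div w hg hf]; omega

private theorem ord_normalise (u : Place K F) {z : F} (hz : z ≠ 0) (r : ℕ) (hr : 0 < r)
    (hne : u.ord z ≠ 0) :
    1 + z ^ r ≠ 0 ∧ u.ord (1 + z ^ r) = min 0 ((r : ℤ) * u.ord z) := by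
  rcases lt_or_gt_of_ne hne with h | h
  · have hlt : u.ord (z ^ r) < u.ord (1 : F) := by
      rw [ord_pow, Place.ord_one]
      exact mul_neg_of_pos_of_neg (by exact_mod_cast hr) h
    obtain ⟨h1, h2⟩ := ord_add_of_lt u (pow_ne_zero r hz) (Or.inr hlt)
    rw [add_comm]
    refine ⟨h1, ?_⟩
    rw [h2, ord_pow, min_eq_right (by rw [ord_pow, Place.ord_one] at hlt; omega)]
  · have hlt : u.ord (1 : F) < u.ord (z ^ r) := by
      rw [ord_pow, Place.ord_one]
      exact mul_pos (by exact_mod_cast hr) h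
    obtain ⟨h1, h2⟩ := ord_add_of_lt u one_ne_zero (Or.inr hlt)
    refine ⟨h1, ?_⟩
    rw [h2, Place.ord_one, min_eq_left (by rw [ord_pow, Place.ord_one] at hlt; omega)]

/-- An element with a pole at `v` and zeros at all places of `T`. -/
theorem exists_ord_neg_forall_pos (v : Place K F) (T : Finset (Place K F)) (hv : v ∉ T) :
    ∃ z : F, z ≠ 0 ∧ v.ord z < 0 ∧ ∀ w ∈ T, 0 < w.ord z := by
  classical
  induction T using Finset.induction with
  | empty =>
    obtain ⟨z, hz, h⟩ := exists_ord_eq v (-1)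
    exact ⟨z, hz, by omega, by simp⟩
  | insert u T hu ih =>
    simp only [Finset.mem_insert, not_or] at hv
    obtain ⟨z, hz, hzv, hzT⟩ := ih hv.2
    obtain ⟨y, hy, hyv, hyu⟩ := exists_ord_neg_pos hv.1
    set r : ℕ := (∑ w ∈ T, (w.ord y).natAbs) + 1 with hr
    have hrbound : ∀ w ∈ T, -w.ord y < (r : ℤ) := by
      intro w hw
      have hle : (w.ord y).natAbs ≤ ∑ w' ∈ T, (w'.ord y).natAbs :=
        Finset.single_le_sum (f := fun w' => (w'.ord y).natAbs) (fun _ _ => Nat.zero_le _) hw
      omega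
    have hbig : ∀ w ∈ T, 0 < (r : ℤ) * w.ord z + w.ord y := by
      intro w hw
      have h1 := hrbound w hw
      have h2 : (r : ℤ) * 1 ≤ (r : ℤ) * w.ord z :=
        mul_le_mul_of_nonneg_left (hzT w hw) (by omega)
      omega
    have hzr : z ^ r ≠ 0 := pow_ne_zero r hz
    rcases le_or_gt 0 (u.ord z) with hzu | hzu
    · refine ⟨z ^ r * y, mul_ne_zero hzr hy, ?_, fun w hw => ?_⟩
      · rw [v.ord_mul hzr hy, ord_pow]
        have : (r : ℤ) * v.ord z ≤ 0 := mul_nonpos_of_nonneg_of_nonpos (by omega) hzv.le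
        omega
      · rw [w.ord_mul hzr hy, ord_pow]
        rcases Finset.mem_insert.mp hw with rfl | hw
        · have : 0 ≤ (r : ℤ) * w.ord z := mul_nonneg (by omega) hzu
          omega
        · exact hbig w hw
    · obtain ⟨h1, hv1⟩ := ord_normalise v hz r (by omega) hzv.ne
      have hq : z ^ r / (1 + z ^ r) ≠ 0 := div_ne_zero hzr h1
      refine ⟨z ^ r / (1 + z ^ r) * y, mul_ne_zero hq hy, ?_, fun w hw => ?_⟩
      · rw [v.ord_mul hq hy, ord_div v hzr h1, ord_pow, hv1]
        have : (r : ℤ) * v.ord z ≤ 0 := mul_nonpos_of_nonneg_of_nonpos (by omega) hzv.le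
        omega
      · have hne : w.ord z ≠ 0 := by
          rcases Finset.mem_insert.mp hw with rfl | hw
          · exact hzu.ne
          · exact (hzT w hw).ne'
        rw [w.ord_mul hq hy, ord_div w hzr h1, ord_pow, (ord_normalise w hz r (by omega) hne).2]
        rcases Finset.mem_insert.mp hw with rfl | hw
        · have : (r : ℤ) * w.ord z ≤ 0 := mul_nonpos_of_nonneg_of_nonpos (by omega) hzu.le
          omega
        · have := hbig w hw
          have : 0 ≤ (r : ℤ) * w.ord z := mul_nonneg (by omega) (hzT w hw).le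
          omega

theorem val_le_exp_iff (v : Place K F) {f : F} {n : ℤ} :
    v.adicValuation f ≤ exp n ↔ f = 0 ∨ -n ≤ v.ord f := by
  rcases eq_or_ne f 0 with rfl | hf
  · simp
  · rw [val_eq_exp v hf, exp_le_exp, or_iff_right hf]
    omega

theorem val_le_one_iff (v : Place K F) {f : F} :
    v.adicValuation f ≤ 1 ↔ f = 0 ∨ 0 ≤ v.ord f := by
  simpa using val_le_exp_iff v (n := 0) (f := f)

/-- A partition of unity: `e` is close to `1` at `v` and close to `0` on `T`. -/
theorem exists_val_sub_one_le (v : Place K F) (T : Finset (Place K F)) (hv : v ∉ T) (m : ℕ) :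
    ∃ e : F, v.adicValuation (e - 1) ≤ exp (-(m : ℤ)) ∧
      ∀ w ∈ T, w.adicValuation e ≤ exp (-(m : ℤ)) := by
  obtain ⟨z, hz, hzv, hzT⟩ := exists_ord_neg_forall_pos v T hv
  set r : ℕ := m + 1 with hr
  have hzr : z ^ r ≠ 0 := pow_ne_zero r hz
  obtain ⟨h1, hv1⟩ := ord_normalise v hz r (by omega) hzv.ne
  refine ⟨z ^ r / (1 + z ^ r), ?_, fun w hw => ?_⟩
  · rw [val_le_exp_iff]
    refine Or.inr ?_
    rw [show z ^ r / (1 + z ^ r) - 1 = -(1 / (1 + z ^ r)) by field_simp; ring, ord_neg,
      ord_div v one_ne_zero h1, hv1, Place.ord_one]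
    have : (r : ℤ) * v.ord z ≤ (r : ℤ) * (-1) := mul_le_mul_of_nonneg_left (by omega) (by omega)
    omega
  · rw [val_le_exp_iff]
    refine Or.inr ?_
    rw [ord_div w hzr h1, ord_pow, (ord_normalise w hz r (by omega) (hzT w hw).ne').2]
    have : (r : ℤ) * 1 ≤ (r : ℤ) * w.ord z :=
      mul_le_mul_of_nonneg_left (hzT w hw) (by omega)
    omega

/-- Weak approximation, valuation form. -/
theorem exists_val_sub_le (S : Finset (Place K F)) (a : Place K F → F) (n : Place K F → ℤ) :
    ∃ f : F, ∀ v ∈ S, v.adicValuation (f - a v) ≤ exp (-(n v)) := by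
  classical
  set N : ℕ := (∑ v ∈ S, (n v).natAbs) + ∑ v ∈ S, ∑ w ∈ S, (v.ord (a w)).natAbs with hN
  choose e he1 he2 using fun v : Place K F =>
    exists_val_sub_one_le v (S.erase v) (Finset.notMem_erase v S) N
  refine ⟨∑ w ∈ S, a w * e w, fun v hv => ?_⟩
  have hbound : ∀ w ∈ S, n v - v.ord (a w) ≤ (N : ℤ) := by
    intro w hw
    have h1 : (n v).natAbs ≤ ∑ v ∈ S, (n v).natAbs :=
      Finset.single_le_sum (f := fun v => (n v).natAbs) (fun _ _ => Nat.zero_le _) hv
    have h2 : (v.ord (a w)).natAbs ≤ ∑ w ∈ S, (v.ord (a w)).natAbs :=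
      Finset.single_le_sum (f := fun w => (v.ord (a w)).natAbs) (fun _ _ => Nat.zero_le _) hw
    have h3 : (∑ w ∈ S, (v.ord (a w)).natAbs) ≤ ∑ v ∈ S, ∑ w ∈ S, (v.ord (a w)).natAbs :=
      Finset.single_le_sum (f := fun v => ∑ w ∈ S, (v.ord (a w)).natAbs)
        (fun _ _ => Nat.zero_le _) hv
    omega
  have hterm : ∀ w ∈ S, ∀ x : F, v.adicValuation x ≤ exp (-(N : ℤ)) →
      v.adicValuation (a w * x) ≤ exp (-(n v)) := by
    intro w hw x hx
    rcases eq_or_ne (a w) 0 with h0 | h0
    · simp [h0]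
    rw [map_mul, val_eq_exp v h0]
    refine (mul_le_mul' le_rfl hx).trans ?_
    rw [← exp_add, exp_le_exp]
    have := hbound w hw
    omega
  rw [← Finset.add_sum_erase S _ hv,
    show a v * e v + ∑ w ∈ S.erase v, a w * e w - a v
      = a v * (e v - 1) + ∑ w ∈ S.erase v, a w * e w by ring]
  refine (Valuation.map_add _ _ _).trans (max_le (hterm v hv _ (he1 v)) ?_)
  refine Valuation.map_sum_le _ fun w hw => ?_
  refine hterm w (Finset.mem_of_mem_erase hw) _ (he2 w v ?_)
  exact Finset.mem_erase.mpr ⟨(Finset.ne_of_mem_erase hw).symm, hv⟩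

/-- Weak approximation. -/
theorem exists_sub_ord_ge (S : Finset (Place K F)) (a : Place K F → F) (n : Place K F → ℤ) :
    ∃ f : F, ∀ v ∈ S, f = a v ∨ n v ≤ v.ord (f - a v) := by
  obtain ⟨f, hf⟩ := exists_val_sub_le S a n
  refine ⟨f, fun v hv => ?_⟩
  rcases (val_le_exp_iff v).mp (hf v hv) with h | h
  · exact Or.inl (sub_eq_zero.mp h)
  · exact Or.inr (by omega)

/-- Prescribed orders at finitely many places. -/
theorem exists_forall_ord_eq (S : Finset (Place K F)) (n : Place K F → ℤ) :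
    ∃ f : F, f ≠ 0 ∧ ∀ v ∈ S, v.ord f = n v := by
  classical
  choose a ha0 ha using fun v : Place K F => exists_ord_eq v (n v)
  rcases S.eq_empty_or_nonempty with rfl | ⟨v₀, hv₀⟩
  · exact ⟨1, one_ne_zero, by simp⟩
  obtain ⟨f, hf⟩ := exists_sub_ord_ge S a (fun v => n v + 1)
  have key : ∀ v ∈ S, f ≠ 0 ∧ v.ord f = n v := by
    intro v hv
    rcases hf v hv with h | h
    · exact ⟨h ▸ ha0 v, h ▸ ha v⟩
    · have hlt : v.ord (a v) < v.ord (f - a v) := by rw [ha v]; omega
      obtain ⟨h1, h2⟩ := ord_add_of_lt v (ha0 v) (Or.inr hlt)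
      rw [add_sub_cancel] at h1 h2
      exact ⟨h1, h2.trans (ha v)⟩
  exact ⟨f, (key v₀ hv₀).1, fun v hv => (key v hv).2⟩

section HeightOne

variable {R : Type*} [CommRing R] [IsDedekindDomain R] [Algebra R F] [IsFractionRing R F]
  [Algebra K R] [IsScalarTower K R F]

theorem algebraMap_mem_ofHeightOneSpectrum (P : HeightOneSpectrum R) (r : R) :
    algebraMap R F r ∈ (Place.ofHeightOneSpectrum (K := K) (F := F) P).toValuationSubring := by
  rw [Place.ofHeightOneSpectrum_toValuationSubring, Valuation.mem_valuationSubring_iff]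
  exact P.valuation_le_one r

theorem mem_ofHeightOneSpectrum_iff (P : HeightOneSpectrum R) (f : F) :
    f ∈ (Place.ofHeightOneSpectrum (K := K) (F := F) P).toValuationSubring ↔
      P.valuation F f ≤ 1 := by
  rw [Place.ofHeightOneSpectrum_toValuationSubring, Valuation.mem_valuationSubring_iff]

theorem ord_ofHeightOneSpectrum (P : HeightOneSpectrum R) (f : F) :
    (Place.ofHeightOneSpectrum (K := K) (F := F) P).ord f
      = -WithZero.log (P.valuation F f) := by
  set v := Place.ofHeightOneSpectrum (K := K) (F := F) P with hv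
  have hmem : ∀ g : F, g ≠ 0 → (0 ≤ v.ord g ↔ WithZero.log (P.valuation F g) ≤ 0) := by
    intro g hg
    rw [← mem_iff_ord_nonneg v hg, hv, mem_ofHeightOneSpectrum_iff,
      WithZero.log_le_iff_le_exp ((Valuation.ne_zero_iff _).mpr hg), exp_zero]
  rcases eq_or_ne f 0 with rfl | hf
  · simp
  obtain ⟨π, hπ⟩ := P.valuation_exists_uniformizer F
  obtain ⟨ϖ, hϖ0, hϖ⟩ := exists_ord_eq v 1
  have hπ0 : π ≠ 0 := fun h => by
    rw [h, map_zero] at hπ
    exact exp_ne_zero hπ.symm
  have key : ∀ g : F, g ≠ 0 → (v.ord g = 0 ↔ WithZero.log (P.valuation F g) = 0) := by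
    intro g hg
    have h1 := hmem g hg
    have h2 := hmem g⁻¹ (inv_ne_zero hg)
    rw [v.ord_inv, map_inv₀, WithZero.log_inv] at h2
    omega
  have hd : ∀ g : F, g ≠ 0 → v.ord g = -WithZero.log (P.valuation F g) * v.ord π := by
    intro g hg
    set k := WithZero.log (P.valuation F g)
    have h0 : g * π ^ k ≠ 0 := mul_ne_zero hg (zpow_ne_zero _ hπ0)
    have h1 : WithZero.log (P.valuation F (g * π ^ k)) = 0 := by
      rw [map_mul, map_zpow₀, WithZero.log_mul ((Valuation.ne_zero_iff _).mpr hg)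
        (zpow_ne_zero _ ((Valuation.ne_zero_iff _).mpr hπ0)), WithZero.log_zpow, hπ]
      simp [k]
    have h2 := (key _ h0).mpr h1
    rw [v.ord_mul hg (zpow_ne_zero _ hπ0), v.ord_zpow] at h2
    linarith
  have hπord : v.ord π = 1 := by
    have h1 := hd ϖ hϖ0
    rw [hϖ] at h1
    have hnn : 0 ≤ v.ord π := (hmem π hπ0).mpr (by simp [hπ])
    rcases Int.eq_one_or_neg_one_of_mul_eq_one' h1.symm with ⟨_, h⟩ | ⟨_, h⟩ <;> omega
  rw [hd f hf, hπord, mul_one]

theorem exists_eq_ofHeightOneSpectrum (v : Place K F)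
    (h : ∀ r : R, algebraMap R F r ∈ v.toValuationSubring) :
    ∃ P : HeightOneSpectrum R, v = Place.ofHeightOneSpectrum P := by
  let φ : R →+* v.toValuationSubring := (algebraMap R F).codRestrict _ h
  let I : Ideal R := (IsLocalRing.maximalIdeal v.toValuationSubring).comap φ
  have hI : I.IsPrime := Ideal.IsPrime.comap φ
  have hunit : ∀ r : R, r ∉ I → v.ord (algebraMap R F r) = 0 := by
    intro r hr
    have hu : IsUnit (φ r) := by
      by_contra hu
      exact hr ((IsLocalRing.mem_maximalIdeal _).mpr hu)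
    exact v.ord_coe_unit hu.unit
  have hne : I ≠ ⊥ := by
    intro hbot
    obtain ⟨f, hf0, hf⟩ := exists_ord_eq v 1
    obtain ⟨a, b, hb, rfl⟩ := IsFractionRing.div_surjective (A := R) f
    have hb0 : algebraMap R F b ≠ 0 := IsFractionRing.to_map_ne_zero_of_mem_nonZeroDivisors hb
    have ha0 : algebraMap R F a ≠ 0 := fun h0 => hf0 (by rw [h0, zero_div])
    have hord : ∀ r : R, algebraMap R F r ≠ 0 → v.ord (algebraMap R F r) = 0 := fun r hr =>
      hunit r (by rw [hbot, Ideal.mem_bot]; rintro rfl; exact hr (map_zero _))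
    rw [ord_div v ha0 hb0, hord a ha0, hord b hb0] at hf
    omega
  refine ⟨⟨I, hI, hne⟩, (place_eq_of_le fun f hf => ?_).symm⟩
  rw [Place.ofHeightOneSpectrum_toValuationSubring,
    ← HeightOneSpectrum.valuationSubringAtPrime_eq_valuationSubring] at hf
  obtain ⟨a, b, hb, rfl⟩ := hf
  rw [mem_iff]
  rcases eq_or_ne (algebraMap R F a) 0 with h0 | h0
  · left; rw [h0, zero_mul]
  · right
    have hb0 : algebraMap R F b ≠ 0 := by
      refine fun h' => hb ?_
      rw [show b = 0 from IsFractionRing.injective R F (h'.trans (map_zero _).symm)]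
      exact zero_mem _
    rw [v.ord_mul h0 (inv_ne_zero hb0), v.ord_inv, hunit b hb]
    have := ord_nonneg_of_mem_placeRing v (h a)
    omega

end HeightOne

end FLTAgent.FF
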