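import Fermat.Agent.FF.PlacesCore
import Fermat.Prelude.Def_AlgebraicCurve_IsCurveOver
import Fermat.Prelude.Def_AlgebraicCurve_Correspondence

/-!
# Places of function fields: main results

For `IsFF K F` with `K` algebraically closed: `constResidue` and `deg_eq_one`, the instances
`hasPrincipalDivisors` and `isCurveOver`, `degree_poleDivisor` (the degree of the polar divisor
is `[F : K(x)]` for separating `x`), `exists_place_eq`, `infinite_places`, and for finite
separable extensions and embeddings the fundamental identity, the norm formula and the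
compatibilities of pullback and pushforward of divisors (`sum_ramificationIndexAlong`,
`normFormulaAlong`, `pushforwardAlong_pullbackAlong`). All are deduced from `PlacesCore` through
a separating element.
-/

set_option autoImplicit false

noncomputable section

open AlgebraicCurve IntermediateField

namespace FLTAgent.FF

variable {K F : Type*} [Field K] [Field F] [Algebra K F]

section Field

/-- A finite extension of a rational function field is a function field (separable case). -/
theorem IsFF.of_separating (x : F) (hx : Transcendental K x) [FiniteDimensional K⟮x⟯ F]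
    [Algebra.IsSeparable K⟮x⟯ F] : IsFF K F :=
  ⟨x, hx, ‹_›, ‹_›⟩

theorem IsFF.of_finiteDimensional [CharZero K] (x : F) (hx : Transcendental K x)
    [FiniteDimensional K⟮x⟯ F] : IsFF K F := IsFF.of_finiteDimensional' x hx

/-- A field generated by finitely many elements algebraic over `K(x)` is a function field. -/
theorem IsFF.adjoin_of_isAlgebraic [CharZero K] {L : Type*} [Field L] [Algebra K L] {x : L}
    (hx : Transcendental K x) {s : Set L} (hs : s.Finite) (hxs : x ∈ adjoin K s)
    (halg : ∀ y ∈ s, IsAlgebraic K⟮x⟯ y) : IsFF K (adjoin K s) := IsFF.adjoin_of_isAlgebraic' hx hs hxs halg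

theorem IsFF.intermediateField [IsFF K F] [CharZero K] (E : IntermediateField K F) {x : F}
    (hxE : x ∈ E) (hx : Transcendental K x) : IsFF K E := IsFF.intermediateField' E hxE hx

theorem finiteDimensional_adjoin_of_transcendental [IsFF K F] {t : F} (ht : Transcendental K t) :
    FiniteDimensional K⟮t⟯ F := finiteDimensional_adjoin_of_transcendental' ht

theorem isSeparable_adjoin_of_charZero [IsFF K F] [CharZero K] {t : F} (ht : Transcendental K t) :
    Algebra.IsSeparable K⟮t⟯ F := isSeparable_adjoin_of_charZero' ht

theorem mem_range_of_not_transcendental [IsAlgClosed K] {t : F} (ht : ¬ Transcendental K t) :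
    t ∈ (algebraMap K F).range := mem_range_of_not_transcendental' ht

theorem transcendental_of_ord_ne_zero [IsAlgClosed K] (v : Place K F) {f : F} (h : v.ord f ≠ 0) :
    Transcendental K f := by
  by_contra ht
  obtain ⟨c, rfl⟩ := mem_range_of_not_transcendental' ht
  exact h (ord_algebraMap v c)

end Field

variable [IsAlgClosed K] [IsFF K F]

section Places

theorem finite_ord_ne_zero (f : F) : {v : Place K F | v.ord f ≠ 0}.Finite := by
  obtain ⟨x, hx, hfin, hsep⟩ := IsFF.exists_sep (K := K) (F := F)
  let := (ratHom x hx).toRingHom.toAlgebra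
  obtain ⟨htow, hmf, hms, hX, -⟩ := ratData x hx
  exact finite_ord_ne_zero_of_rat f

instance hasPrincipalDivisors : HasPrincipalDivisors K F := ⟨fun f hf => by
  obtain ⟨x, hx, hfin, hsep⟩ := IsFF.exists_sep (K := K) (F := F)
  let := (ratHom x hx).toRingHom.toAlgebra
  obtain ⟨htow, hmf, hms, hX, -⟩ := ratData x hx
  exact exists_divisor_of_rat f hf⟩

/-- Every place has residue field `K`. -/
theorem constResidue (v : Place K F) : ConstResidue v := by
  obtain ⟨x, hx, hfin, hsep⟩ := IsFF.exists_sep (K := K) (F := F)
  let := (ratHom x hx).toRingHom.toAlgebra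
  obtain ⟨htow, hmf, hms, hX, -⟩ := ratData x hx
  exact constResidue_of_rat v

theorem kaehler_free_rank_one_aux : Module.Free F Ω[F⁄K] ∧ Module.finrank F Ω[F⁄K] = 1 := by
  obtain ⟨x, hx, hfin, hsep⟩ := IsFF.exists_sep (K := K) (F := F)
  let := (ratHom x hx).toRingHom.toAlgebra
  obtain ⟨htow, hmf, hms, hX, -⟩ := ratData x hx
  let : Algebra (Polynomial K) F :=
    ((algebraMap (RatFunc K) F).comp (algebraMap (Polynomial K) (RatFunc K))).toAlgebra
  have : IsScalarTower (Polynomial K) (RatFunc K) F := IsScalarTower.of_algebraMap_eq fun _ => rfl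
  have : IsScalarTower K (Polynomial K) F := IsScalarTower.of_algebraMap_eq fun c => by
    rw [IsScalarTower.algebraMap_apply K (RatFunc K) F,
      IsScalarTower.algebraMap_apply K (Polynomial K) (RatFunc K)]
    rfl
  have : Algebra.FormallyEtale (Polynomial K) (RatFunc K) :=
    Algebra.FormallyEtale.of_isLocalization (nonZeroDivisors (Polynomial K))
  have : Algebra.FormallyEtale (RatFunc K) F :=
    Algebra.FormallyEtale.of_isSeparable (RatFunc K) F
  have : Algebra.FormallyEtale (Polynomial K) F :=
    Algebra.FormallyEtale.comp (Polynomial K) (RatFunc K) F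
  let e := KaehlerDifferential.tensorKaehlerEquivOfFormallyEtale K (Polynomial K) F
  let b := ((Module.Basis.singleton Unit (Polynomial K)).map
    (KaehlerDifferential.polynomialEquiv K).symm).baseChange F |>.map e
  exact ⟨Module.Free.of_basis b, by rw [Module.finrank_eq_card_basis b]; rfl⟩

instance isCurveOver : IsCurveOver K F := { finiteResidue := fun v => (constResidue v).finite, kaehler_free_rank_one := kaehler_free_rank_one_aux }

theorem deg_eq_one (v : Place K F) : v.deg = 1 := (constResidue v).deg_eq_one

theorem exists_residue (v : Place K F) {f : F} (hf : f ∈ v.toValuationSubring) :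
    ∃ c : K, f = algebraMap K F c ∨ 0 < v.ord (f - algebraMap K F c) := (constResidue v).exists_ord hf

theorem degree_eq_sum (D : Divisor K F) : Divisor.degree D = D.sum fun _ n => n := by
  rw [Divisor.degree, Finsupp.liftAddHom_apply]
  exact Finsupp.sum_congr fun v _ => by simp [deg_eq_one]

/-- The divisor of a function (`0` for the zero function). -/
def divisorOf (f : F) : Divisor K F :=
  Finsupp.ofSupportFinite (fun v => v.ord f) (finite_ord_ne_zero f)

@[simp]
theorem divisorOf_apply (f : F) (v : Place K F) : divisorOf f v = v.ord f := rfl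

/-- Principal divisors have degree zero. -/
theorem degree_divisorOf (f : F) : Divisor.degree (divisorOf f : Divisor K F) = 0 := by
  rcases eq_or_ne f 0 with rfl | hf
  · have h0 : (divisorOf (0 : F) : Divisor K F) = 0 := Finsupp.ext fun v => by simp
    rw [h0, map_zero]
  obtain ⟨D, hD, hD0⟩ := HasPrincipalDivisors.exists_divisor (K := K) f hf
  have h0 : divisorOf f = D := Finsupp.ext fun v => by rw [hD, divisorOf_apply]
  rw [h0, hD0]

/-- The polar divisor of a function. -/
def poleDivisor (f : F) : Divisor K F :=
  (divisorOf f).mapRange (fun n : ℤ => max 0 (-n)) (by simp)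

@[simp]
theorem poleDivisor_apply (f : F) (v : Place K F) : poleDivisor f v = max 0 (-v.ord f) := by
  rw [poleDivisor, Finsupp.mapRange_apply, divisorOf_apply]

/-- The divisor of zeros of a function. -/
def zeroDivisor (f : F) : Divisor K F :=
  (divisorOf f).mapRange (fun n : ℤ => max 0 n) (by simp)

@[simp]
theorem zeroDivisor_apply (f : F) (v : Place K F) : zeroDivisor f v = max 0 (v.ord f) := by
  rw [zeroDivisor, Finsupp.mapRange_apply, divisorOf_apply]

/-- The polar divisor of `x` has degree `[F : K(x)]`. -/
theorem degree_poleDivisor {x : F} (hx : Transcendental K x) [Algebra.IsSeparable K⟮x⟯ F] :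
    Divisor.degree (poleDivisor x : Divisor K F) = Module.finrank K⟮x⟯ F := by
  have := finiteDimensional_adjoin_of_transcendental (K := K) hx
  let := (ratHom x hx).toRingHom.toAlgebra
  obtain ⟨htow, hmf, hms, hX, hrank⟩ := ratData x hx
  rw [← hrank, ← Divisor.degree_pushforward (F := RatFunc K)]
  have hpush : Divisor.pushforward (RatFunc K) (poleDivisor x : Divisor K F)
      = Finsupp.single (inftyPlace (K := K)) (Module.finrank (RatFunc K) F : ℤ) := by
    refine Finsupp.ext fun v => ?_
    rw [pushforward_eq_finrank_mul (poleDivisor x) (fun v => max 0 (-v.ord (RatFunc.X : RatFunc K))) ?_ v (constResidue_rat v)]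
    · rcases ord_X_cases v with ⟨rfl, h⟩ | ⟨rfl, h⟩ | ⟨hne0, hne1, h⟩
      · simp [h, finPlace_ne_inftyPlace]
      · simp [h]
      · simp [h, hne1]
    · intro w
      rw [poleDivisor_apply, ← hX, w.ord_restrict (F := RatFunc K),
        mul_max_of_nonneg _ _ (Int.natCast_nonneg (w.ramificationIndex (RatFunc K))), mul_zero]
      simp
  rw [hpush, Divisor.degree_single, deg_rat, Nat.cast_one, mul_one]

theorem degree_zeroDivisor {x : F} (hx : Transcendental K x) [Algebra.IsSeparable K⟮x⟯ F] :
    Divisor.degree (zeroDivisor x : Divisor K F) = Module.finrank K⟮x⟯ F := by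
  have := finiteDimensional_adjoin_of_transcendental (K := K) hx
  let := (ratHom x hx).toRingHom.toAlgebra
  obtain ⟨htow, hmf, hms, hX, hrank⟩ := ratData x hx
  rw [← hrank, ← Divisor.degree_pushforward (F := RatFunc K)]
  have hpush : Divisor.pushforward (RatFunc K) (zeroDivisor x : Divisor K F)
      = Finsupp.single (finPlace (0 : K)) (Module.finrank (RatFunc K) F : ℤ) := by
    refine Finsupp.ext fun v => ?_
    rw [pushforward_eq_finrank_mul (zeroDivisor x) (fun v => max 0 (v.ord (RatFunc.X : RatFunc K))) ?_ v (constResidue_rat v)]
    · rcases ord_X_cases v with ⟨rfl, h⟩ | ⟨rfl, h⟩ | ⟨hne0, hne1, h⟩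
      · simp [h]
      · simp [h, (finPlace_ne_inftyPlace (0 : K)).symm]
      · simp [h, hne0]
    · intro w
      rw [zeroDivisor_apply, ← hX, w.ord_restrict (F := RatFunc K),
        mul_max_of_nonneg _ _ (Int.natCast_nonneg (w.ramificationIndex (RatFunc K))), mul_zero]
  rw [hpush, Divisor.degree_single, deg_rat, Nat.cast_one, mul_one]

theorem exists_pole {f : F} (hf : Transcendental K f) : ∃ v : Place K F, v.ord f < 0 := by
  by_contra h
  push Not at h
  obtain ⟨c, rfl⟩ : f ∈ (algebraMap K F).range := by
    obtain ⟨x, hx, hfin, hsep⟩ := IsFF.exists_sep (K := K) (F := F)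
    let := (ratHom x hx).toRingHom.toAlgebra
    obtain ⟨htow, hmf, hms, hX, -⟩ := ratData x hx
    exact mem_range_of_forall_ord_nonneg_of_rat f h
  exact hf (isAlgebraic_algebraMap c)

theorem exists_zero {f : F} (hf : Transcendental K f) : ∃ v : Place K F, 0 < v.ord f := by
  obtain ⟨v, hv⟩ := exists_pole (K := K) (f := f⁻¹) (fun h => hf (IsAlgebraic.inv_iff.mp h))
  exact ⟨v, by rw [v.ord_inv] at hv; omega⟩

theorem exists_ord_sub_pos {f : F} (hf : Transcendental K f) (c : K) :
    ∃ v : Place K F, 0 < v.ord (f - algebraMap K F c) := by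
  refine exists_zero fun h => hf ?_
  obtain ⟨d, hd⟩ := mem_range_of_not_transcendental' (not_not_intro h)
  rw [show f = algebraMap K F (d + c) by rw [map_add, hd]; ring]
  exact isAlgebraic_algebraMap _

theorem mem_range_of_forall_ord_nonneg {f : F} (h : ∀ v : Place K F, 0 ≤ v.ord f) :
    f ∈ (algebraMap K F).range := by
  by_contra hf
  obtain ⟨v, hv⟩ := exists_pole (K := K) (f := f)
    (fun halg => hf (mem_range_of_not_transcendental' (not_not_intro halg)))
  exact absurd (h v) (not_le.mpr hv)

/-- Every nontrivial valuation subring containing the constants is the ring of a place. -/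
theorem exists_place_eq (A : ValuationSubring F) (hK : ∀ a : K, algebraMap K F a ∈ A)
    (hA : A ≠ ⊤) : ∃ v : Place K F, v.toValuationSubring = A := by
  obtain ⟨x, hx, hfin, hsep⟩ := IsFF.exists_sep (K := K) (F := F)
  let := (ratHom x hx).toRingHom.toAlgebra
  obtain ⟨htow, hmf, hms, hX, -⟩ := ratData x hx
  exact exists_place_eq_of_rat A hK hA

/-- There are infinitely many places. -/
theorem infinite_places : Infinite (Place K F) := by
  obtain ⟨x, hx, hfin, hsep⟩ := IsFF.exists_sep (K := K) (F := F)
  let := (ratHom x hx).toRingHom.toAlgebra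
  obtain ⟨htow, hmf, hms, hX, -⟩ := ratData x hx
  choose w hw using fun c : K => exists_place_over_rat (F := F) (finPlace c)
  have : Infinite K := inferInstance
  refine Infinite.of_injective w fun a b hab => ?_
  have h : finPlace a = finPlace b := by rw [← hw a, ← hw b, hab]
  have h1 := ord_finPlace a a
  rw [h, ord_finPlace, if_pos rfl] at h1
  split_ifs at h1 with h2
  · exact h2
  · exact absurd h1 zero_ne_one

theorem place_nonempty : Nonempty (Place K F) := by
  have := infinite_places (K := K) (F := F)
  infer_instance

/-- The regular functions away from the poles of a separating `x` are the integral closure of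
`K[x]`. -/
theorem mem_integralClosure_adjoin_iff {x : F} (hx : Transcendental K x)
    [Algebra.IsSeparable K⟮x⟯ F] (f : F) :
    f ∈ integralClosure (Algebra.adjoin K ({x} : Set F)) F ↔
      ∀ v : Place K F, 0 ≤ v.ord x → f ∈ v.toValuationSubring := by
  constructor
  · intro hf v hv
    have hxv : x ∈ v.toValuationSubring := (mem_iff v x).mpr (Or.inr hv)
    have hsub : ∀ a : Algebra.adjoin K ({x} : Set F), (a : F) ∈ v.toValuationSubring := by
      intro a
      obtain ⟨p, hp⟩ : (a : F) ∈ (Polynomial.aeval (R := K) x).range :=
        (Algebra.adjoin_singleton_eq_range_aeval K x) ▸ a.2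
      rw [← hp, AlgHom.toRingHom_eq_coe, RingHom.coe_coe, Polynomial.aeval_eq_sum_range]
      exact sum_mem fun i _ => by
        rw [Algebra.smul_def]
        exact mul_mem (v.algebraMap_mem' _) (pow_mem hxv _)
    let : Algebra (Algebra.adjoin K ({x} : Set F)) v.toValuationSubring :=
      ((algebraMap (Algebra.adjoin K ({x} : Set F)) F).codRestrict
        v.toValuationSubring.toSubring hsub).toAlgebra
    have : IsScalarTower (Algebra.adjoin K ({x} : Set F)) v.toValuationSubring F :=
      IsScalarTower.of_algebraMap_eq fun _ => rfl
    obtain ⟨y, hy⟩ := IsIntegrallyClosed.isIntegral_iff.mp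
      (IsIntegral.tower_top (A := v.toValuationSubring)
        (show IsIntegral (Algebra.adjoin K ({x} : Set F)) f from hf))
    exact hy ▸ y.2
  · intro h
    have := finiteDimensional_adjoin_of_transcendental (K := K) hx
    let := (ratHom x hx).toRingHom.toAlgebra
    obtain ⟨htow, hmf, hms, hX, -⟩ := ratData x hx
    exact isIntegral_of_forall_mem hX f h

end Places

section Extension

variable {F' : Type*} [Field F'] [Algebra K F'] [IsFF K F'] [Algebra F F'] [IsScalarTower K F F']

theorem module_finite_extension (K : Type*) {F F' : Type*} [Field K] [Field F] [Field F']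
    [Algebra K F] [Algebra K F'] [IsFF K F] [IsFF K F'] [Algebra F F'] [IsScalarTower K F F'] :
    Module.Finite F F' := module_finite_extension' K

theorem isSeparable_extension (K : Type*) {F F' : Type*} [Field K] [Field F] [Field F']
    [Algebra K F] [Algebra K F'] [IsFF K F] [IsFF K F'] [Algebra F F'] [IsScalarTower K F F']
    [CharZero K] : Algebra.IsSeparable F F' := isSeparable_extension' K

variable [Algebra.IsIntegral F F']

omit [IsFF K F] in
theorem inertiaDeg_eq_one (w : Place K F') : w.inertiaDeg F = 1 := by
  have h1 := w.deg_restrict_mul_inertiaDeg (F := F)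
  rw [deg_eq_one w] at h1
  exact Nat.eq_one_of_mul_eq_one_left h1

theorem sum_ramificationIndex [Algebra.IsSeparable F F'] (v : Place K F) :
    ∑ w ∈ v.fiber F', (w.ramificationIndex F : ℤ) = Module.finrank F F' := by
  have := module_finite_extension K (F := F) (F' := F')
  rw [← sum_ramificationIndex_placesAbove (constResidue v) fun w _ => constResidue w]
  exact Finset.sum_congr (Finset.ext fun w => by rw [Place.mem_fiber, mem_placesAbove])
    fun _ _ => rfl

instance sumRamificationInertia [Algebra.IsSeparable F F'] :
    SumRamificationInertia K F F' := ⟨fun v => by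
  rw [← sum_ramificationIndex (F' := F') v]
  exact Finset.sum_congr rfl fun w _ => by rw [inertiaDeg_eq_one, Nat.cast_one, mul_one]⟩

theorem exists_restrict_eq [Algebra.IsSeparable F F'] (v : Place K F) :
    ∃ w : Place K F', w.restrict F = v := by
  have := module_finite_extension K (F := F) (F' := F')
  obtain ⟨w, hw⟩ := placesAbove_nonempty (F' := F') (constResidue v) fun w _ => constResidue w
  exact ⟨w, (mem_placesAbove _).mp hw⟩

theorem normFormula [Algebra.IsSeparable F F'] [Module.Finite F F'] :
    Divisor.PushforwardNormFormula K F F' := by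
  intro f hf D hD v
  rw [pushforward_apply_eq_sum (constResidue v) (fun w _ => constResidue w),
    ord_norm_eq_sum (constResidue v) (fun w _ => constResidue w) hf]
  exact Finset.sum_congr rfl fun w _ => hD w

end Extension

section Along

variable {F' : Type*} [Field F'] [Algebra K F'] [IsFF K F'] (φ : F →ₐ[K] F')

theorem isIntegral_alongFF : φ.toRingHom.IsIntegral := by
  let := algebraAlong φ
  have := isScalarTower_along φ
  have := module_finite_extension' K (F := F) (F' := F')
  exact (Algebra.IsIntegral.of_finite F F').isIntegral

theorem finiteAlong : FiniteAlong K φ := by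
  let := algebraAlong φ
  have := isScalarTower_along φ
  exact module_finite_extension' K (F := F) (F' := F')

theorem separableAlong [CharZero K] : SeparableAlong K φ := by
  let := algebraAlong φ
  have := isScalarTower_along φ
  exact isSeparable_extension' K (F := F) (F' := F')

theorem finrankAlong_pos : 0 < finrankAlong K φ := by
  let := algebraAlong φ
  have := isScalarTower_along φ
  have := module_finite_extension' K (F := F) (F' := F')
  exact Module.finrank_pos

variable (hφ : φ.toRingHom.IsIntegral)

omit [IsFF K F] in
theorem inertiaDegAlong_eq_one (w : Place K F') : w.inertiaDegAlong φ hφ = 1 := by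
  let := algebraAlong φ
  have := isScalarTower_along φ
  have := isIntegral_along φ hφ
  exact inertiaDeg_eq_one w

theorem fundamentalIdentityAlong (hsep : SeparableAlong K φ) :
    FundamentalIdentityAlong K φ hφ := by
  let := algebraAlong φ
  have := isScalarTower_along φ
  have := isIntegral_along φ hφ
  have : Algebra.IsSeparable F F' := hsep
  show FundamentalIdentity K F F'
  infer_instance

theorem normFormulaAlong (hfin : FiniteAlong K φ) (hsep : SeparableAlong K φ) :
    NormFormulaAlong K φ hfin := by
  let := algebraAlong φ
  have := isScalarTower_along φ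
  have : Algebra.IsSeparable F F' := hsep
  have : Module.Finite F F' := hfin
  exact normFormula

theorem sum_ramificationIndexAlong (hsep : SeparableAlong K φ) (v : Place K F) :
    ∑ w ∈ Place.fiberAlong φ hφ v, (w.ramificationIndexAlong φ : ℤ) = finrankAlong K φ := by
  let := algebraAlong φ
  have := isScalarTower_along φ
  have := isIntegral_along φ hφ
  have : Algebra.IsSeparable F F' := hsep
  exact sum_ramificationIndex (F' := F') v

theorem exists_restrictAlong_eq (hsep : SeparableAlong K φ) (v : Place K F) :
    ∃ w : Place K F', w.restrictAlong φ hφ = v := by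
  let := algebraAlong φ
  have := isScalarTower_along φ
  have := isIntegral_along φ hφ
  have : Algebra.IsSeparable F F' := hsep
  exact exists_restrict_eq (F' := F') v

omit [IsFF K F] in
include hφ in
theorem ramificationIndexAlong_pos (w : Place K F') : 0 < w.ramificationIndexAlong φ := by
  let := algebraAlong φ
  have := isScalarTower_along φ
  have := isIntegral_along φ hφ
  exact w.ramificationIndex_pos (F := F)

theorem pullbackAlong_divisorOf (f : F) :
    Divisor.pullbackAlong φ hφ (divisorOf f) = divisorOf (φ f) := by
  refine Finsupp.ext fun w => ?_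
  rw [Divisor.pullbackAlong_apply, divisorOf_apply, divisorOf_apply,
    Place.ord_restrictAlong φ hφ w f]

theorem pushforwardAlong_pullbackAlong (hsep : SeparableAlong K φ) (D : Divisor K F) :
    Divisor.pushforwardAlong φ hφ (Divisor.pullbackAlong φ hφ D)
      = (finrankAlong K φ : ℤ) • D := by
  let := algebraAlong φ
  have := isScalarTower_along φ
  have := isIntegral_along φ hφ
  have : Algebra.IsSeparable F F' := hsep
  have := module_finite_extension' K (F := F) (F' := F')
  refine Finsupp.ext fun v => ?_
  rw [Finsupp.smul_apply, smul_eq_mul]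
  exact pushforward_eq_finrank_mul (Divisor.pullback F' D) D (fun w => Divisor.pullback_apply D w) v (constResidue v)

theorem pullbackAlong_injective (hsep : SeparableAlong K φ) : Function.Injective (Divisor.pullbackAlong φ hφ) := by
  intro D E h
  refine Finsupp.ext fun v => ?_
  obtain ⟨w, rfl⟩ := exists_restrictAlong_eq φ hφ hsep v
  have h1 := DFunLike.congr_fun h w
  rw [Divisor.pullbackAlong_apply, Divisor.pullbackAlong_apply] at h1
  have := ramificationIndexAlong_pos φ hφ w
  exact mul_left_cancel₀ (by omega) h1

variable {F'' : Type*} [Field F''] [Algebra K F''] [IsFF K F''] (ψ : F' →ₐ[K] F'')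
  (hψ : ψ.toRingHom.IsIntegral) (hψφ : (ψ.comp φ).toRingHom.IsIntegral)

omit [IsFF K F] [IsFF K F'] in
theorem restrictAlong_comp (w : Place K F'') :
    w.restrictAlong (ψ.comp φ) hψφ = (w.restrictAlong ψ hψ).restrictAlong φ hφ := Place.ext <| SetLike.ext fun _ => Iff.rfl

theorem ramificationIndexAlong_comp (w : Place K F'') :
    w.ramificationIndexAlong (ψ.comp φ)
      = w.ramificationIndexAlong ψ * (w.restrictAlong ψ hψ).ramificationIndexAlong φ := by
  have hcomp : (ψ.comp φ).toRingHom.IsIntegral := isIntegral_alongFF _
  have hφ' : φ.toRingHom.IsIntegral := isIntegral_alongFF φ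
  obtain ⟨g, hg0, hg⟩ := exists_ord_eq (w.restrictAlong (ψ.comp φ) hcomp) 1
  have h1 := Place.ord_restrictAlong (ψ.comp φ) hcomp w g
  have h2 := Place.ord_restrictAlong ψ hψ w (φ g)
  have h3 := Place.ord_restrictAlong φ hφ' (w.restrictAlong ψ hψ) g
  rw [restrictAlong_comp φ hφ' ψ hψ hcomp w] at hg h1
  rw [hg, mul_one] at h1 h3
  rw [h3] at h2
  rw [AlgHom.comp_apply, h2] at h1
  exact_mod_cast h1.symm

theorem pullbackAlong_comp (D : Divisor K F) :
    Divisor.pullbackAlong (ψ.comp φ) hψφ D
      = Divisor.pullbackAlong ψ hψ (Divisor.pullbackAlong φ hφ D) := by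
  refine Finsupp.ext fun w => ?_
  rw [Divisor.pullbackAlong_apply, Divisor.pullbackAlong_apply, Divisor.pullbackAlong_apply,
    ramificationIndexAlong_comp φ ψ hψ w, restrictAlong_comp φ hφ ψ hψ hψφ w, Nat.cast_mul,
    mul_assoc]

theorem pushforwardAlong_comp (D : Divisor K F'') :
    Divisor.pushforwardAlong (ψ.comp φ) hψφ D
      = Divisor.pushforwardAlong φ hφ (Divisor.pushforwardAlong ψ hψ D) := by
  induction D using Finsupp.induction with
  | zero => simp
  | single_add w n D _ _ ih =>
    rw [map_add, map_add, map_add, ih, Divisor.pushforwardAlong_single,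
      Divisor.pushforwardAlong_single, Divisor.pushforwardAlong_single,
      inertiaDegAlong_eq_one ψ hψ, inertiaDegAlong_eq_one φ hφ,
      inertiaDegAlong_eq_one (ψ.comp φ) hψφ, restrictAlong_comp φ hφ ψ hψ hψφ w]
    simp

end Along

end FLTAgent.FF
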