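import Fermat.Agent.FF.RiemannRochTheorem

/-!
# Consequences of Riemann–Roch

`ell_le_genusFF_of_hOne_pos`, `hOne_eq_zero` (vanishing for `deg D > 2g - 2`),
`exists_nonspecial` (general effective divisors of degree `g` have `l = 1`, simultaneously for
finitely many degree zero twists), `existsUnique_effective_of_ell_eq_one`, and
`exists_mem_of_genusFF_le_degree`. The first bound multiplies a functional on `H¹(D)` by the
functions in `L(D)`.
-/

set_option autoImplicit false

noncomputable section

open AlgebraicCurve WithZero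

namespace FLTAgent.FF

variable {K F : Type*} [Field K] [Field F] [Algebra K F]

/-- Multiplication by a function on repartitions. -/
def mulRep : F →ₗ[K] ↥(repartitions K F) →ₗ[K] ↥(repartitions K F) :=
  ((LinearMap.lsmul F ↥(repartitions K F)).restrictScalars₁₂ K K)

@[simp]
theorem mulRep_apply (f : F) (α : ↥(repartitions K F)) : mulRep (K := K) f α = f • α := rfl

theorem smul_mem_repartitionsOf_add {D E : Divisor K F} {f : F} (hf : f ∈ riemannRochSpace D)
    {α : ↥(repartitions K F)} (hα : α ∈ repartitionsOf E) : f • α ∈ repartitionsOf (D + E) := by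
  intro v
  show v.adicValuation (f * (α : Place K F → F) v) ≤ _
  rw [map_mul, Finsupp.add_apply, exp_add]
  exact mul_le_mul' (hf v) (hα v)

theorem smul_mem_principalRepartitions (f : F) {α : ↥(repartitions K F)}
    (hα : α ∈ principalRepartitions K F) : f • α ∈ principalRepartitions K F := by
  rw [mem_principalRepartitions_iff] at hα ⊢
  obtain ⟨g, hg⟩ := hα
  exact ⟨f * g, funext fun v => by
    show f * (α : Place K F → F) v = _
    rw [hg]⟩

variable [IsAlgClosed K] [IsFF K F]

/-- If `H1(D) ≠ 0` then `l(D) ≤ g`. -/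
theorem ell_le_genusFF_of_hOne_pos {D : Divisor K F} (h : 0 < hOne D) :
    ell D ≤ genusFF K F := by
  obtain ⟨ω, hω⟩ : ∃ ω : Module.Dual K (H1 D), ω ≠ 0 := by
    have : 0 < Module.finrank K (Module.Dual K (H1 D)) := by
      rw [Subspace.dual_finrank_eq]; exact h
    have := Module.finrank_pos_iff.1 this
    exact exists_ne 0
  set p := repartitionsOf D ⊔ principalRepartitions K F with hp
  set p₀ := repartitionsOf (0 : Divisor K F) ⊔ principalRepartitions K F with hp₀
  have hmap : ∀ f ∈ riemannRochSpace D, ∀ α ∈ p₀, f • α ∈ p := by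
    intro f hf α hα
    obtain ⟨β, hβ, γ, hγ, rfl⟩ := Submodule.mem_sup.1 hα
    rw [smul_add]
    refine add_mem (Submodule.mem_sup_left ?_)
      (Submodule.mem_sup_right (smul_mem_principalRepartitions f hγ))
    simpa using smul_mem_repartitionsOf_add hf hβ
  let Φ : riemannRochSpace D →ₗ[K] Module.Dual K (H1 (0 : Divisor K F)) :=
    { toFun := fun f => ω ∘ₗ Submodule.mapQ p₀ p (mulRep (f : F)) (fun α hα => hmap f f.2 α hα)
      map_add' := fun f g => LinearMap.ext fun x => by
        obtain ⟨α, rfl⟩ := Submodule.mkQ_surjective _ x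
        show ω (p.mkQ (((f : F) + g) • α)) = ω (p.mkQ ((f : F) • α)) + ω (p.mkQ ((g : F) • α))
        rw [add_smul, map_add, map_add]
      map_smul' := fun c f => LinearMap.ext fun x => by
        obtain ⟨α, rfl⟩ := Submodule.mkQ_surjective _ x
        show ω (p.mkQ ((c • (f : F)) • α)) = c • ω (p.mkQ ((f : F) • α))
        rw [smul_assoc, map_smul, map_smul] }
  have hinj : Function.Injective Φ := by
    rw [injective_iff_map_eq_zero]
    intro f hf
    by_contra hne
    have hf0 : (f : F) ≠ 0 := fun h => hne (Subtype.ext h)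
    refine hω (LinearMap.ext fun x => ?_)
    obtain ⟨α, rfl⟩ := Submodule.mkQ_surjective _ x
    have := LinearMap.congr_fun hf (p₀.mkQ ((f : F)⁻¹ • α))
    change ω (p.mkQ ((f : F) • (f : F)⁻¹ • α)) = 0 at this
    rwa [smul_inv_smul₀ hf0] at this
  calc ell D ≤ Module.finrank K (Module.Dual K (H1 (0 : Divisor K F))) :=
        LinearMap.finrank_le_finrank_of_injective hinj
    _ = genusFF K F := Subspace.dual_finrank_eq

/-- `H1(D) = 0` for `deg D > 2g - 2`. -/
theorem hOne_eq_zero {D : Divisor K F} (h : 2 * (genusFF K F : ℤ) - 2 < Divisor.degree D) :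
    hOne D = 0 := by
  by_contra h0
  have h1 := ell_le_genusFF_of_hOne_pos (Nat.pos_of_ne_zero h0)
  have h2 := riemann_roch D
  omega

theorem ell_eq_of_large {D : Divisor K F} (h : 2 * (genusFF K F : ℤ) - 2 < Divisor.degree D) :
    (ell D : ℤ) = Divisor.degree D + 1 - (genusFF K F : ℤ) := by
  have := riemann_roch D
  rw [hOne_eq_zero h] at this
  simpa using this

theorem degree_le_of_hOne_pos {D : Divisor K F} (h : 0 < hOne D) :
    Divisor.degree D ≤ 2 * (genusFF K F : ℤ) - 2 := by
  by_contra h'
  have := hOne_eq_zero (not_le.1 h')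
  omega

theorem hOne_antitone {D E : Divisor K F} (h : D ≤ E) : hOne E ≤ hOne D :=
  LinearMap.finrank_le_finrank_of_surjective (h1Map_surjective h)

theorem hOne_add_single (D : Divisor K F) (v : Place K F) :
    hOne D ≤ hOne (D + Finsupp.single v 1) + 1 := by
  rcases ell_step_or D v with ⟨-, hA⟩ | ⟨-, hH⟩
  · have : hOne (D + Finsupp.single v 1) = hOne D :=
      (Submodule.quotEquivOfEq _ _ hA).finrank_eq
    omega
  · obtain ⟨-, hh⟩ := hH
    omega

/-- When `H1(D) ≠ 0`, only finitely many places fail to cut it down. -/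
theorem finite_setOf_hOne_add_single_eq {D : Divisor K F} (h : 0 < hOne D) :
    {v : Place K F | hOne (D + Finsupp.single v 1) = hOne D}.Finite := by
  classical
  by_contra hinf
  have key : ∀ s : Finset (Place K F), (∀ v ∈ s, hOne (D + Finsupp.single v 1) = hOne D) →
      repartitionsOf (D + ∑ v ∈ s, Finsupp.single v 1) ⊔ principalRepartitions K F =
        repartitionsOf D ⊔ principalRepartitions K F := by
    intro s
    induction s using Finset.induction with
    | empty => simp
    | insert v s hv ih =>
      intro hs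
      obtain ⟨t, ht0, ht⟩ := exists_ord_eq v (-(D v + 1))
      have hsame : repartitionsOf (D + Finsupp.single v 1) ⊔ principalRepartitions K F =
          repartitionsOf D ⊔ principalRepartitions K F := by
        rcases ell_step_or D v with ⟨-, hA⟩ | ⟨-, hH⟩
        · exact hA
        · obtain ⟨-, hh⟩ := hH
          have := hs v (Finset.mem_insert_self v s)
          omega
      set S := ∑ w ∈ s, Finsupp.single w (1 : ℤ) with hS
      have ht' : v.ord t = -((D + S) v + 1) := by
        have : S v = 0 := by
          rw [hS, Finset.sum_apply']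
          exact Finset.sum_eq_zero fun w hw =>
            Finsupp.single_eq_of_ne (fun h => hv (h ▸ hw))
        rw [Finsupp.add_apply, this, add_zero, ht]
      have hIH := ih fun w hw => hs w (Finset.mem_insert_of_mem hw)
      rw [Finset.sum_insert hv, add_comm (Finsupp.single v 1) S, ← add_assoc,
        repartitionsOf_add_single (D + S) v ht0 ht', sup_assoc,
        sup_comm (K ∙ singleRep v t), ← sup_assoc, hIH, sup_eq_left,
        Submodule.span_singleton_le_iff_mem, ← hsame, repartitionsOf_add_single D v ht0 ht]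
      exact Submodule.mem_sup_left
        (Submodule.mem_sup_right (Submodule.mem_span_singleton_self _))
  obtain ⟨s, hs, hcard⟩ := (Set.not_finite.1 hinf).exists_subset_card_eq
    ((2 * (genusFF K F : ℤ) - 2 - Divisor.degree D).toNat + 1)
  have hcongr := key s fun v hv => hs hv
  have heq : hOne (D + ∑ v ∈ s, Finsupp.single v 1) = hOne D :=
    (Submodule.quotEquivOfEq _ _ hcongr).finrank_eq
  have hd := degree_le_of_hOne_pos (heq.symm ▸ h)
  rw [map_add, map_sum, Finset.sum_congr rfl fun v _ => degree_single_one v, Finset.sum_const,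
    hcard, nsmul_one] at hd
  omega

/-- Any infinite set of places contains `n` distinct places killing all the given `H1`. -/
theorem exists_finset_hOne_eq_zero {ι : Type*} [Finite ι] {S : Set (Place K F)} (hS : S.Infinite)
    {n : ℕ} (D : ι → Divisor K F) (hn : ∀ i, hOne (D i) ≤ n) :
    ∃ s : Finset (Place K F), s.card = n ∧ (↑s : Set (Place K F)) ⊆ S ∧
      ∀ i, hOne (D i + ∑ v ∈ s, Finsupp.single v 1) = 0 := by
  classical
  induction n generalizing S D with
  | zero => exact ⟨∅, rfl, by simp, fun i => by simpa using hn i⟩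
  | succ n ih =>
    have hfin : (⋃ i, {v : Place K F | 0 < hOne (D i) ∧
        hOne (D i + Finsupp.single v 1) = hOne (D i)}).Finite := by
      refine Set.finite_iUnion fun i => ?_
      rcases Nat.eq_zero_or_pos (hOne (D i)) with h | h
      · simp [h]
      · exact (finite_setOf_hOne_add_single_eq h).subset fun v hv => hv.2
    obtain ⟨v, hvS, hv⟩ := (hS.sdiff hfin).nonempty
    simp only [Set.mem_iUnion, Set.mem_ofPred_eq, not_exists, not_and] at hv
    obtain ⟨s, hcard, hsub, hs⟩ := ih (hS.sdiff (Set.finite_singleton v))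
      (fun i => D i + Finsupp.single v 1) fun i => by
        have h1 := hOne_antitone (le_add_of_nonneg_right
          (Finsupp.single_nonneg.2 (zero_le_one' ℤ)) : D i ≤ D i + Finsupp.single v 1)
        have h2 := hn i
        rcases Nat.eq_zero_or_pos (hOne (D i)) with h | h
        · omega
        · have := hv i h
          omega
    have hvs : v ∉ s := fun h => (hsub h).2 rfl
    refine ⟨insert v s, by rw [Finset.card_insert_of_notMem hvs, hcard], ?_, fun i => ?_⟩
    · intro w hw
      rcases Finset.mem_insert.1 (Finset.mem_coe.1 hw) with rfl | hw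
      · exact hvS
      · exact (hsub hw).1
    · rw [Finset.sum_insert hvs, ← add_assoc]
      exact hs i

/-- For finitely many degree-zero divisors, `g` distinct places in any infinite set give an
effective divisor `D₀` of degree `g` with `l(zᵢ + D₀) = 1`. -/
theorem exists_nonspecial {ι : Type*} [Finite ι] {S : Set (Place K F)} (hS : S.Infinite)
    (z : ι → Divisor K F) (hz : ∀ i, Divisor.degree (z i) = 0) :
    ∃ s : Finset (Place K F), s.card = genusFF K F ∧ (↑s : Set (Place K F)) ⊆ S ∧
      Divisor.degree (∑ v ∈ s, Finsupp.single v (1 : ℤ)) = (genusFF K F : ℤ) ∧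
      ∀ i, hOne (z i + ∑ v ∈ s, Finsupp.single v 1) = 0 ∧
        ell (z i + ∑ v ∈ s, Finsupp.single v 1) = 1 := by
  obtain ⟨s, hcard, hsub, hs⟩ := exists_finset_hOne_eq_zero (n := genusFF K F) hS z fun i => by
    have h1 := riemann_roch (z i)
    have h2 : ell (z i) ≤ 1 := by
      by_contra h
      obtain ⟨f, hf, hf0⟩ := exists_ne_zero_of_ell_pos (lt_trans zero_lt_one (not_le.1 h))
      obtain ⟨E, hE, hP, -⟩ := exists_effective_equiv hf hf0
      have hd := degree_eq_of_isPrincipal hP
      rw [map_sub, hz i, sub_zero] at hd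
      have := ell_le_degree_add_one hE
      rw [ell_congr hP, hd] at this
      omega
    rw [hz i] at h1
    omega
  have hdeg : Divisor.degree (∑ v ∈ s, Finsupp.single v (1 : ℤ)) = (genusFF K F : ℤ) := by
    rw [map_sum, Finset.sum_congr rfl fun v _ => degree_single_one v, Finset.sum_const, hcard,
      nsmul_one]
  refine ⟨s, hcard, hsub, hdeg, fun i => ⟨hs i, ?_⟩⟩
  have := riemann_roch (z i + ∑ v ∈ s, Finsupp.single v 1)
  rw [hs i, map_add, hz i, hdeg] at this
  omega

/-- `l(D) = 1` gives a unique effective divisor linearly equivalent to `D`. -/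
theorem existsUnique_effective_of_ell_eq_one {D : Divisor K F} (h : ell D = 1) :
    ∃! E : Divisor K F, 0 ≤ E ∧ Divisor.IsPrincipal (E - D) := by
  obtain ⟨f, hf, hf0⟩ := exists_ne_zero_of_ell_pos (h ▸ zero_lt_one : 0 < ell D)
  obtain ⟨E, hE, hP, hEv⟩ := exists_effective_equiv hf hf0
  refine ⟨E, ⟨hE, hP⟩, fun E' ⟨hE', g, hg0, hg⟩ => ?_⟩
  have hgm : g ∈ riemannRochSpace D := mem_riemannRochSpace_of_ord fun v => by
    have h1 := hg v
    have h2 := Finsupp.le_def.mp hE' v
    simp only [Finsupp.sub_apply, Finsupp.coe_zero, Pi.zero_apply] at h1 h2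
    omega
  have hne : (⟨f, hf⟩ : riemannRochSpace D) ≠ 0 := fun h => hf0 (congrArg Subtype.val h)
  obtain ⟨c, hc⟩ := (finrank_eq_one_iff_of_nonzero' _ hne).1 h ⟨g, hgm⟩
  have hc' : algebraMap K F c * f = g := by
    rw [← Algebra.smul_def]; exact congrArg Subtype.val hc
  have hc0 : algebraMap K F c ≠ 0 := fun h0 => hg0 (by rw [← hc', h0, zero_mul])
  ext v
  have h1 := hg v
  rw [← hc', v.ord_mul hc0 hf0, ord_algebraMap] at h1
  simp only [Finsupp.sub_apply] at h1
  rw [hEv v]
  omega

end FLTAgent.FF

namespace FLTAgent.FF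

variable {K F : Type*} [Field K] [Field F] [Algebra K F] [IsAlgClosed K] [IsFF K F]

/-- Divisors of degree at least `g` are linearly equivalent to effective ones. -/
theorem exists_mem_of_genusFF_le_degree {D : Divisor K F}
    (h : (genusFF K F : ℤ) ≤ Divisor.degree D) :
    ∃ f : F, f ≠ 0 ∧ ∀ v : Place K F, 0 ≤ D v + v.ord f := by
  have h1 := degree_add_one_sub_genusFF_le_ell D
  obtain ⟨f, hf, hf0⟩ := exists_ne_zero_of_ell_pos (show 0 < ell D by omega)
  exact ⟨f, hf0, fun v => by have := ord_of_mem_riemannRochSpace hf hf0 v; omega⟩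

/-- A degree zero divisor has `l ≤ 1`, with equality only for principal divisors. -/
theorem isPrincipal_of_degree_zero_of_ell_pos {D : Divisor K F}
    (hd : Divisor.degree D = 0) (h : 0 < ell D) : Divisor.IsPrincipal D := by
  obtain ⟨f, hf, hf0⟩ := exists_ne_zero_of_ell_pos h
  obtain ⟨E, hE, hP, hEv⟩ := exists_effective_equiv hf hf0
  have h1 := degree_eq_of_isPrincipal hP
  rw [map_sub, hd, sub_zero] at h1
  have hE0 := eq_zero_of_degree_nonpos hE h1.le
  refine ⟨f⁻¹, inv_ne_zero hf0, fun v => ?_⟩
  have := hEv v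
  rw [hE0, Finsupp.coe_zero, Pi.zero_apply] at this
  rw [v.ord_inv]
  omega

end FLTAgent.FF
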