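import Fermat.Agent.FF.PlacesMain
import Fermat.Prelude.Def_ModularCurve_HeckeOperatorTotal

/-!
# Modular function fields as function fields

`isFF_laurentBaseChange_full`: the base change to `L` of the full modular function field of level
`N` is a function field, given that each `j(q^d)`, `d ∣ N`, is algebraic over `ℚ(j)`; and
`heckeInputsAlong`: for algebraically closed `L` the inputs of the Hecke correspondences
(integrality, fundamental identity, norm formula) hold.
-/

set_option autoImplicit false

noncomputable section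

open AlgebraicCurve IntermediateField ModularCurve

namespace FLTAgent.FF

variable (L : Type*) [Field L] [Algebra ℚ L]

theorem transcendental_coeffEmb_jq : Transcendental L (coeffEmb L jq) := by
  rintro ⟨p, hp0, hp⟩
  have hc := congrArg (fun z : LaurentSeries L => z.coeff (-(p.natDegree : ℤ))) hp
  simp only [Polynomial.aeval_eq_sum_range, HahnSeries.coeff_sum, Algebra.smul_def,
    algebraMap_laurentSeries_eq_single, HahnSeries.coeff_single_zero_mul,
    HahnSeries.coeff_zero] at hc
  rw [Finset.sum_range_succ, Finset.sum_eq_zero, zero_add] at hc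
  · rw [← map_pow, coeffEmb_coeff, coeff_jq_pow_self, map_one, mul_one] at hc
    exact hp0 (Polynomial.leadingCoeff_eq_zero.mp hc)
  · intro i hi
    rw [← map_pow, coeffEmb_coeff,
      coeff_jq_pow_of_lt (by have := Finset.mem_range.mp hi; omega), map_zero, mul_zero]

theorem isFF_laurentBaseChange (F₀ : IntermediateField ℚ (LaurentSeries ℚ))
    {s : Set (LaurentSeries ℚ)} (hs : s.Finite) (hF₀ : F₀ = adjoin ℚ s) (hj : jq ∈ F₀)
    (halg : ∀ y ∈ s, IsAlgebraic ℚ⟮jq⟯ y) : IsFF L (laurentBaseChange L F₀) := by
  have : CharZero L := charZero_of_injective_algebraMap (algebraMap ℚ L).injective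
  have hrat : ∀ q : ℚ, coeffEmb L (algebraMap ℚ (LaurentSeries ℚ) q)
      = algebraMap L (LaurentSeries L) (algebraMap ℚ L q) := fun q => by
    rw [coeffEmb, algebraMap_apply_eq_single, coeffMap_single, algebraMap_laurentSeries_eq_single]
  have hmap : ∀ (t : Set (LaurentSeries ℚ)) (T : IntermediateField L (LaurentSeries L)),
      (∀ y ∈ t, coeffEmb L y ∈ T) → ∀ y ∈ adjoin ℚ t, coeffEmb L y ∈ T := by
    intro t T h y hy
    induction hy using IntermediateField.adjoin_induction with
    | mem a ha => exact h a ha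
    | algebraMap q => rw [hrat]; exact T.algebraMap_mem _
    | add a b _ _ ha hb => rw [map_add]; exact add_mem ha hb
    | inv a _ ha => rw [map_inv₀]; exact inv_mem ha
    | mul a b _ _ ha hb => rw [map_mul]; exact mul_mem ha hb
  have heq : laurentBaseChange L F₀ = adjoin L (coeffEmb L '' s) := by
    refine le_antisymm (adjoin_le_iff.mpr ?_) (adjoin.mono L _ _ (Set.image_mono ?_))
    · rintro _ ⟨y, hy, rfl⟩
      exact hmap s (adjoin L (coeffEmb L '' s))
        (fun a ha => subset_adjoin L _ (Set.mem_image_of_mem _ ha)) y (hF₀ ▸ hy)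
    · rw [hF₀]; exact subset_adjoin ℚ s
  have hjL : coeffEmb L jq ∈ adjoin L (coeffEmb L '' s) :=
    heq ▸ coeffEmb_mem_laurentBaseChange L hj
  rw [heq]
  refine IsFF.adjoin_of_isAlgebraic (transcendental_coeffEmb_jq L) (hs.image _) hjL ?_
  rintro _ ⟨y, hy, rfl⟩
  obtain ⟨p, hp0, hp⟩ := halg y hy
  let g : ℚ⟮jq⟯ →+* L⟮coeffEmb L jq⟯ :=
    ((coeffEmb L).comp (algebraMap ℚ⟮jq⟯ (LaurentSeries ℚ))).codRestrict
      (L⟮coeffEmb L jq⟯).toSubfield.toSubring fun a =>
        hmap {jq} _ (fun b hb => by
          rw [Set.mem_singleton_iff.mp hb]; exact mem_adjoin_simple_self L _) _ a.2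
  refine ⟨p.map g, (Polynomial.map_ne_zero_iff g.injective).mpr hp0, ?_⟩
  rw [Polynomial.aeval_def, Polynomial.eval₂_map]
  have hcomp : (algebraMap L⟮coeffEmb L jq⟯ (LaurentSeries L)).comp g
      = (coeffEmb L).comp (algebraMap ℚ⟮jq⟯ (LaurentSeries ℚ)) := rfl
  rw [hcomp, ← Polynomial.hom_eval₂, ← Polynomial.aeval_def, hp, map_zero]

open scoped Classical in
/-- The base change of the full modular function field of level `N` is a function field. -/
theorem isFF_laurentBaseChange_full (N : ℕ) [NeZero N]
    (halg : ∀ d : ℕ, ∀ _ : NeZero d, d ∣ N → IsAlgebraic ℚ⟮jq⟯ (qExpand ℚ d jq)) :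
    IsFF L (laurentBaseChange L (modularFunctionFieldFull N)) := by
  refine isFF_laurentBaseChange L (modularFunctionFieldFull N) (s := divisorExpansions N) ?_ rfl
    (by have h := jqd_mem_full N (one_dvd N); rwa [qExpand_one_apply] at h) ?_
  · refine Set.Finite.subset (Set.Finite.image
      (fun d : ℕ => if h : NeZero d then (haveI := h; qExpand ℚ d jq) else 0)
      (Finset.finite_toSet N.divisors)) ?_
    rintro x ⟨d, hd, hdvd, rfl⟩
    exact ⟨d, Nat.mem_divisors.mpr ⟨hdvd, NeZero.ne N⟩, by simp [hd]⟩
  · rintro x ⟨d, hd, hdvd, rfl⟩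
    exact halg d hd hdvd

variable [IsAlgClosed L]

/-- The inputs of the Hecke correspondence from level `N ℓ` to level `N`. -/
theorem heckeInputsAlong (N ℓ : ℕ) [NeZero N] [NeZero ℓ]
    [IsFF L (laurentBaseChange L (modularFunctionFieldFull N))]
    [IsFF L (laurentBaseChange L (modularFunctionFieldFull (N * ℓ)))] :
    HeckeInputsAlong L N ℓ := by
  have : CharZero L := charZero_of_injective_algebraMap (algebraMap ℚ L).injective
  exact heckeInputsAlong_intro (isIntegral_alongFF _) (isIntegral_alongFF _)
    (fundamentalIdentityAlong _ _ (separableAlong _)) (finiteAlong _)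
    (normFormulaAlong _ _ (separableAlong _))

end FLTAgent.FF
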