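import Fermat.Agent.FF.DifferentialsGlobal
import Fermat.Prelude.Def_AlgebraicCurve_Repartitions

/-!
# Differentials of function fields: main results

For a function field `F/K` with `K` algebraically closed, of any characteristic: orders of
differentials at places (`ordDifferential_D_of_ord_cast_ne_zero`, the tame formulas for `dx`), the
instance `hasCanonicalDivisor`, the duality `finrank_H1_eq_finrank_riemannRochSpace`
(`h¹(D) = l(W - D)`), `degree_canonicalDivisorOf` (`2g - 2`), `genus_eq_genusFF`, the spaces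
`differentialsGE` with `finrank_differentialsGE` and `card_le_genusFF`, and the Riemann–Hurwitz
formula `riemannHurwitz` for a tame separating element. The divisor of `dx` is that of the Weil
differential of `DifferentialsGlobal`, so everything reduces to duality for Weil differentials.
-/

set_option autoImplicit false

noncomputable section

open AlgebraicCurve KaehlerDifferential IntermediateField

namespace FLTAgent.FF

variable {K F : Type*} [Field K] [Field F] [Algebra K F] [IsAlgClosed K] [IsFF K F]

theorem exists_isSep : ∃ x : F, IsSep K x := exists_sepElem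

theorem D_ne_zero_of_isSep {x : F} (hx : IsSep K x) : KaehlerDifferential.D K F x ≠ 0 :=
  D_ne_zero_of_isSep' hx

theorem span_D_eq_top {x : F} (hx : IsSep K x) :
    Submodule.span F {KaehlerDifferential.D K F x} = ⊤ := span_D_eq_top_of_isSep hx

theorem exists_eq_smul_D {x : F} (hx : IsSep K x) (ω : Ω[F⁄K]) :
    ∃ f : F, ω = f • KaehlerDifferential.D K F x := by
  obtain ⟨f, hf⟩ := exists_smul_of_ne_zero (D_ne_zero_of_isSep hx) ω
  exact ⟨f, hf.symm⟩

theorem finrank_kaehler_eq_one : Module.finrank F Ω[F⁄K] = 1 :=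
  kaehler_free_rank_one_aux.2

instance nontrivial_kaehler : Nontrivial Ω[F⁄K] := IsCurveOver.instNontrivialKaehler

instance dCoordGenerates (v : Place K F) : v.DCoordGenerates := dCoordGenerates' v

theorem differentialCoeff_ne_zero (v : Place K F) {ω : Ω[F⁄K]} (hω : ω ≠ 0) :
    v.differentialCoeff ω ≠ 0 := differentialCoeff_ne_zero' v hω

theorem ordDifferential_smul_of_ne_zero (v : Place K F) {c : F} (hc : c ≠ 0) {ω : Ω[F⁄K]}
    (hω : ω ≠ 0) : v.ordDifferential (c • ω) = v.ord c + v.ordDifferential ω :=
  ordDifferential_smul' v hc hω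

theorem min_le_ordDifferential_add (v : Place K F) {ω η : Ω[F⁄K]} (h : ω + η ≠ 0) :
    min (v.ordDifferential ω) (v.ordDifferential η) ≤ v.ordDifferential (ω + η) :=
  min_le_ordDifferential_add' v h

/-- Any uniformizer may be used as local coordinate. -/
theorem ordDifferential_smul_D_uniformizer (v : Place K F) {π : F} (hπ : v.ord π = 1) (g : F) :
    v.ordDifferential (g • KaehlerDifferential.D K F π) = v.ord g :=
  ordDifferential_smul_D_uniformizer' v hπ g

theorem ordDifferential_D_nonneg (v : Place K F) {f : F} (h : 0 ≤ v.ord f) :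
    0 ≤ v.ordDifferential (KaehlerDifferential.D K F f) := ordDifferential_D_nonneg' v h

theorem ord_sub_one_le_ordDifferential_D (v : Place K F) {f : F}
    (hf : KaehlerDifferential.D K F f ≠ 0) :
    v.ord f - 1 ≤ v.ordDifferential (KaehlerDifferential.D K F f) :=
  ord_sub_one_le_ordDifferential_D' v hf

theorem ordDifferential_D_of_ord_cast_ne_zero (v : Place K F) {f : F}
    (h : (v.ord f : K) ≠ 0) :
    KaehlerDifferential.D K F f ≠ 0 ∧
      v.ordDifferential (KaehlerDifferential.D K F f) = v.ord f - 1 :=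
  ordDifferential_D_of_ord_cast_ne_zero' v h

theorem ordDifferential_D_of_ord_sub_cast_ne_zero (v : Place K F) {f : F} {c : K}
    (h : (v.ord (f - algebraMap K F c) : K) ≠ 0) :
    KaehlerDifferential.D K F f ≠ 0 ∧
      v.ordDifferential (KaehlerDifferential.D K F f) = v.ord (f - algebraMap K F c) - 1 := by
  rw [← D_sub_algebraMap f c]
  exact ordDifferential_D_of_ord_cast_ne_zero v h

theorem ord_loc_eq_ramX {x : F} (hx : IsSep K x) {i : Option K} {v : Place K F}
    (h : 0 < v.ord (loc x i)) : v.ord (loc x i) = ramX x v ∧ 0 < ramX x v := by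
  have := hx.finite
  have := hx.separable
  obtain ⟨u, s', hs', -, hu1, hiff⟩ :=
    exists_basePlace (IntermediateField.adjoin K ({x} : Set F)) (isSep_loc hx i)
      (adjoin_loc hx i).symm
  have hw := (hiff v).mpr h
  have e := v.ord_restrict (F := IntermediateField.adjoin K ({x} : Set F)) s'
  rw [hw, hu1, mul_one, IntermediateField.algebraMap_apply, hs'] at e
  exact ⟨e, v.ramificationIndex_pos⟩

theorem ramX_pos {x : F} (hx : IsSep K x) (v : Place K F) : 0 < ramX x v := by
  obtain ⟨i, hi⟩ := exists_index hx v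
  exact (ord_loc_eq_ramX hx hi).2

theorem ord_sub_eq_ramX {x : F} (hx : IsSep K x) (v : Place K F) {c : K}
    (h : 0 < v.ord (x - algebraMap K F c)) :
    v.ord (x - algebraMap K F c) = ramX x v :=
  (ord_loc_eq_ramX hx (i := some c) h).1

theorem ord_eq_neg_ramX {x : F} (hx : IsSep K x) (v : Place K F) (h : v.ord x < 0) :
    v.ord x = -(ramX x v : ℤ) := by
  have e := (ord_loc_eq_ramX hx (i := none) (v := v) (by simp only [loc, v.ord_inv]; omega)).1
  simp only [loc, v.ord_inv] at e
  omega

theorem exists_residue_of_isSep {x : F} (hx : IsSep K x) (v : Place K F) (hv : 0 ≤ v.ord x) :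
    ∃ c : K, 0 < v.ord (x - algebraMap K F c) := by
  obtain ⟨i, hi⟩ := exists_index hx v
  cases i with
  | none => simp only [loc, v.ord_inv] at hi; omega
  | some c => exact ⟨c, hi⟩

/-- At a place where a separating element is finite its differential has order `≥ e - 1`. -/
theorem ramX_sub_one_le_ordDifferential {x : F} (hx : IsSep K x) (v : Place K F)
    (hv : 0 ≤ v.ord x) :
    (ramX x v : ℤ) - 1 ≤ v.ordDifferential (KaehlerDifferential.D K F x) := by
  obtain ⟨c, hc⟩ := exists_residue_of_isSep hx v hv
  rw [← D_sub_algebraMap x c, ← ord_sub_eq_ramX hx v hc]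
  exact ord_sub_one_le_ordDifferential_D v (by rw [D_sub_algebraMap]; exact D_ne_zero_of_isSep hx)

theorem ordDifferential_D_of_tame_finite {x : F} (hx : IsSep K x) (v : Place K F)
    (hv : 0 ≤ v.ord x) (ht : (ramX x v : K) ≠ 0) :
    v.ordDifferential (KaehlerDifferential.D K F x) = (ramX x v : ℤ) - 1 := by
  obtain ⟨c, hc⟩ := exists_residue_of_isSep hx v hv
  have e := ord_sub_eq_ramX hx v hc
  rw [← e]
  exact (ordDifferential_D_of_ord_sub_cast_ne_zero v (by rw [e]; exact_mod_cast ht)).2

theorem ordDifferential_D_of_tame_infinite {x : F} (hx : IsSep K x) (v : Place K F)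
    (hv : v.ord x < 0) (ht : (ramX x v : K) ≠ 0) :
    v.ordDifferential (KaehlerDifferential.D K F x) = -(ramX x v : ℤ) - 1 := by
  have e := ord_eq_neg_ramX hx v hv
  rw [← e]
  exact (ordDifferential_D_of_ord_cast_ne_zero v (by rw [e]; push_cast; exact neg_ne_zero.mpr ht)).2

theorem finite_ordDifferential_D_ne_zero {x : F} (hx : IsSep K x) :
    {w : Place K F | w.ordDifferential (KaehlerDifferential.D K F x) ≠ 0}.Finite := by
  classical
  obtain ⟨lam, hne, hle, -⟩ := exists_weil_of_isSep hx
  set W : Place K F → ℤ := fun w => w.ordDifferential (KaehlerDifferential.D K F x)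
  set P := (finite_setOf_ord_neg (K := K) x).toFinset
  set S : Set (Place K F) := {w | 0 ≤ w.ord x ∧ 0 < W w}
  suffices hS : S.Finite by
    refine (P.finite_toSet.union hS).subset fun w (hw : W w ≠ 0) => ?_
    rcases lt_or_ge (w.ord x) 0 with h | h
    · exact Or.inl ((finite_setOf_ord_neg (K := K) x).mem_toFinset.mpr h)
    · exact Or.inr ⟨h, lt_of_le_of_ne (ordDifferential_D_nonneg w h) (Ne.symm hw)⟩
  have hbound : ∀ T : Finset (Place K F), ↑T ⊆ S →
      (T.card : ℤ) ≤ 2 * (genusFF K F : ℤ) - 2 - ∑ w ∈ P, W w := by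
    intro T hT
    have hdisj : Disjoint T P := Finset.disjoint_left.mpr fun w h1 h2 => by
      have ha := (hT h1).1
      have hb : w.ord x < 0 := (finite_setOf_ord_neg (K := K) x).mem_toFinset.mp h2
      omega
    set D : Divisor K F := ∑ w ∈ T, Finsupp.single w 1 + ∑ w ∈ P, Finsupp.single w (W w) with hD
    have hDle : ∀ w, D w ≤ W w := by
      intro w
      rw [hD, Finsupp.add_apply, Finsupp.finsetSum_apply, Finsupp.finsetSum_apply]
      simp only [Finsupp.single_apply, Finset.sum_ite_eq']
      by_cases h1 : w ∈ T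
      · have h2 : w ∉ P := Finset.disjoint_left.mp hdisj h1
        have := (hT h1).2
        rw [if_pos h1, if_neg h2]; omega
      · by_cases h2 : w ∈ P
        · rw [if_neg h1, if_pos h2]; omega
        · have h3 : 0 ≤ w.ord x := not_lt.mp fun h =>
            h2 ((finite_setOf_ord_neg (K := K) x).mem_toFinset.mpr h)
          have := ordDifferential_D_nonneg w h3
          rw [if_neg h1, if_neg h2, add_zero]; exact this
    have hdeg := degree_le_of_hOne_pos (hOne_pos_of_mem_weilSpace (hle D hDle) hne)
    rw [hD, map_add, map_sum, map_sum] at hdeg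
    simp only [Divisor.degree_single, deg_eq_one, Nat.cast_one, mul_one, Finset.sum_const,
      nsmul_eq_mul] at hdeg
    omega
  by_contra hinf
  obtain ⟨T, hT, hcard⟩ := Set.Infinite.exists_subset_card_eq hinf
    ((2 * (genusFF K F : ℤ) - 2 - ∑ w ∈ P, W w).toNat + 1)
  have := hbound T hT
  rw [hcard] at this
  push_cast at this
  omega

instance hasCanonicalDivisor : HasCanonicalDivisor (K := K) (F := F) := ⟨fun ω hω => by
  obtain ⟨x, hx⟩ := exists_isSep (K := K) (F := F)
  obtain ⟨f, rfl⟩ := exists_eq_smul_D hx ω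
  have hf : f ≠ 0 := fun h => hω (by rw [h, zero_smul])
  refine ⟨Finsupp.ofSupportFinite
    (fun w => w.ordDifferential (f • KaehlerDifferential.D K F x))
    (((finite_ord_ne_zero f).union (finite_ordDifferential_D_ne_zero hx)).subset fun w hw => ?_),
    fun _ => rfl⟩
  rw [Function.mem_support, ordDifferential_smul_of_ne_zero w hf (D_ne_zero_of_isSep hx)] at hw
  by_contra h
  simp only [Set.mem_union, Set.mem_ofPred_eq, not_or, not_not] at h
  omega⟩

theorem canonicalDivisorOf_smul {ω : Ω[F⁄K]} {f : F} (hω : ω ≠ 0) (hfω : f • ω ≠ 0) :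
    canonicalDivisorOf hfω = divisorOf f + canonicalDivisorOf hω := by
  have hf : f ≠ 0 := fun h => hfω (by rw [h, zero_smul])
  refine Finsupp.ext fun w => ?_
  rw [Finsupp.add_apply, canonicalDivisorOf_apply, canonicalDivisorOf_apply, divisorOf_apply,
    ordDifferential_smul_of_ne_zero w hf hω]

theorem hOne_eq_ell_canonical_sub {ω : Ω[F⁄K]} (hω : ω ≠ 0) (D : Divisor K F) :
    hOne D = ell (canonicalDivisorOf hω - D) := by
  obtain ⟨x, hx⟩ := exists_isSep (K := K) (F := F)
  obtain ⟨f, rfl⟩ := exists_eq_smul_D hx ω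
  have hf : f ≠ 0 := fun h => hω (by rw [h, zero_smul])
  obtain ⟨lam, hne, hle, hmax⟩ := exists_weil_of_isSep hx
  have h1 := hOne_eq_ell_sub (W := canonicalDivisorOf (D_ne_zero_of_isSep hx))
    (hle _ fun w => (canonicalDivisorOf_apply _ w).le) hne
    (fun E hE => Finsupp.le_def.mpr fun w => (hmax E hE w).trans
      (canonicalDivisorOf_apply _ w).ge) D
  rw [h1]
  refine (ell_congr ⟨f, hf, fun w => ?_⟩).symm
  rw [canonicalDivisorOf_smul (D_ne_zero_of_isSep hx) hω]
  simp only [Finsupp.sub_apply, Finsupp.add_apply, divisorOf_apply]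
  ring

/-- `h¹(D) = l(W - D)` for the divisor `W` of a nonzero differential. -/
theorem finrank_H1_eq_finrank_riemannRochSpace {ω : Ω[F⁄K]} (hω : ω ≠ 0) (D : Divisor K F) :
    Module.finrank K (H1 D) =
      Module.finrank K ↥(riemannRochSpace (canonicalDivisorOf hω - D)) :=
  hOne_eq_ell_canonical_sub hω D

/-- The divisor of a nonzero differential has degree `2g - 2`. -/
theorem degree_canonicalDivisorOf {ω : Ω[F⁄K]} (hω : ω ≠ 0) :
    Divisor.degree (canonicalDivisorOf hω) = 2 * (genusFF K F : ℤ) - 2 := by
  have h1 := hOne_eq_ell_canonical_sub hω 0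
  have h2 := hOne_eq_ell_canonical_sub hω (canonicalDivisorOf hω)
  rw [sub_zero, hOne_zero] at h1
  rw [sub_self, ell_zero] at h2
  have h3 := riemann_roch (canonicalDivisorOf hω)
  omega

/-- The genus read off from differentials is `h¹(0)`. -/
theorem genus_eq_genusFF [HasCanonicalDivisor (K := K) (F := F)] :
    genus K F = genusFF K F := by
  obtain ⟨x, hx⟩ := exists_isSep (K := K) (F := F)
  have h : ∃ ω : Ω[F⁄K], ω ≠ 0 := ⟨_, D_ne_zero_of_isSep hx⟩
  rw [genus, dif_pos h]
  rw [degree_canonicalDivisorOf]
  omega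

/-- The space of differentials with divisor at least `D` (and zero). -/
def differentialsGE (D : Divisor K F) : Submodule K Ω[F⁄K] where
  carrier := {ω | ω = 0 ∨ ∀ v : Place K F, D v ≤ v.ordDifferential ω}
  zero_mem' := Or.inl rfl
  add_mem' := fun {a b} ha hb => by
    rcases eq_or_ne (a + b) 0 with h | h
    · exact Or.inl h
    rcases ha with rfl | ha
    · simpa using hb
    rcases hb with rfl | hb
    · simpa using Or.inr ha
    exact Or.inr fun v => (le_min (ha v) (hb v)).trans (min_le_ordDifferential_add v h)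
  smul_mem' := fun k ω hω => by
    rcases eq_or_ne k 0 with rfl | hk
    · exact Or.inl (zero_smul _ _)
    rcases hω with rfl | hω
    · exact Or.inl (smul_zero _)
    rcases eq_or_ne ω 0 with rfl | h0
    · exact Or.inl (smul_zero _)
    refine Or.inr fun v => ?_
    rw [← algebraMap_smul F k ω,
      ordDifferential_smul_of_ne_zero v ((map_ne_zero _).mpr hk) h0, ord_algebraMap, zero_add]
    exact hω v

theorem mem_differentialsGE_iff {D : Divisor K F} {ω : Ω[F⁄K]} :
    ω ∈ differentialsGE D ↔ ω = 0 ∨ ∀ v : Place K F, D v ≤ v.ordDifferential ω := Iff.rfl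

theorem exists_differentialsGE_equiv {ω : Ω[F⁄K]} (hω : ω ≠ 0) (D : Divisor K F) :
    Nonempty (↥(riemannRochSpace (canonicalDivisorOf hω - D)) ≃ₗ[K] ↥(differentialsGE D)) := by
  let φ : ↥(riemannRochSpace (canonicalDivisorOf hω - D)) →ₗ[K] Ω[F⁄K] :=
    { toFun := fun f => (f : F) • ω
      map_add' := fun f g => add_smul _ _ _
      map_smul' := fun k f => smul_assoc k (f : F) ω }
  have hinj : Function.Injective φ := fun f g h => Subtype.ext (by
    have h' : ((f : F) - (g : F)) • ω = 0 := by rw [sub_smul, sub_eq_zero]; exact h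
    exact sub_eq_zero.mp ((smul_eq_zero.mp h').resolve_right hω))
  have hrange : LinearMap.range φ = differentialsGE D := by
    ext η
    rw [mem_differentialsGE_iff, LinearMap.mem_range]
    constructor
    · rintro ⟨⟨f, hf⟩, rfl⟩
      rcases eq_or_ne f 0 with rfl | hf0
      · exact Or.inl (zero_smul _ _)
      refine Or.inr fun v => ?_
      show D v ≤ v.ordDifferential (f • ω)
      rw [ordDifferential_smul_of_ne_zero v hf0 hω]
      have := ord_of_mem_riemannRochSpace hf hf0 v
      rw [Finsupp.sub_apply, canonicalDivisorOf_apply] at this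
      omega
    · intro hη
      obtain ⟨f, rfl⟩ := exists_smul_of_ne_zero hω η
      refine ⟨⟨f, mem_riemannRochSpace_iff.mpr fun v => ?_⟩, rfl⟩
      rcases eq_or_ne f 0 with rfl | hf0
      · exact Or.inl rfl
      rcases hη with h | h
      · exact absurd h (smul_ne_zero hf0 hω)
      right
      have := h v
      rw [ordDifferential_smul_of_ne_zero v hf0 hω] at this
      rw [Finsupp.sub_apply, canonicalDivisorOf_apply]
      omega
  exact ⟨(LinearEquiv.ofInjective φ hinj).trans (LinearEquiv.ofEq _ _ hrange)⟩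

/-- `h¹(D) = dim {ω | div ω ≥ D}`. -/
theorem finrank_differentialsGE (D : Divisor K F) :
    Module.finrank K ↥(differentialsGE D) = Module.finrank K (H1 D) := by
  obtain ⟨x, hx⟩ := exists_isSep (K := K) (F := F)
  obtain ⟨e⟩ := exists_differentialsGE_equiv (D_ne_zero_of_isSep hx) D
  rw [← e.finrank_eq, finrank_H1_eq_finrank_riemannRochSpace (D_ne_zero_of_isSep hx) D]

instance finite_differentialsGE (D : Divisor K F) :
    Module.Finite K ↥(differentialsGE D) := by
  obtain ⟨x, hx⟩ := exists_isSep (K := K) (F := F)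
  obtain ⟨e⟩ := exists_differentialsGE_equiv (D_ne_zero_of_isSep hx) D
  exact Module.Finite.equiv e

theorem finrank_differentialsGE_zero :
    Module.finrank K ↥(differentialsGE (0 : Divisor K F)) = genusFF K F :=
  finrank_differentialsGE 0

theorem finrank_le_genusFF (S : Submodule K Ω[F⁄K])
    (hS : ∀ ω ∈ S, ω ≠ 0 → ∀ v : Place K F, 0 ≤ v.ordDifferential ω) :
    Module.Finite K ↥S ∧ Module.finrank K ↥S ≤ genusFF K F := by
  have hle : S ≤ differentialsGE (0 : Divisor K F) := fun ω hω => by
    rcases eq_or_ne ω 0 with h | h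
    · exact Or.inl h
    · exact Or.inr fun v => by simpa using hS ω hω h v
  refine ⟨Submodule.finiteDimensional_of_le hle, ?_⟩
  rw [← finrank_differentialsGE_zero]
  exact Submodule.finrank_mono hle

/-- At most `g` independent differentials are regular everywhere. -/
theorem card_le_genusFF {ι : Type*} [Fintype ι] (ω : ι → Ω[F⁄K]) (hli : LinearIndependent K ω)
    (h : ∀ i, ∀ v : Place K F, 0 ≤ v.ordDifferential (ω i)) :
    Fintype.card ι ≤ genusFF K F := by
  rw [← finrank_span_eq_card hli, ← finrank_differentialsGE_zero]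
  refine Submodule.finrank_mono (Submodule.span_le.mpr ?_)
  rintro _ ⟨i, rfl⟩
  exact Or.inr fun v => by simpa using h i v

/-- Riemann–Hurwitz for a tame separating element. -/
theorem riemannHurwitz {x : F} (hx : IsSep K x) (ht : ∀ v : Place K F, (ramX x v : K) ≠ 0)
    (S : Finset (Place K F)) (hS : ∀ v : Place K F, v ∉ S → ramX x v = 1) :
    2 * (genusFF K F : ℤ) - 2 =
      -2 * (Module.finrank (IntermediateField.adjoin K ({x} : Set F)) F : ℤ) +
        ∑ v ∈ S, ((ramX x v : ℤ) - 1) := by
  classical
  have := hx.separable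
  have hdx := D_ne_zero_of_isSep hx
  rw [← degree_canonicalDivisorOf hdx, ← degree_poleDivisor hx.transcendental]
  set E : Divisor K F := Finsupp.onFinset S (fun v => (ramX x v : ℤ) - 1)
    (fun v hv => by by_contra h; exact hv (by rw [hS v h]; simp)) with hE
  have hdiv : canonicalDivisorOf hdx = E - (2 : ℤ) • poleDivisor x := by
    refine Finsupp.ext fun v => ?_
    rw [Finsupp.sub_apply, Finsupp.smul_apply, poleDivisor_apply, canonicalDivisorOf_apply, hE,
      Finsupp.onFinset_apply, smul_eq_mul]
    rcases lt_or_ge (v.ord x) 0 with h | h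
    · rw [ordDifferential_D_of_tame_infinite hx v h (ht v), ord_eq_neg_ramX hx v h, neg_neg]
      omega
    · rw [ordDifferential_D_of_tame_finite hx v h (ht v)]
      omega
  have hsum : Divisor.degree E = ∑ v ∈ S, ((ramX x v : ℤ) - 1) := by
    rw [degree_eq_sum, hE]
    exact Finsupp.onFinset_sum _ (fun _ => rfl)
  rw [hdiv, map_sub, map_zsmul, hsum, smul_eq_mul]
  ring

end FLTAgent.FF
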