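import Mathlib
import Fermat.Agent.FF.Defs
import Fermat.Prelude.Def_AlgebraicCurve_DivisorPushPull
import Fermat.Prelude.Def_AlgebraicCurve_CanonicalDivisor

/-!
# Separating elements and ramification over the projective line

The predicate `IsSep K x` (`x` is a separating element of `F/K`) and `ramX x v`, the ramification
index of a place `v` over `K(x)`.
-/

set_option autoImplicit false

noncomputable section

open AlgebraicCurve KaehlerDifferential IntermediateField

namespace FLTAgent.FF

/-- `x` is a separating element of `F/K`. -/
structure IsSep (K : Type*) {F : Type*} [Field K] [Field F] [Algebra K F] (x : F) : Prop where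
  transcendental : Transcendental K x
  finite : FiniteDimensional (IntermediateField.adjoin K ({x} : Set F)) F
  separable : Algebra.IsSeparable (IntermediateField.adjoin K ({x} : Set F)) F

/-- The ramification index at `v` of the map `x : X → ℙ¹`. -/
def ramX {K F : Type*} [Field K] [Field F] [Algebra K F] (x : F) (v : Place K F) : ℕ :=
  v.ramificationIndex (IntermediateField.adjoin K ({x} : Set F))

end FLTAgent.FF
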