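import Fermat.Agent.FF.PlacesBasic

/-!
# Places in a finite extension

Above a place `v` with constant residues (`ConstResidue`): the fibre `placesAbove` is finite, the
integral closure `overRing v F'` is the intersection of the rings of the fibre
(`mem_overRing_iff`), the fundamental identity `sum_ramificationIndex_placesAbove` and the norm
formula `ord_norm_eq_sum`. Both formulas come from counting dimensions of quotients of the
semi-local ring (`finrank_quotient_span`).
-/

set_option autoImplicit false

noncomputable section

open WithZero IsDedekindDomain AlgebraicCurve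

namespace FLTAgent.FF

section Residue

variable {K F : Type*} [Field K] [Field F] [Algebra K F]

/-- Every residue at `v` is given by a constant. -/
def ConstResidue (v : Place K F) : Prop :=
  ∀ f ∈ v.toValuationSubring, ∃ c : K, v.adicValuation (f - algebraMap K F c) ≤ exp (-1 : ℤ)

theorem residue_eq_zero_iff_val (v : Place K F) (a : v.toValuationSubring) :
    IsLocalRing.residue v.toValuationSubring a = 0 ↔ v.adicValuation (a : F) ≤ exp (-1 : ℤ) := by
  have h1 : v.adicValuation (a : F) ≤ 1 := (mem_iff_val_le_one v _).mp a.2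
  rw [IsLocalRing.residue_eq_zero_iff, IsLocalRing.mem_maximalIdeal, mem_nonunits_iff,
    ← v.adicValuation_coe_eq_one_iff]
  rcases eq_or_ne (a : F) 0 with h | h
  · simp [h]
  rw [val_eq_exp v h] at h1 ⊢
  rw [← exp_zero, exp_le_exp] at h1
  rw [exp_le_exp, ← exp_zero, exp_inj]
  omega

theorem constResidue_iff_surjective (v : Place K F) :
    ConstResidue v ↔ Function.Surjective (algebraMap K v.ResidueField) := by
  constructor
  · intro h x
    obtain ⟨a, rfl⟩ := IsLocalRing.residue_surjective x
    obtain ⟨c, hc⟩ := h a a.2
    refine ⟨c, (sub_eq_zero.mp ?_).symm⟩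
    show IsLocalRing.residue _ a - IsLocalRing.residue _ (algebraMap K v.toValuationSubring c) = 0
    rw [← map_sub, residue_eq_zero_iff_val]
    exact hc
  · intro h f hf
    obtain ⟨c, hc⟩ := h (IsLocalRing.residue _ ⟨f, hf⟩)
    refine ⟨c, ?_⟩
    have h0 : IsLocalRing.residue _ (⟨f, hf⟩ - algebraMap K v.toValuationSubring c) = 0 := by
      rw [map_sub, sub_eq_zero]
      exact hc.symm
    exact (residue_eq_zero_iff_val v _).mp h0

theorem ConstResidue.finite {v : Place K F} (h : ConstResidue v) :
    Module.Finite K v.ResidueField :=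
  Module.Finite.of_surjective (Algebra.linearMap K v.ResidueField)
    ((constResidue_iff_surjective v).mp h)

theorem ConstResidue.deg_eq_one {v : Place K F} (h : ConstResidue v) : v.deg = 1 := by
  have hbij : Function.Bijective (algebraMap K v.ResidueField) :=
    ⟨(algebraMap K v.ResidueField).injective, (constResidue_iff_surjective v).mp h⟩
  show Module.finrank K v.ResidueField = 1
  rw [← Module.finrank_self K]
  exact ((AlgEquiv.ofBijective (Algebra.ofId K v.ResidueField) hbij).toLinearEquiv.finrank_eq).symm

theorem constResidue_of_finite [IsAlgClosed K] (v : Place K F)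
    (h : Module.Finite K v.ResidueField) : ConstResidue v :=
  (constResidue_iff_surjective v).mpr <| by
    have : Algebra.IsIntegral K v.ResidueField := Algebra.IsIntegral.of_finite K v.ResidueField
    exact IsAlgClosed.algebraMap_bijective_of_isIntegral.2

theorem ConstResidue.exists_ord {v : Place K F} (h : ConstResidue v) {f : F}
    (hf : f ∈ v.toValuationSubring) :
    ∃ c : K, f = algebraMap K F c ∨ 0 < v.ord (f - algebraMap K F c) := by
  obtain ⟨c, hc⟩ := h f hf
  refine ⟨c, ?_⟩
  rcases (val_le_exp_iff v).mp hc with h0 | h0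
  · exact Or.inl (sub_eq_zero.mp h0)
  · exact Or.inr (by omega)

end Residue

variable {K F F' : Type*} [Field K] [Field F] [Field F'] [Algebra K F] [Algebra K F']
  [Algebra F F'] [IsScalarTower K F F'] [Module.Finite F F']

omit [IsScalarTower K F F'] [Module.Finite F F'] [Algebra K F] in
theorem algebraMap_eq_zero_or (f : F) : algebraMap F F' f = 0 ↔ f = 0 := map_eq_zero _

theorem val_algebraMap_le_one {v : Place K F} {w : Place K F'} (hw : w.restrict F = v) {b : F}
    (hb : v.adicValuation b ≤ 1) : w.adicValuation (algebraMap F F' b) ≤ 1 := by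
  rw [← mem_iff_val_le_one, ← hw] at hb
  rwa [← mem_iff_val_le_one, ← Place.mem_restrict_iff]

theorem val_algebraMap_le_exp_neg_one {v : Place K F} {w : Place K F'} (hw : w.restrict F = v)
    {b : F} (hb : v.adicValuation b ≤ exp (-1 : ℤ)) :
    w.adicValuation (algebraMap F F' b) ≤ exp (-1 : ℤ) := by
  rw [val_le_exp_iff] at hb ⊢
  rcases hb with h | h
  · exact Or.inl (by simp [h])
  · refine Or.inr ?_
    rw [w.ord_restrict (F := F) b, hw]
    have he : 1 ≤ (w.ramificationIndex F : ℤ) := by exact_mod_cast w.ramificationIndex_pos (F := F)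
    nlinarith

/-- Functions which stay independent modulo the maximal ideals above `v` are few. -/
theorem card_le_finrank_of_residually_indep {v : Place K F} (hv : ConstResidue v)
    {ι : Type*} [Fintype ι] (T : Set (Place K F')) (hT : ∀ w ∈ T, w.restrict F = v) (f : ι → F')
    (hf : ∀ i, ∀ w ∈ T, w.adicValuation (f i) ≤ 1)
    (hind : ∀ c : ι → K, (∀ w ∈ T,
        w.adicValuation (∑ i, algebraMap K F' (c i) * f i) ≤ exp (-1 : ℤ)) → c = 0) :
    Fintype.card ι ≤ Module.finrank F F' := by
  classical
  apply LinearIndependent.fintype_card_le_finrank (R := F) (b := f)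
  rw [Fintype.linearIndependent_iff]
  intro a ha
  by_contra hne
  push Not at hne
  obtain ⟨i₁, hi₁⟩ := hne
  obtain ⟨i₀, -, hmax⟩ := Finset.exists_max_image Finset.univ (fun i => v.adicValuation (a i))
    ⟨i₁, Finset.mem_univ i₁⟩
  have hi₀ : a i₀ ≠ 0 := by
    intro h0
    have h := hmax i₁ (Finset.mem_univ i₁)
    rw [h0, map_zero] at h
    exact v.adicValuation_ne_zero hi₁ (le_zero_iff.mp h)
  have hb : ∀ i, v.adicValuation (a i / a i₀) ≤ 1 := fun i => by
    rw [map_div₀]
    exact (div_le_one₀ (zero_lt_iff.mpr (v.adicValuation_ne_zero hi₀))).mpr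
      (hmax i (Finset.mem_univ i))
  choose c hc using fun i => hv (a i / a i₀) ((mem_iff_val_le_one v _).mpr (hb i))
  have hrel : ∑ i, algebraMap F F' (a i / a i₀) * f i = 0 := by
    have hscale : (a i₀)⁻¹ • ∑ i, a i • f i = 0 := by rw [ha, smul_zero]
    rw [Finset.smul_sum] at hscale
    rw [← hscale]
    refine Finset.sum_congr rfl fun i _ => ?_
    rw [smul_smul, Algebra.smul_def, ← div_eq_inv_mul]
  have hc0 : c = 0 := by
    refine hind c fun w hw => ?_
    have hsum : ∑ i, algebraMap K F' (c i) * f i
        = ∑ i, algebraMap F F' (algebraMap K F (c i) - a i / a i₀) * f i := by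
      simp only [map_sub, sub_mul, Finset.sum_sub_distrib, hrel, sub_zero,
        ← IsScalarTower.algebraMap_apply]
    rw [hsum]
    refine Valuation.map_sum_le _ fun i _ => ?_
    rw [map_mul]
    refine (mul_le_mul' (val_algebraMap_le_exp_neg_one (hT w hw) ?_) (hf i w hw)).trans
      (by rw [mul_one])
    rw [← Valuation.map_neg, neg_sub]
    exact hc i
  have h1 := hc i₀
  rw [hc0, div_self hi₀] at h1
  simp only [Pi.zero_apply, map_zero, sub_zero, map_one, ← exp_zero, exp_le_exp] at h1
  omega

theorem card_fiber_le {v : Place K F} (hv : ConstResidue v) (T : Finset (Place K F'))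
    (hT : ∀ w ∈ T, w.restrict F = v) : T.card ≤ Module.finrank F F' := by
  classical
  choose f hf using fun t : T =>
    exists_val_sub_le T (fun w => if w = t.1 then (1 : F') else 0) (fun _ => 1)
  rw [← Fintype.card_coe]
  refine card_le_finrank_of_residually_indep hv (T : Set (Place K F')) hT f (fun t w hw => ?_)
    (fun c hc => ?_)
  · have h : w.adicValuation (f t - if w = t.1 then 1 else 0) ≤ 1 :=
      (hf t w hw).trans (by rw [← exp_zero, exp_le_exp]; omega)
    rw [← mem_iff_val_le_one] at h ⊢
    split_ifs at h with hwt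
    · simpa using add_mem h (one_mem _)
    · simpa using h
  · funext t₀
    by_contra hne
    have hmain : t₀.1.adicValuation
        (∑ t, algebraMap K F' (c t) * (f t - if t₀.1 = t.1 then 1 else 0)) ≤ exp (-1 : ℤ) := by
      refine Valuation.map_sum_le _ fun t _ => ?_
      rw [map_mul]
      refine (mul_le_mul' ((mem_iff_val_le_one _ _).mp (t₀.1.algebraMap_mem' (c t)))
        (hf t t₀.1 t₀.2)).trans ?_
      rw [one_mul]
    have hsum := hc t₀.1 t₀.2
    have hdiff : t₀.1.adicValuation (algebraMap K F' (c t₀)) ≤ exp (-1 : ℤ) := by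
      have heq : algebraMap K F' (c t₀) = (∑ t, algebraMap K F' (c t) * f t)
          - ∑ t, algebraMap K F' (c t) * (f t - if t₀.1 = t.1 then 1 else 0) := by
        simp only [mul_sub, Finset.sum_sub_distrib, sub_sub_cancel, mul_ite, mul_one, mul_zero,
          Subtype.coe_inj, Finset.sum_ite_eq, Finset.mem_univ, if_true]
      rw [heq]
      exact (Valuation.map_sub _ _ _).trans (max_le hsum hmain)
    have hne' : algebraMap K F' (c t₀) ≠ 0 := by simpa using hne
    rw [val_eq_exp _ hne', ord_algebraMap, exp_le_exp] at hdiff
    omega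

theorem fiber_finite {v : Place K F} (hv : ConstResidue v) :
    {w : Place K F' | w.restrict F = v}.Finite := by
  classical
  by_contra hinf
  obtain ⟨T, hTs, hTc⟩ := Set.Infinite.exists_subset_card_eq hinf (Module.finrank F F' + 1)
  have := card_fiber_le hv T fun w hw => hTs hw
  omega

theorem finite_residueField_of_restrict (w : Place K F') (hv : ConstResidue (w.restrict F)) :
    Module.Finite K w.ResidueField := by
  classical
  have hbound : ∀ s : Finset w.ResidueField, LinearIndependent K (fun x : s => (x : w.ResidueField)) →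
      s.card ≤ Module.finrank F F' := by
    intro s hs
    choose a ha using fun x : s => IsLocalRing.residue_surjective (x : w.ResidueField)
    rw [← Fintype.card_coe]
    refine card_le_finrank_of_residually_indep hv {w} (by rintro _ rfl; rfl) (fun x => (a x : F'))
      (by rintro x _ rfl; exact (mem_iff_val_le_one _ _).mp (a x).2) (fun c hc => ?_)
    have h := hc w rfl
    have hres : IsLocalRing.residue w.toValuationSubring
        (∑ x, algebraMap K w.toValuationSubring (c x) * a x) = 0 := by
      rw [residue_eq_zero_iff_val]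
      push_cast
      exact h
    simp only [map_sum, map_mul, ha] at hres
    funext x
    refine Fintype.linearIndependent_iff.mp hs c ?_ x
    rw [← hres]
    exact Finset.sum_congr rfl fun y _ => Algebra.smul_def _ _
  have : Module.rank K w.ResidueField ≤ (Module.finrank F F' : ℕ) := rank_le hbound
  exact Module.rank_lt_aleph0_iff.mp (this.trans_lt (Cardinal.natCast_lt_aleph0))

theorem constResidue_of_restrict [IsAlgClosed K] (w : Place K F')
    (hv : ConstResidue (w.restrict F)) : ConstResidue w :=
  constResidue_of_finite w (finite_residueField_of_restrict w hv)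

section Norm

variable (F : Type*) {F' : Type*} [Field F] [Field F'] [Algebra F F'] [Module.Finite F F']

theorem normHom_inv (a : F') : Algebra.norm F a⁻¹ = (Algebra.norm F a)⁻¹ :=
  map_inv₀ ({ Algebra.norm F with map_zero' := Algebra.norm_zero } : F' →*₀ F) a

theorem normHom_div (a b : F') : Algebra.norm F (a / b) = Algebra.norm F a / Algebra.norm F b :=
  map_div₀ ({ Algebra.norm F with map_zero' := Algebra.norm_zero } : F' →*₀ F) a b

theorem normHom_zpow (a : F') (n : ℤ) : Algebra.norm F (a ^ n) = Algebra.norm F a ^ n :=
  map_zpow₀ ({ Algebra.norm F with map_zero' := Algebra.norm_zero } : F' →*₀ F) a n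

end Norm

section Ring

variable (v : Place K F)

instance : IsScalarTower K v.toValuationSubring F' :=
  IsScalarTower.of_algebraMap_eq fun c => IsScalarTower.algebraMap_apply K F F' c

/-- The integral closure in `F'` of the ring of the place `v`. -/
abbrev overRing (F' : Type*) [Field F'] [Algebra F F'] : Subalgebra v.toValuationSubring F' :=
  integralClosure v.toValuationSubring F'

instance instAlgebraOverRing : Algebra K (overRing v F') :=
  ((algebraMap v.toValuationSubring (overRing v F')).comp
    (algebraMap K v.toValuationSubring)).toAlgebra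

instance : IsScalarTower K v.toValuationSubring (overRing v F') :=
  IsScalarTower.of_algebraMap_eq fun _ => rfl

instance : IsScalarTower K (overRing v F') F' :=
  IsScalarTower.of_algebraMap_eq fun c => IsScalarTower.algebraMap_apply K F F' c

theorem mem_place_of_mem_overRing {f : F'} (hf : f ∈ overRing v F') {w : Place K F'}
    (hw : w.restrict F = v) : f ∈ w.toValuationSubring := by
  have hsub : ∀ b : v.toValuationSubring, algebraMap F F' b ∈ w.toValuationSubring := fun b => by
    have hb : (b : F) ∈ v.toValuationSubring := b.2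
    rwa [← Place.mem_restrict_iff, hw]
  let : Algebra v.toValuationSubring w.toValuationSubring :=
    (((algebraMap F F').comp v.toValuationSubring.subtype).codRestrict
      w.toValuationSubring.toSubring hsub).toAlgebra
  have : IsScalarTower v.toValuationSubring w.toValuationSubring F' :=
    IsScalarTower.of_algebraMap_eq fun _ => rfl
  obtain ⟨y, hy⟩ := IsIntegrallyClosed.isIntegral_iff.mp
    (IsIntegral.tower_top (A := w.toValuationSubring) (show IsIntegral v.toValuationSubring f from hf))
  exact hy ▸ y.2

/-- The finite set of places above `v`. -/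
def placesAbove {v : Place K F} (hv : ConstResidue v) (F' : Type*) [Field F'] [Algebra K F'] [Algebra F F']
    [IsScalarTower K F F'] [Module.Finite F F'] : Finset (Place K F') :=
  (fiber_finite (F' := F') hv).toFinset

theorem mem_placesAbove {v : Place K F} (hv : ConstResidue v) {w : Place K F'} : w ∈ placesAbove hv F' ↔ w.restrict F = v := by
  simp [placesAbove]

variable [Algebra.IsSeparable F F']

instance : IsDedekindDomain (overRing v F') :=
  IsIntegralClosure.isDedekindDomain v.toValuationSubring F F' _

instance : IsFractionRing (overRing v F') F' :=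
  IsIntegralClosure.isFractionRing_of_finite_extension v.toValuationSubring F F' _

instance : Module.Finite v.toValuationSubring (overRing v F') :=
  IsIntegralClosure.finite v.toValuationSubring F F' _

theorem mem_overRing_iff (f : F') :
    f ∈ overRing v F' ↔ ∀ w : Place K F', w.restrict F = v → f ∈ w.toValuationSubring := by
  refine ⟨fun hf w hw => mem_place_of_mem_overRing v hf hw, fun h => ?_⟩
  obtain ⟨s, hs⟩ := HeightOneSpectrum.mem_integers_of_valuation_le_one (R := overRing v F') F' f
    fun P => by
      rw [← mem_ofHeightOneSpectrum_iff (K := K)]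
      refine h _ (place_eq_of_le fun b hb => ?_).symm
      rw [Place.mem_restrict_iff]
      exact algebraMap_mem_ofHeightOneSpectrum P
        (algebraMap v.toValuationSubring (overRing v F') ⟨b, hb⟩)
  exact hs ▸ s.2

variable {v}
variable (hv : ConstResidue v)

theorem mem_overRing_iff_ord {f : F'} (hf : f ≠ 0) :
    f ∈ overRing v F' ↔ ∀ w ∈ placesAbove hv F', 0 ≤ w.ord f := by
  rw [mem_overRing_iff]
  simp only [mem_placesAbove, mem_iff_ord_nonneg _ hf]

variable (hres : ∀ w : Place K F', w.restrict F = v → ConstResidue w)

include hres hv in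
/-- The quotient of the over-ring by a nonzero element has dimension the total order. -/
theorem finrank_quotient_span (d : ℕ) : ∀ g : overRing v F', (g : F') ≠ 0 →
    (∑ w ∈ placesAbove hv F', w.ord (g : F')) = d →
    Module.Finite K (overRing v F' ⧸ Ideal.span {g}) ∧
      Module.finrank K (overRing v F' ⧸ Ideal.span {g}) = d := by
  classical
  induction d with
  | zero =>
    intro g hg hsum
    have hnn : ∀ w ∈ placesAbove hv F', 0 ≤ w.ord (g : F') := (mem_overRing_iff_ord hv hg).mp g.2
    have hinv : (g : F')⁻¹ ∈ overRing v F' := by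
      rw [mem_overRing_iff_ord hv (inv_ne_zero hg)]
      intro w hw
      rw [w.ord_inv, (Finset.sum_eq_zero_iff_of_nonneg hnn).mp (by exact_mod_cast hsum) w hw,
        neg_zero]
    have hu : IsUnit g := IsUnit.of_mul_eq_one ⟨_, hinv⟩ (Subtype.ext (mul_inv_cancel₀ hg))
    have htop : Ideal.span {g} = (⊤ : Ideal (overRing v F')) := Ideal.span_singleton_eq_top.mpr hu
    have : Subsingleton (overRing v F' ⧸ Ideal.span {g}) :=
      Ideal.Quotient.subsingleton_iff.mpr htop
    exact ⟨inferInstance, Module.finrank_zero_of_subsingleton⟩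
  | succ d ih =>
    intro g hg hsum
    have hnn : ∀ w ∈ placesAbove hv F', 0 ≤ w.ord (g : F') := (mem_overRing_iff_ord hv hg).mp g.2
    obtain ⟨w₀, hw₀, hpos⟩ : ∃ w₀ ∈ placesAbove hv F', 0 < w₀.ord (g : F') := by
      by_contra h
      push Not at h
      have : ∑ w ∈ placesAbove hv F', w.ord (g : F') ≤ 0 := Finset.sum_nonpos h
      omega
    obtain ⟨p, hp0, hp⟩ :=
      exists_forall_ord_eq (placesAbove hv F') (fun w => if w = w₀ then (1 : ℤ) else 0)
    have hpmem : p ∈ overRing v F' := by
      rw [mem_overRing_iff_ord hv hp0]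
      intro w hw
      rw [hp w hw]
      split_ifs <;> omega
    have hdiv : ∀ b : F', b ≠ 0 → (∀ w ∈ placesAbove hv F', 0 ≤ w.ord b) → 0 < w₀.ord b →
        b / p ∈ overRing v F' := by
      intro b hb hbn hb0
      rw [mem_overRing_iff_ord hv (div_ne_zero hb hp0)]
      intro w hw
      rw [ord_div w hb hp0, hp w hw]
      split_ifs with h
      · subst h; omega
      · have := hbn w hw; omega
    set p' : overRing v F' := ⟨p, hpmem⟩
    set h' : overRing v F' := ⟨(g : F') / p, hdiv _ hg hnn hpos⟩
    have hgeq : g = p' * h' := Subtype.ext (mul_div_cancel₀ (g : F') hp0).symm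
    have hh0 : (h' : F') ≠ 0 := div_ne_zero hg hp0
    obtain ⟨hfin, hrank⟩ := ih h' hh0 (by
      show ∑ w ∈ placesAbove hv F', w.ord ((g : F') / p) = (d : ℤ)
      rw [Finset.sum_congr rfl (fun w hw => by
        rw [ord_div w hg hp0, hp w hw] : ∀ w ∈ placesAbove hv F', w.ord ((g : F') / p)
          = w.ord (g : F') - if w = w₀ then 1 else 0), Finset.sum_sub_distrib,
        Finset.sum_ite_eq', if_pos hw₀, hsum]
      push_cast
      ring)
    let Ig := (Ideal.span {g} : Ideal (overRing v F'))
    let Ih := (Ideal.span {h'} : Ideal (overRing v F'))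
    let Ip := (Ideal.span {p'} : Ideal (overRing v F'))
    let mulp : (overRing v F' ⧸ Ih) →ₗ[K] (overRing v F' ⧸ Ig) :=
      ((Submodule.mapQ Ih Ig (LinearMap.mulLeft (overRing v F') p') (by
        intro x hx
        obtain ⟨y, rfl⟩ := Ideal.mem_span_singleton'.mp hx
        exact Ideal.mem_span_singleton'.mpr ⟨y, by
          rw [hgeq, LinearMap.mulLeft_apply]; ring⟩))).restrictScalars K
    let proj : (overRing v F' ⧸ Ig) →ₗ[K] (overRing v F' ⧸ Ip) :=
      ((Submodule.mapQ Ig Ip LinearMap.id (by
        intro x hx
        obtain ⟨y, rfl⟩ := Ideal.mem_span_singleton'.mp hx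
        exact Ideal.mem_span_singleton'.mpr ⟨y * h', by
          rw [hgeq]; ring⟩))).restrictScalars K
    have hp'0 : p' ≠ 0 := fun h => hp0 (congrArg Subtype.val h)
    have hinj : Function.Injective mulp := by
      rw [← LinearMap.ker_eq_bot, LinearMap.ker_eq_bot']
      intro x
      induction x using Submodule.Quotient.induction_on with
      | H x =>
        intro hx
        rw [LinearMap.coe_restrictScalars, Submodule.mapQ_apply, Submodule.Quotient.mk_eq_zero,
          LinearMap.mulLeft_apply, Ideal.mem_span_singleton'] at hx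
        obtain ⟨y, hy⟩ := hx
        rw [Submodule.Quotient.mk_eq_zero, Ideal.mem_span_singleton']
        exact ⟨y, mul_left_cancel₀ hp'0 (by rw [← hy, hgeq]; ring)⟩
    have hrange : LinearMap.ker proj = LinearMap.range mulp := by
      ext x
      induction x using Submodule.Quotient.induction_on with
      | H x =>
        rw [LinearMap.mem_ker, LinearMap.mem_range, LinearMap.coe_restrictScalars,
          Submodule.mapQ_apply, Submodule.Quotient.mk_eq_zero, LinearMap.id_apply,
          Ideal.mem_span_singleton']
        constructor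
        · rintro ⟨y, rfl⟩
          refine ⟨Submodule.Quotient.mk y, ?_⟩
          rw [LinearMap.coe_restrictScalars, Submodule.mapQ_apply, LinearMap.mulLeft_apply,
            mul_comm]
        · rintro ⟨y, hy⟩
          induction y using Submodule.Quotient.induction_on with
          | H y =>
            rw [LinearMap.coe_restrictScalars, Submodule.mapQ_apply, LinearMap.mulLeft_apply,
              Submodule.Quotient.eq, Ideal.mem_span_singleton'] at hy
            obtain ⟨z, hz⟩ := hy
            exact ⟨y - z * h', by linear_combination (-1 : overRing v F') * hz + z * hgeq⟩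
    have hsurj : Function.Surjective proj := by
      intro x
      induction x using Submodule.Quotient.induction_on with
      | H x => exact ⟨Submodule.Quotient.mk x, rfl⟩
    have hconst : Function.Surjective (algebraMap K (overRing v F' ⧸ Ip)) := by
      intro x
      obtain ⟨a, rfl⟩ := Ideal.Quotient.mk_surjective x
      obtain ⟨c, hc⟩ := (hres w₀ ((mem_placesAbove hv).mp hw₀)).exists_ord
        (mem_place_of_mem_overRing v a.2 ((mem_placesAbove hv).mp hw₀))
      refine ⟨c, (Ideal.Quotient.eq.mpr ?_).symm⟩
      rw [Ideal.mem_span_singleton']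
      have hb : ((a - algebraMap K (overRing v F') c : overRing v F') : F')
          = (a : F') - algebraMap K F' c := by
        rw [AddSubgroupClass.coe_sub,
          IsScalarTower.algebraMap_apply K (overRing v F') F' c]
        rfl
      rcases eq_or_ne ((a : F') - algebraMap K F' c) 0 with h0 | h0
      · refine ⟨0, Subtype.ext ?_⟩
        rw [zero_mul, hb, h0]
        rfl
      · refine ⟨⟨_, hdiv _ h0 ((mem_overRing_iff_ord hv h0).mp (hb ▸ Subtype.property _))
          (hc.resolve_left (fun h => h0 (sub_eq_zero.mpr h)))⟩, Subtype.ext ?_⟩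
        exact (div_mul_cancel₀ _ hp0).trans hb.symm
    have hne1 : Ip ≠ ⊤ := by
      rw [Ne, Ideal.span_singleton_eq_top]
      intro hu
      obtain ⟨y, hy⟩ := isUnit_iff_exists_inv.mp hu
      have hy' : p * (y : F') = 1 := congrArg Subtype.val hy
      have hy0 : (y : F') ≠ 0 := fun h => by simp [h] at hy'
      have h1 := congrArg w₀.ord hy'
      rw [w₀.ord_mul hp0 hy0, w₀.ord_one, hp w₀ hw₀, if_pos rfl] at h1
      have := (mem_overRing_iff_ord hv hy0).mp y.2 w₀ hw₀
      omega
    have : Nontrivial (overRing v F' ⧸ Ip) := Ideal.Quotient.nontrivial_iff.mpr hne1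
    let e := LinearEquiv.ofBijective (Algebra.linearMap K (overRing v F' ⧸ Ip))
      ⟨(algebraMap K (overRing v F' ⧸ Ip)).injective, hconst⟩
    have hfp : Module.Finite K (overRing v F' ⧸ Ip) := Module.Finite.equiv e
    have hrp : Module.finrank K (overRing v F' ⧸ Ip) = 1 :=
      e.finrank_eq.symm.trans (Module.finrank_self K)
    have : Module.Finite K (LinearMap.ker proj) := hrange ▸ Module.Finite.range mulp
    have hfg : Module.Finite K (overRing v F' ⧸ Ig) :=
      Module.Finite.of_exact (LinearMap.exact_subtype_ker_map proj) hsurj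
    refine ⟨hfg, ?_⟩
    rw [← proj.finrank_range_add_finrank_ker, LinearMap.range_eq_top.mpr hsurj, finrank_top, hrp,
      hrange, LinearMap.finrank_range_of_inj hinj, hrank, add_comm]

include hres hv in
/-- The fundamental identity. -/
theorem sum_ramificationIndex_placesAbove :
    ∑ w ∈ placesAbove hv F', (w.ramificationIndex F : ℤ) = Module.finrank F F' := by
  classical
  obtain ⟨π, hπ⟩ := IsDiscreteValuationRing.exists_irreducible v.toValuationSubring
  set g : overRing v F' := algebraMap v.toValuationSubring (overRing v F') π with hgdef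
  have hg : (g : F') = algebraMap F F' (π : F) := rfl
  have hπ0 : (π : F) ≠ 0 := by simpa [ne_eq, ZeroMemClass.coe_eq_zero] using hπ.ne_zero
  have hg0 : (g : F') ≠ 0 := by rw [hg]; simpa using hπ0
  have hord : ∀ w ∈ placesAbove hv F', w.ord (g : F') = (w.ramificationIndex F : ℤ) := fun w hw => by
    rw [hg, w.ord_restrict, (mem_placesAbove hv).mp hw, v.ord_coe_irreducible hπ, mul_one]
  have h1 := (finrank_quotient_span hv hres (∑ w ∈ placesAbove hv F', w.ramificationIndex F) g hg0
    (by rw [Finset.sum_congr rfl hord]; push_cast; ring)).2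
  have : Module.IsTorsionFree v.toValuationSubring (overRing v F') :=
    IsIntegralClosure.isTorsionFree v.toValuationSubring F'
  have : Module.Free v.toValuationSubring (overRing v F') :=
    Module.free_of_finite_type_torsion_free'
  let b := Module.finBasis v.toValuationSubring (overRing v F')
  let ρe := AlgEquiv.ofBijective (Algebra.ofId K v.ResidueField)
    ⟨(algebraMap K v.ResidueField).injective, (constResidue_iff_surjective v).mp hv⟩
  let ρ : v.toValuationSubring →ₗ[K] K :=
    (ρe.symm.toLinearMap).comp
      ((IsScalarTower.toAlgHom K v.toValuationSubring v.ResidueField).toLinearMap)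
  let Φ : overRing v F' →ₗ[K]
      (Fin (Module.finrank v.toValuationSubring (overRing v F')) → K) :=
    (LinearMap.pi fun i => ρ.comp ((LinearMap.proj i).comp
      (b.equivFun.toLinearMap.restrictScalars K)))
  have hΦsurj : Function.Surjective Φ := by
    intro c
    refine ⟨b.equivFun.symm fun i => algebraMap K v.toValuationSubring (c i), funext fun i => ?_⟩
    simp only [Φ, ρ, LinearMap.pi_apply, LinearMap.comp_apply, LinearMap.proj_apply,
      LinearMap.coe_restrictScalars, LinearEquiv.coe_coe, LinearEquiv.apply_symm_apply]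
    exact ρe.symm_apply_apply (c i)
  have hker : LinearMap.ker Φ = (Ideal.span {g}).restrictScalars K := by
    ext x
    have hρ : ∀ a, ρ a = 0 ↔ π ∣ a := fun a => by
      show ρe.symm (IsLocalRing.residue _ a) = 0 ↔ _
      rw [map_eq_zero_iff _ ρe.symm.injective, IsLocalRing.residue_eq_zero_iff,
        hπ.maximalIdeal_eq, Ideal.mem_span_singleton]
    simp only [LinearMap.mem_ker, funext_iff, Φ, LinearMap.pi_apply, LinearMap.comp_apply,
      LinearMap.proj_apply, LinearMap.coe_restrictScalars, LinearEquiv.coe_coe, Pi.zero_apply,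
      hρ, Submodule.restrictScalars_mem, Ideal.mem_span_singleton']
    constructor
    · intro h
      choose a ha using h
      refine ⟨b.equivFun.symm a, b.equivFun.injective (funext fun i => ?_)⟩
      rw [hgdef, mul_comm, ← Algebra.smul_def, map_smul, LinearEquiv.apply_symm_apply,
        Pi.smul_apply, smul_eq_mul, ← ha i]
    · rintro ⟨y, rfl⟩ i
      rw [hgdef, mul_comm, ← Algebra.smul_def, map_smul, Pi.smul_apply, smul_eq_mul]
      exact dvd_mul_right _ _
  have h2 : Module.finrank K (overRing v F' ⧸ Ideal.span {g})
      = Module.finrank v.toValuationSubring (overRing v F') := by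
    rw [← (Submodule.Quotient.restrictScalarsEquiv K (Ideal.span {g})).finrank_eq, ← hker,
      (Φ.quotKerEquivOfSurjective hΦsurj).finrank_eq, Module.finrank_fin_fun]
  rw [IsIntegralClosure.rank v.toValuationSubring F F' (overRing v F'), h1] at h2
  exact_mod_cast h2

include hres hv in
theorem placesAbove_nonempty : (placesAbove hv F').Nonempty := by
  rw [Finset.nonempty_iff_ne_empty]
  intro h
  have h1 := sum_ramificationIndex_placesAbove hv hres
  rw [h, Finset.sum_empty] at h1
  have := Module.finrank_pos (R := F) (M := F')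
  omega

theorem norm_mem_of_mem_overRing {f : F'} (hf : f ∈ overRing v F') :
    Algebra.norm F f ∈ v.toValuationSubring := by
  obtain ⟨y, hy⟩ := IsIntegrallyClosed.isIntegral_iff.mp
    (Algebra.isIntegral_norm F (show IsIntegral v.toValuationSubring f from hf))
  exact hy ▸ y.2

theorem ord_norm_pos_of_mem {f : F'} (hf : f ∈ overRing v F') (hf0 : f ≠ 0) {w : Place K F'}
    (hw : w.restrict F = v) (hpos : 0 < w.ord f) : 0 < v.ord (Algebra.norm F f) := by
  have hint : IsIntegral v.toValuationSubring f := hf
  set P := minpoly v.toValuationSubring f with hP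
  have hmap := minpoly.isIntegrallyClosed_eq_field_fractions' F hint
  set a0 : F := (minpoly F f).coeff 0 with ha0
  have ha0ne : a0 ≠ 0 := minpoly.coeff_zero_ne_zero (IsIntegral.of_finite F f) hf0
  have ha0eq : a0 = (P.coeff 0 : F) := by
    rw [ha0, hmap, Polynomial.coeff_map]
    rfl
  have hrel : f * Polynomial.aeval f P.divX + algebraMap F F' a0 = 0 := by
    have h := minpoly.aeval v.toValuationSubring f
    rw [← hP, ← Polynomial.X_mul_divX_add P, map_add, map_mul, Polynomial.aeval_X,
      Polynomial.aeval_C] at h
    rw [ha0eq]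
    exact h
  have hq : Polynomial.aeval f P.divX ∈ overRing v F' :=
    Polynomial.aeval_mem_adjoin_singleton v.toValuationSubring f |> fun h =>
      (Algebra.adjoin_le (by simpa using hf) :
        Algebra.adjoin v.toValuationSubring ({f} : Set F') ≤ overRing v F') h
  have heq := eq_neg_of_add_eq_zero_left hrel
  have hq0 : Polynomial.aeval f P.divX ≠ 0 := by
    intro h
    rw [h, mul_zero, zero_eq_neg, map_eq_zero] at heq
    exact ha0ne heq
  have hord := congrArg w.ord heq
  rw [w.ord_mul hf0 hq0, ord_neg, w.ord_restrict, hw] at hord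
  have hqnn := ord_nonneg_of_mem_placeRing w (mem_place_of_mem_overRing v hq hw)
  have ha0pos : 0 < v.ord a0 := by
    by_contra hle
    push Not at hle
    have := mul_nonpos_of_nonneg_of_nonpos (Int.natCast_nonneg (w.ramificationIndex F)) hle
    omega
  have hadj : IsIntegral F f := IsIntegral.of_finite F f
  rw [Algebra.norm_eq_norm_adjoin F f,
    ← IntermediateField.adjoin.powerBasis_gen hadj,
    Algebra.PowerBasis.norm_gen_eq_coeff_zero_minpoly, IntermediateField.adjoin.powerBasis_gen hadj,
    IntermediateField.minpoly_gen, ord_pow,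
    v.ord_mul (pow_ne_zero _ (neg_ne_zero.mpr one_ne_zero)) ha0ne, ord_pow, ord_neg,
    Place.ord_one, mul_zero, zero_add]
  exact mul_pos (by exact_mod_cast Module.finrank_pos) ha0pos

include hres hv in
/-- The norm formula. -/
theorem ord_norm_eq_sum {f : F'} (hf : f ≠ 0) :
    v.ord (Algebra.norm F f) = ∑ w ∈ placesAbove hv F', w.ord f := by
  classical
  have hnn : ∀ g : F', g ≠ 0 → (∀ w ∈ placesAbove hv F', 0 ≤ w.ord g) → 0 ≤ v.ord (Algebra.norm F g) :=
    fun g hg h => ord_nonneg_of_mem_placeRing v
      (norm_mem_of_mem_overRing ((mem_overRing_iff_ord hv hg).mpr h))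
  have hN : ∀ g : F', g ≠ 0 → Algebra.norm F g ≠ 0 := fun g hg => Algebra.norm_ne_zero_iff.mpr hg
  have hzero : ∀ g : F', g ≠ 0 → (∀ w ∈ placesAbove hv F', w.ord g = 0) →
      v.ord (Algebra.norm F g) = 0 := by
    intro g hg h
    have h1 := hnn g hg fun w hw => (h w hw).ge
    have h2 := hnn g⁻¹ (inv_ne_zero hg) fun w hw => by rw [w.ord_inv, h w hw, neg_zero]
    rw [normHom_inv, v.ord_inv] at h2
    omega
  choose p hp0 hp using fun w : Place K F' =>
    exists_forall_ord_eq (placesAbove hv F') (fun u => if u = w then (1 : ℤ) else 0)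
  have hgen : ∀ g : F', g ≠ 0 → v.ord (Algebra.norm F g)
      = ∑ w ∈ placesAbove hv F', w.ord g * v.ord (Algebra.norm F (p w)) := by
    intro g hg
    set P := ∏ w ∈ placesAbove hv F', p w ^ w.ord g with hPdef
    have hP0 : P ≠ 0 := Finset.prod_ne_zero_iff.mpr fun w _ => zpow_ne_zero _ (hp0 w)
    have h := hzero (g / P) (div_ne_zero hg hP0) fun u hu => by
      rw [ord_div u hg hP0, hPdef, ord_prod u _ _ fun w _ => zpow_ne_zero _ (hp0 w)]
      simp only [Place.ord_zpow, hp _ u hu, mul_ite, mul_one, mul_zero, Finset.sum_ite_eq, hu,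
        if_true, sub_self]
    rw [normHom_div, ord_div v (hN g hg) (hN P hP0), sub_eq_zero] at h
    rw [h, hPdef, map_prod, ord_prod v _ _ fun w _ => hN _ (zpow_ne_zero _ (hp0 w))]
    refine Finset.sum_congr rfl fun w _ => ?_
    rw [normHom_zpow, v.ord_zpow]
  have hge : ∀ w ∈ placesAbove hv F', 1 ≤ v.ord (Algebra.norm F (p w)) := fun w hw => by
    refine ord_norm_pos_of_mem ((mem_overRing_iff_ord hv (hp0 w)).mpr fun u hu => ?_) (hp0 w)
      ((mem_placesAbove hv).mp hw) ?_
    · rw [hp w u hu]; split_ifs <;> omega
    · rw [hp w w hw, if_pos rfl]; omega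
  obtain ⟨ϖ, hϖ0, hϖ⟩ := exists_ord_eq v 1
  have h1 := hgen (algebraMap F F' ϖ) (by simpa using hϖ0)
  rw [Algebra.norm_algebraMap, ord_pow, hϖ, mul_one] at h1
  have h2 : ∀ w ∈ placesAbove hv F', w.ord (algebraMap F F' ϖ) = (w.ramificationIndex F : ℤ) :=
    fun w hw => by rw [w.ord_restrict, (mem_placesAbove hv).mp hw, hϖ, mul_one]
  have h3 := sum_ramificationIndex_placesAbove hv hres
  have hone : ∀ w ∈ placesAbove hv F', v.ord (Algebra.norm F (p w)) = 1 := by
    intro w hw
    have hz : ∑ u ∈ placesAbove hv F',
        (u.ramificationIndex F : ℤ) * (v.ord (Algebra.norm F (p u)) - 1) = 0 := by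
      simp only [mul_sub, mul_one, Finset.sum_sub_distrib, h3]
      rw [Finset.sum_congr rfl fun u hu => by rw [← h2 u hu], ← h1, sub_self]
    have hterm := (Finset.sum_eq_zero_iff_of_nonneg fun u hu =>
      mul_nonneg (Int.natCast_nonneg _) (by have := hge u hu; omega)).mp hz w hw
    rcases mul_eq_zero.mp hterm with h | h
    · have := w.ramificationIndex_pos (F := F); omega
    · omega
  rw [hgen f hf]
  exact Finset.sum_congr rfl fun w hw => by rw [hone w hw, mul_one]

end Ring

end FLTAgent.FF
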