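import Fermat.Agent.FF.DifferentialsExpansion
import Fermat.Agent.FF.PlacesExtension

/-!
# The semi-local ring above a place

For a finite separable extension `F/F₀` and a place `v` of `F₀` with constant residues,
`exists_isAdapted` gives a `y` which takes distinct values `c w` at the places `w` above `v`, with
`y - c w` a uniformizer at `w`; then `adjoin_eq_overRing` shows that `y` generates the integral
closure of `𝒪_v` and `adjoin_field_eq_top` that it generates `F`. Also `exists_deriv_factor`, the
power series computation relating derivatives of expansions, used for the different exponent.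
-/

set_option autoImplicit false
set_option maxHeartbeats 400000

noncomputable section

open AlgebraicCurve Polynomial KaehlerDifferential WithZero

namespace FLTAgent.FF

section Single

variable {K F : Type*} [Field K] [Field F] [Algebra K F]

theorem ratPlace_of_constResidue {v : Place K F} (h : ConstResidue v) : RatPlace v := by
  refine ⟨fun a => ?_⟩
  obtain ⟨c, hc⟩ := h a a.2
  refine ⟨c, ?_⟩
  rw [← IsLocalRing.residue_eq_zero_iff, residue_eq_zero_iff_val]
  exact hc

theorem irreducible_of_ord_eq_one (v : Place K F) {π : v.toValuationSubring}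
    (h : v.ord (π : F) = 1) : Irreducible π := by
  obtain ⟨ϖ, hϖ⟩ := IsDiscreteValuationRing.exists_irreducible v.toValuationSubring
  have hπ0 : π ≠ 0 := fun h0 => by simp [h0] at h
  obtain ⟨n, u, rfl⟩ := IsDiscreteValuationRing.eq_unit_mul_pow_irreducible hπ0 hϖ
  have hn : v.ord (((u : v.toValuationSubring) : F) * (ϖ : F) ^ (n : ℤ)) = 1 := by
    rw [zpow_natCast]
    exact_mod_cast h
  rw [v.ord_unit_smul_zpow u hϖ] at hn
  obtain rfl : n = 1 := by omega
  rw [pow_one]
  exact (irreducible_units_mul u).mpr hϖ

theorem isUnit_of_ord_eq_zero (v : Place K F) {a : v.toValuationSubring} (ha : (a : F) ≠ 0)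
    (h : v.ord (a : F) = 0) : IsUnit a := by
  rw [← v.adicValuation_coe_eq_one_iff, val_eq_exp v ha, h, neg_zero, exp_zero]

theorem pow_dvd_iff_ord (v : Place K F) {π : v.toValuationSubring} (hπ : Irreducible π)
    (a : v.toValuationSubring) (n : ℕ) : π ^ n ∣ a ↔ a = 0 ∨ (n : ℤ) ≤ v.ord (a : F) := by
  rcases eq_or_ne a 0 with rfl | ha
  · simp
  obtain ⟨k, u, rfl⟩ := IsDiscreteValuationRing.eq_unit_mul_pow_irreducible ha hπ
  have hk : v.ord (((↑u * π ^ k : v.toValuationSubring) : F)) = k := by
    push_cast
    rw [← zpow_natCast]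
    exact v.ord_unit_smul_zpow u hπ k
  rw [hk, Units.dvd_mul_left, or_iff_right ha, Nat.cast_le]
  exact pow_dvd_pow_iff hπ.ne_zero hπ.not_isUnit

/-- The derivative of the expansion of any regular function is a multiple of that of a
uniformizer of the subfield, with prescribed leading coefficient. -/
theorem exists_deriv_factor (ι : PowerSeries K) (hι : PowerSeries.derivative K ι ≠ 0)
    (hι0 : PowerSeries.constantCoeff ι = 0)
    {A : Type*} [CommRing A] [Algebra K A] (E : A →ₐ[K] PowerSeries K) (s : A) (hs : E s = ι)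
    (hA : ∀ (n : ℕ) (a : A), ∃ P : K[X], s ^ n ∣ a - aeval s P) (a : A) :
    ∃ γ : PowerSeries K, PowerSeries.derivative K (E a) = PowerSeries.derivative K ι * γ ∧
      ∀ b : A, a = s * b →
        PowerSeries.constantCoeff γ = PowerSeries.constantCoeff (E b) := by
  have key : ∀ a : A, ∃ γ : PowerSeries K,
      PowerSeries.derivative K (E a) = PowerSeries.derivative K ι * γ := by
    intro a
    set k := (PowerSeries.derivative K ι).order.toNat with hk
    obtain ⟨P, b, hb⟩ := hA (k + 1) a
    rw [sub_eq_iff_eq_add] at hb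
    obtain ⟨δ, hδ⟩ : PowerSeries.derivative K ι ∣ ι ^ (k + 1) := by
      obtain ⟨w, hw⟩ := PowerSeries.X_dvd_iff.mpr hι0
      refine dvd_trans ?_ (hw ▸ (mul_pow PowerSeries.X w (k + 1)).symm ▸
        dvd_mul_right (PowerSeries.X ^ (k + 1)) (w ^ (k + 1)))
      set d := PowerSeries.derivative K ι
      have hd : d = PowerSeries.X ^ k * PowerSeries.divXPowOrder d :=
        (PowerSeries.X_pow_order_mul_divXPowOrder (f := d)).symm
      rw [hd, (PowerSeries.isUnit_divided_by_X_pow_order hι).mul_right_dvd]
      exact pow_dvd_pow _ k.le_succ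
    refine ⟨E (aeval s (derivative P)) + (k + 1 : PowerSeries K) * ι ^ k * E b +
      δ * PowerSeries.derivative K (E b), ?_⟩
    rw [hb, map_add, map_mul, map_pow, hs, map_add, Derivation.leibniz,
      PowerSeries.derivative_pow, ← aeval_algHom_apply E, ← aeval_algHom_apply E, hs,
      Derivation.comp_aeval_eq, smul_eq_mul, smul_eq_mul, smul_eq_mul, hδ]
    push_cast
    ring_nf
  obtain ⟨γ, hγ⟩ := key a
  refine ⟨γ, hγ, fun b hb => ?_⟩
  obtain ⟨γb, hγb⟩ := key b
  have h : PowerSeries.derivative K ι * γ =
      PowerSeries.derivative K ι * (E b + ι * γb) := by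
    rw [← hγ, hb, map_mul, hs, Derivation.leibniz, smul_eq_mul, smul_eq_mul, hγb]
    ring
  rw [mul_left_cancel₀ hι h, map_add, map_mul, hι0, zero_mul, add_zero]

theorem expandPS_deriv_ne_zero {v : Place K F} [RatPlace v] {π : v.toValuationSubring}
    (hπ : Irreducible π) {a : v.toValuationSubring}
    (ha : KaehlerDifferential.D K F (a : F) ≠ 0)
    (hinj : Function.Injective (dExpand hπ)) :
    PowerSeries.derivative K (expandPSHom hπ a) ≠ 0 := by
  intro h
  apply ha
  apply hinj
  rw [dExpand_D, expand_coe, laurentDeriv_ofPowerSeries, h, map_zero, map_zero]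

end Single

section Fiber

variable {K F₀ F : Type*} [Field K] [Field F₀] [Field F] [Algebra K F₀] [Algebra K F]
  [Algebra F₀ F] [IsScalarTower K F₀ F] [Module.Finite F₀ F] [Algebra.IsSeparable F₀ F]
  [IsAlgClosed K] {v : Place K F₀}

/-- A global generator of the semi-local ring above `v`, adapted to the fibre. -/
structure IsAdapted (v : Place K F₀) (y : F) (c : Place K F → K) : Prop where
  mem : y ∈ overRing v F
  ord_eq_one : ∀ w : Place K F, w.restrict F₀ = v → w.ord (y - algebraMap K F (c w)) = 1
  inj : ∀ w w' : Place K F, w.restrict F₀ = v → w'.restrict F₀ = v → c w = c w' → w = w'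

variable (hv : ConstResidue v)

include hv in
theorem constResidue_above {w : Place K F} (hw : w.restrict F₀ = v) : ConstResidue w :=
  constResidue_of_restrict (F := F₀) w (hw ▸ hv)

include hv in
theorem exists_isAdapted : ∃ (y : F) (c : Place K F → K), IsAdapted v y c := by
  classical
  set T := placesAbove hv F with hT
  let emb := Infinite.natEmbedding K
  let c : Place K F → K := fun w =>
    if h : w ∈ T then emb (T.equivFin ⟨w, h⟩) else 0
  choose u hu0 hu using fun w : Place K F => exists_ord_eq w 1
  obtain ⟨y, hy⟩ := exists_sub_ord_ge T (fun w => algebraMap K F (c w) + u w) (fun _ => 2)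
  have hord : ∀ w ∈ T, w.ord (y - algebraMap K F (c w)) = 1 := by
    intro w hw
    rcases hy w hw with h | h
    · rw [h, add_sub_cancel_left]; exact hu w
    · rcases eq_or_ne (y - (algebraMap K F (c w) + u w)) 0 with h0 | h0
      · rw [sub_eq_zero.mp h0, add_sub_cancel_left]; exact hu w
      · rw [show y - algebraMap K F (c w) = u w + (y - (algebraMap K F (c w) + u w)) by ring,
          (ord_add_of_lt w (f := u w) (g := y - (algebraMap K F (c w) + u w)) (hu0 w)
            (Or.inr (by have := hu w; omega))).2, hu w]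
  refine ⟨y, c, ?_, fun w hw => hord w ((mem_placesAbove hv).mpr hw), ?_⟩
  · rw [mem_overRing_iff]
    intro w hw
    have h1 := hord w ((mem_placesAbove hv).mpr hw)
    have : y - algebraMap K F (c w) ∈ w.toValuationSubring :=
      (mem_iff w _).mpr (Or.inr (by omega))
    simpa using add_mem this (w.algebraMap_mem' (c w))
  · intro w w' hw hw' h
    have h1 := (mem_placesAbove (F' := F) hv).mpr hw
    have h2 := (mem_placesAbove (F' := F) hv).mpr hw'
    simp only [c, hT, dif_pos h1, dif_pos h2, EmbeddingLike.apply_eq_iff_eq] at h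
    have h3 := Fin.val_injective h
    simpa using h3

variable {s : F₀} {y : F} {c : Place K F → K}

theorem ord_algebraMap_pos (hs : v.ord s = 1) {w : Place K F} (hw : w.restrict F₀ = v) :
    0 < w.ord (algebraMap F₀ F s) := by
  rw [Place.ord_restrict, hw, hs, mul_one]
  exact_mod_cast w.ramificationIndex_pos (F := F₀)

include hv in
theorem exists_aeval_sub_dvd (hy : IsAdapted v y c) {w : Place K F} (hw : w.restrict F₀ = v)
    {r : F} (hr : r ∈ w.toValuationSubring) (m : ℕ) :
    ∃ q : K[X], w.adicValuation (r - aeval y q) ≤ exp (-(m : ℤ)) := by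
  have := ratPlace_of_constResidue (constResidue_above hv hw)
  have h1 := hy.ord_eq_one w hw
  have hmem : y - algebraMap K F (c w) ∈ w.toValuationSubring :=
    (mem_iff w _).mpr (Or.inr (by omega))
  have hτ : Irreducible (⟨_, hmem⟩ : w.toValuationSubring) := irreducible_of_ord_eq_one w h1
  obtain ⟨P, hP⟩ := exists_approx hτ m ⟨r, hr⟩
  refine ⟨P.comp (X - C (c w)), ?_⟩
  rw [val_le_exp_iff, neg_neg]
  have hcoe : ((aeval (⟨_, hmem⟩ : w.toValuationSubring) P : w.toValuationSubring) : F) =
      aeval (y - algebraMap K F (c w)) P :=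
    (aeval_algHom_apply (IsScalarTower.toAlgHom K w.toValuationSubring F)
      (⟨_, hmem⟩ : w.toValuationSubring) P).symm
  rw [aeval_comp, map_sub, aeval_X, aeval_C, ← hcoe]
  rcases (pow_dvd_iff_ord w hτ _ m).mp hP with h | h
  · left
    exact congrArg Subtype.val h
  · right
    exact h

include hv in
theorem adjoin_eq_overRing (hs : v.ord s = 1) (hy : IsAdapted v y c) :
    Algebra.adjoin v.toValuationSubring ({y} : Set F) = overRing v F := by
  classical
  refine le_antisymm (Algebra.adjoin_le (by simpa using hy.mem)) ?_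
  have hs0 : s ≠ 0 := fun h => by simp [h] at hs
  have hsmem : s ∈ v.toValuationSubring := (mem_iff v _).mpr (Or.inr (by omega))
  set σ : v.toValuationSubring := ⟨s, hsmem⟩ with hσ
  have hσirr : Irreducible σ := irreducible_of_ord_eq_one v hs
  set T := placesAbove hv F with hT
  set N := Subalgebra.toSubmodule (Algebra.adjoin v.toValuationSubring ({y} : Set F))
  set C' := Subalgebra.toSubmodule (overRing v F)
  suffices C' ≤ N from this
  have : Module.Finite v.toValuationSubring C' :=
    inferInstanceAs (Module.Finite v.toValuationSubring (overRing v F))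
  refine Submodule.le_of_le_smul_of_le_jacobson_bot (I := IsLocalRing.maximalIdeal _)
    ((Submodule.fg_top _).mp (Module.Finite.fg_top (R := v.toValuationSubring) (M := C')))
    (IsLocalRing.maximalIdeal_le_jacobson _) fun r hr => ?_
  set e : Place K F → ℕ := fun w => (w.ord (algebraMap F₀ F s)).toNat with he
  clear_value e
  have hwmem : ∀ w : T, (w : Place K F).restrict F₀ = v := fun w => (mem_placesAbove hv).mp w.2
  choose q hq using fun w : T => exists_aeval_sub_dvd hv hy (hwmem w)
    ((mem_overRing_iff v r).mp hr w (hwmem w)) (e w)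
  have hprime : ∀ w ∈ T, Prime (Ideal.span {X - C (c w)} : Ideal K[X]) := fun w _ => by
    rw [Ideal.prime_iff_isPrime, Ideal.span_singleton_prime (X_sub_C_ne_zero _)]
    · exact prime_X_sub_C _
    · simp [X_sub_C_ne_zero]
  obtain ⟨Q, hQ⟩ := IsDedekindDomain.exists_forall_sub_mem_ideal (s := T)
    (fun w => (Ideal.span {X - C (c w)} : Ideal K[X])) e hprime
    (fun w hw w' hw' hne h => hne (hy.inj w w' ((mem_placesAbove hv).mp hw)
      ((mem_placesAbove hv).mp hw') (by
        have h1 : X - C (c w') ∈ Ideal.span {X - C (c w)} := h ▸ Ideal.mem_span_singleton_self _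
        rw [Ideal.mem_span_singleton, dvd_iff_isRoot] at h1
        simpa [IsRoot, sub_eq_zero] using h1))) q
  have hyN : aeval y Q ∈ N := by
    have : aeval y (Q.map (algebraMap K v.toValuationSubring)) ∈ N :=
      aeval_mem_adjoin_singleton _ _
    rwa [aeval_map_algebraMap] at this
  set γ := (r - aeval y Q) / algebraMap F₀ F s with hγ
  have hγC : γ ∈ C' := by
    show γ ∈ overRing v F
    rw [mem_overRing_iff]
    intro w hw
    have hwT : w ∈ T := (mem_placesAbove hv).mpr hw
    have hpos := ord_algebraMap_pos hs hw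
    have hew : (e w : ℤ) = w.ord (algebraMap F₀ F s) := by
      rw [he]; exact Int.toNat_of_nonneg hpos.le
    have h1 := hQ w hwT
    rw [Ideal.span_singleton_pow, Ideal.mem_span_singleton] at h1
    obtain ⟨H, hH⟩ := h1
    have hHm : aeval y H ∈ w.toValuationSubring := by
      have : aeval y (H.map (algebraMap K v.toValuationSubring)) ∈
          Algebra.adjoin v.toValuationSubring ({y} : Set F) := aeval_mem_adjoin_singleton _ _
      rw [aeval_map_algebraMap] at this
      exact mem_place_of_mem_overRing v (Algebra.adjoin_le (by simpa using hy.mem) this) hw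
    have hQ' : aeval y Q - aeval y (q ⟨w, hwT⟩) =
        (y - algebraMap K F (c w)) ^ e w * aeval y H := by
      simpa only [map_sub, map_mul, map_pow, aeval_X, aeval_C] using congrArg (aeval y) hH
    have h2 : w.adicValuation (r - aeval y Q) ≤ exp (-(e w : ℤ)) := by
      rw [show r - aeval y Q = (r - aeval y (q ⟨w, hwT⟩)) +
          -((y - algebraMap K F (c w)) ^ e w * aeval y H) by rw [← hQ']; ring]
      refine (Valuation.map_add _ _ _).trans (max_le (hq ⟨w, hwT⟩) ?_)
      have hne : y - algebraMap K F (c w) ≠ 0 := fun h => by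
        simpa [h] using hy.ord_eq_one w hw
      rw [Valuation.map_neg, map_mul, map_pow, val_eq_exp w hne, hy.ord_eq_one w hw, ← exp_nsmul,
        nsmul_eq_mul, mul_neg, mul_one]
      exact mul_le_of_le_one_right' ((mem_iff_val_le_one w _).mp hHm)
    rw [mem_iff_val_le_one, hγ, map_div₀]
    rw [div_le_one₀ (zero_lt_iff.mpr (w.adicValuation_ne_zero (by simpa using hs0))),
      val_eq_exp w (f := algebraMap F₀ F s) (by simpa using hs0), ← hew]
    exact h2
  have hr' : r = aeval y Q + σ • γ := by
    rw [hγ, Algebra.smul_def, show algebraMap v.toValuationSubring F σ = algebraMap F₀ F s from rfl,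
      mul_div_cancel₀ _ (by simpa using hs0)]
    ring
  rw [hr']
  exact Submodule.add_mem_sup hyN
    (Submodule.smul_mem_smul (by rw [hσirr.maximalIdeal_eq]; exact Ideal.mem_span_singleton_self σ)
      hγC)

include hv in
theorem adjoin_field_eq_top (hs : v.ord s = 1) (hy : IsAdapted v y c) :
    Algebra.adjoin F₀ ({y} : Set F) = ⊤ := by
  refine top_le_iff.mp fun f _ => ?_
  obtain ⟨⟨b, hb⟩, h⟩ := IsIntegral.exists_multiple_integral_of_isLocalization
    (nonZeroDivisors v.toValuationSubring) (Rₘ := F₀) f (IsIntegral.of_finite F₀ f)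
  have hb0 : (b : F₀) ≠ 0 := by simpa using nonZeroDivisors.ne_zero hb
  have h1 : b • f ∈ Algebra.adjoin v.toValuationSubring ({y} : Set F) := by
    rw [adjoin_eq_overRing hv hs hy]; exact h
  have h2 : (b : F₀) • f ∈ Algebra.adjoin F₀ ({y} : Set F) := by
    rw [Algebra.adjoin_singleton_eq_range_aeval] at h1 ⊢
    obtain ⟨P, hP⟩ := h1
    exact ⟨P.map (algebraMap v.toValuationSubring F₀), (aeval_map_algebraMap F₀ y P).trans hP⟩
  have h3 := Subalgebra.smul_mem _ h2 (b : F₀)⁻¹
  rwa [inv_smul_smul₀ hb0] at h3

end Fiber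

end FLTAgent.FF
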