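import Fermat.Agent.FF.DifferentialsExpansion
import Fermat.Agent.FF.DifferentialsDefs
import Fermat.Agent.FF.DifferentialsLocal
import Fermat.Agent.FF.PlacesMain

/-!
# Kähler differentials of a function field and their orders

`span_D_eq_top_of_isSep` (`dx` spans `Ω[F⁄K]` for separating `x`), `dExpand_injective`, the
instance `dCoordGenerates'` (the differential of a uniformizer is a generator), and the basic rules
for `Place.ordDifferential`: `ordDifferential_eq_order` identifies it with the order of the Laurent
expansion of the differential, from which the rules for sums, products and `df` follow through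
`DifferentialsLaurent`.
-/

set_option autoImplicit false

noncomputable section

open AlgebraicCurve Polynomial KaehlerDifferential IntermediateField

namespace FLTAgent.FF

variable {K F : Type*} [Field K] [Field F] [Algebra K F]

theorem span_D_eq_top_of_isSep {x : F} (hx : IsSep K x) :
    Submodule.span F {KaehlerDifferential.D K F x} = ⊤ := by
  set N := Submodule.span F {KaehlerDifferential.D K F x}
  let S : IntermediateField K F :=
    { carrier := {f | KaehlerDifferential.D K F f ∈ N}
      mul_mem' := fun {a b} ha hb => by
        show KaehlerDifferential.D K F (a * b) ∈ N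
        rw [Derivation.leibniz]
        exact add_mem (N.smul_mem _ hb) (N.smul_mem _ ha)
      one_mem' := by simp
      add_mem' := fun {a b} ha hb => by
        show KaehlerDifferential.D K F (a + b) ∈ N
        rw [map_add]
        exact add_mem ha hb
      zero_mem' := by simp
      algebraMap_mem' := fun c => by simp
      inv_mem' := fun a ha => by
        show KaehlerDifferential.D K F a⁻¹ ∈ N
        rw [Derivation.leibniz_inv]
        exact N.smul_mem _ ha }
  have hadj : IntermediateField.adjoin K ({x} : Set F) ≤ S :=
    IntermediateField.adjoin_le_iff.mpr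
      (Set.singleton_subset_iff.mpr (Submodule.subset_span rfl))
  have := hx.finite
  have := hx.separable
  rw [eq_top_iff, ← KaehlerDifferential.span_range_derivation, Submodule.span_le]
  rintro _ ⟨y, rfl⟩
  set L := IntermediateField.adjoin K ({x} : Set F)
  set P := minpoly L y with hP
  have hd : aeval y (derivative P) ≠ 0 :=
    (Algebra.IsSeparable.isSeparable L y).aeval_derivative_ne_zero (minpoly.aeval L y)
  have key : ∀ Q : L[X], KaehlerDifferential.D K F (aeval y Q) -
      aeval y (derivative Q) • KaehlerDifferential.D K F y ∈ N := by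
    intro Q
    induction Q using Polynomial.induction_on' with
    | add p q hp hq =>
      rw [map_add, map_add, derivative_add, map_add, add_smul]
      convert add_mem hp hq using 1
      abel
    | monomial n a =>
      rw [aeval_monomial, derivative_monomial, aeval_monomial, Derivation.leibniz,
        Derivation.leibniz_pow, map_mul, map_natCast, mul_smul, mul_smul, Nat.cast_smul_eq_nsmul,
        add_sub_cancel_left]
      exact N.smul_mem _ (hadj a.2)
  have h := key P
  rw [minpoly.aeval, map_zero, zero_sub, neg_mem_iff] at h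
  simpa [inv_smul_smul₀ hd] using N.smul_mem (aeval y (derivative P))⁻¹ h

variable [IsAlgClosed K] [IsFF K F]

theorem exists_sepElem : ∃ x : F, IsSep K x := by
  obtain ⟨x, h1, h2, h3⟩ := IsFF.exists_sep (K := K) (F := F)
  exact ⟨x, h1, h2, h3⟩

theorem D_ne_zero_of_isSep' {x : F} (hx : IsSep K x) : KaehlerDifferential.D K F x ≠ 0 := by
  intro h
  have htop := span_D_eq_top_of_isSep hx
  rw [h, Submodule.span_zero_singleton] at htop
  obtain ⟨ω, hω⟩ := exists_ne (0 : Ω[F⁄K])
  exact hω ((Submodule.mem_bot F).mp (htop ▸ Submodule.mem_top : ω ∈ (⊥ : Submodule F Ω[F⁄K])))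

theorem exists_smul_of_ne_zero {η : Ω[F⁄K]} (hη : η ≠ 0) (ω : Ω[F⁄K]) :
    ∃ f : F, f • η = ω := by
  obtain ⟨x, hx⟩ := exists_sepElem (K := K) (F := F)
  have htop := span_D_eq_top_of_isSep hx
  obtain ⟨a, ha⟩ := Submodule.mem_span_singleton.mp (htop ▸ Submodule.mem_top :
    ω ∈ Submodule.span F {KaehlerDifferential.D K F x})
  obtain ⟨b, hb⟩ := Submodule.mem_span_singleton.mp (htop ▸ Submodule.mem_top :
    η ∈ Submodule.span F {KaehlerDifferential.D K F x})
  have hb0 : b ≠ 0 := fun h => hη (by rw [← hb, h, zero_smul])
  exact ⟨a * b⁻¹, by rw [← hb, ← ha, mul_smul, inv_smul_smul₀ hb0]⟩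

instance ratPlace_of_isFF (v : Place K F) : RatPlace v :=
  ratPlace_of_constResidue (constResidue v)

/-- The chosen uniformizer (the one used by `Place.dCoord`). -/
def uni (v : Place K F) : v.toValuationSubring :=
  (IsDiscreteValuationRing.exists_irreducible v.toValuationSubring).choose

theorem uni_irreducible (v : Place K F) : Irreducible (uni v) :=
  (IsDiscreteValuationRing.exists_irreducible v.toValuationSubring).choose_spec

theorem dCoord_eq (v : Place K F) : v.dCoord = KaehlerDifferential.D K F (uni v : F) := rfl

theorem D_ne_zero_of_irreducible {v : Place K F} {π : v.toValuationSubring} (hπ : Irreducible π) :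
    KaehlerDifferential.D K F (π : F) ≠ 0 := fun h => by
  have h1 := dExpand_smul_D_uniformizer hπ (1 : F)
  rw [h, smul_zero, map_zero, map_one] at h1
  exact zero_ne_one h1

theorem dExpand_injective {v : Place K F} {π : v.toValuationSubring} (hπ : Irreducible π) :
    Function.Injective (dExpand hπ) := by
  rw [injective_iff_map_eq_zero]
  intro ω hω
  obtain ⟨f, rfl⟩ := exists_smul_of_ne_zero (D_ne_zero_of_irreducible hπ) ω
  rw [dExpand_smul_D_uniformizer, map_eq_zero] at hω
  rw [hω, zero_smul]

instance dCoordGenerates' (v : Place K F) : v.DCoordGenerates := ⟨by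
  rw [eq_top_iff]
  intro ω _
  obtain ⟨f, hf⟩ := exists_smul_of_ne_zero (D_ne_zero_of_irreducible (uni_irreducible v)) ω
  exact Submodule.mem_span_singleton.mpr ⟨f, hf⟩⟩

theorem differentialCoeff_smul_D_uni (v : Place K F) (f : F) :
    v.differentialCoeff (f • KaehlerDifferential.D K F (uni v : F)) = f :=
  v.differentialCoeff_unique rfl

theorem ordDifferential_eq_order (v : Place K F) (ω : Ω[F⁄K]) :
    v.ordDifferential ω = (dExpand (uni_irreducible v) ω).order := by
  obtain ⟨f, rfl⟩ := exists_smul_of_ne_zero (D_ne_zero_of_irreducible (uni_irreducible v)) ω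
  rw [Place.ordDifferential, differentialCoeff_smul_D_uni, dExpand_smul_D_uniformizer,
    order_expand]

theorem differentialCoeff_ne_zero' (v : Place K F) {ω : Ω[F⁄K]} (hω : ω ≠ 0) :
    v.differentialCoeff ω ≠ 0 := fun h => hω (by
  rw [← v.differentialCoeff_smul_dCoord ω, h, zero_smul])

theorem ordDifferential_smul' (v : Place K F) {c : F} (hc : c ≠ 0) {ω : Ω[F⁄K]} (hω : ω ≠ 0) :
    v.ordDifferential (c • ω) = v.ord c + v.ordDifferential ω :=
  v.ordDifferential_smul hc (differentialCoeff_ne_zero' v hω)

theorem ordDifferential_zero' (v : Place K F) : v.ordDifferential (0 : Ω[F⁄K]) = 0 := by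
  rw [Place.ordDifferential, Place.differentialCoeff_zero, Place.ord_zero]

theorem min_le_ordDifferential_add' (v : Place K F) {ω η : Ω[F⁄K]} (h : ω + η ≠ 0) :
    min (v.ordDifferential ω) (v.ordDifferential η) ≤ v.ordDifferential (ω + η) := by
  simp only [ordDifferential_eq_order, map_add]
  exact HahnSeries.min_order_le_order_add
    (by rw [← map_add]; exact (map_ne_zero_iff _ (dExpand_injective _)).mpr h)

theorem ordDifferential_D_eq (v : Place K F) (f : F) :
    v.ordDifferential (KaehlerDifferential.D K F f) =
      (LaurentSeries.derivative K (expand (uni_irreducible v) f)).order := by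
  rw [ordDifferential_eq_order, dExpand_D]

theorem ordDifferential_D_nonneg' (v : Place K F) {f : F} (h : 0 ≤ v.ord f) :
    0 ≤ v.ordDifferential (KaehlerDifferential.D K F f) := by
  rw [ordDifferential_D_eq]
  rcases eq_or_ne (LaurentSeries.derivative K (expand (uni_irreducible v) f)) 0 with h0 | h0
  · simp [h0]
  · exact order_laurentDeriv_nonneg
      (fun i hi => coeff_expand_of_ord_nonneg _ h hi) h0

theorem ord_sub_one_le_ordDifferential_D' (v : Place K F) {f : F}
    (hf : KaehlerDifferential.D K F f ≠ 0) :
    v.ord f - 1 ≤ v.ordDifferential (KaehlerDifferential.D K F f) := by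
  rw [ordDifferential_D_eq, ← order_expand (uni_irreducible v)]
  refine order_sub_one_le_order_laurentDeriv fun h => hf (dExpand_injective (uni_irreducible v) ?_)
  rw [dExpand_D, h, map_zero]

theorem ordDifferential_D_of_ord_cast_ne_zero' (v : Place K F) {f : F}
    (h : (v.ord f : K) ≠ 0) :
    KaehlerDifferential.D K F f ≠ 0 ∧
      v.ordDifferential (KaehlerDifferential.D K F f) = v.ord f - 1 := by
  rw [← order_expand (uni_irreducible v)] at h
  obtain ⟨h1, h2⟩ := laurentDeriv_order_of_cast_ne_zero h
  refine ⟨fun h0 => h1 ?_, ?_⟩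
  · rw [← dExpand_D, h0, map_zero]
  · rw [ordDifferential_D_eq, h2, order_expand]

theorem ordDifferential_smul_D_uniformizer' (v : Place K F) {π : F} (hπ : v.ord π = 1) (g : F) :
    v.ordDifferential (g • KaehlerDifferential.D K F π) = v.ord g := by
  obtain ⟨h1, h2⟩ := ordDifferential_D_of_ord_cast_ne_zero' v (f := π) (by rw [hπ]; simp)
  rcases eq_or_ne g 0 with rfl | hg
  · rw [zero_smul, v.ord_zero, ordDifferential_zero']
  · rw [ordDifferential_smul' v hg h1, h2, hπ]; ring

theorem D_sub_algebraMap (f : F) (c : K) :
    KaehlerDifferential.D K F (f - algebraMap K F c) = KaehlerDifferential.D K F f := by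
  rw [map_sub, Derivation.map_algebraMap, sub_zero]

theorem D_inv_eq {f : F} : KaehlerDifferential.D K F f⁻¹ = -(f⁻¹ ^ 2) • KaehlerDifferential.D K F f :=
  Derivation.leibniz_inv _ _

theorem ordDifferential_neg' (v : Place K F) (ω : Ω[F⁄K]) :
    v.ordDifferential (-ω) = v.ordDifferential ω := by
  rw [ordDifferential_eq_order, ordDifferential_eq_order, map_neg, HahnSeries.order_neg]

theorem ordDifferential_D_inv (v : Place K F) {f : F} (hf : f ≠ 0)
    (hd : KaehlerDifferential.D K F f ≠ 0) :
    v.ordDifferential (KaehlerDifferential.D K F f⁻¹) =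
      v.ordDifferential (KaehlerDifferential.D K F f) - 2 * v.ord f := by
  rw [D_inv_eq, neg_smul, ordDifferential_neg',
    ordDifferential_smul' v (pow_ne_zero _ (inv_ne_zero hf)) hd, ord_pow, v.ord_inv]
  push_cast
  ring

end FLTAgent.FF
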