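import Fermat.Agent.FF.DifferentialsLaurent
import Fermat.Prelude.Def_AlgebraicCurve_CanonicalDivisor

/-!
# Laurent expansion at a place

At a place `v` with residue field `K` (`RatPlace v`) and a uniformizer `π`: the algebra maps
`expandPSHom : 𝒪_v → K⟦t⟧` and `expand : F → K((t))`, with `order_expand` (order = `v.ord`), and
`dExpand : Ω[F⁄K] → K((t))`, which sends `f dg` to the expansion of `f` times the derivative of
that of `g`. The expansion is obtained by approximating by polynomials in `π`
(`exists_approx`, `approx_unique`).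
-/

set_option autoImplicit false

noncomputable section

open AlgebraicCurve Polynomial KaehlerDifferential

namespace FLTAgent.FF

variable {K F : Type*} [Field K] [Field F] [Algebra K F]

/-- A place with residue field `K`. -/
class RatPlace (v : Place K F) : Prop where
  exists_sub_mem : ∀ a : v.toValuationSubring, ∃ c : K,
    a - algebraMap K v.toValuationSubring c ∈ IsLocalRing.maximalIdeal v.toValuationSubring

variable {v : Place K F} {π : v.toValuationSubring}

theorem exists_approx [RatPlace v] (hπ : Irreducible π) (n : ℕ) (a : v.toValuationSubring) :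
    ∃ P : K[X], π ^ n ∣ a - aeval π P := by
  induction n generalizing a with
  | zero => exact ⟨0, by simp⟩
  | succ n ih =>
    obtain ⟨c, hc⟩ := RatPlace.exists_sub_mem a
    rw [hπ.maximalIdeal_eq, Ideal.mem_span_singleton] at hc
    obtain ⟨b, hb⟩ := hc
    obtain ⟨P, d, hd⟩ := ih b
    refine ⟨C c + X * P, d, ?_⟩
    rw [map_add, map_mul, aeval_C, aeval_X]
    linear_combination hb + π * hd

theorem approx_unique (hπ : Irreducible π) {n : ℕ} {P : K[X]} (h : π ^ n ∣ aeval π P)
    {m : ℕ} (hm : m < n) : P.coeff m = 0 := by
  induction n generalizing P m with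
  | zero => omega
  | succ n ih =>
    have h0 : P.coeff 0 = 0 := by
      by_contra hne
      have hP : P = C (P.coeff 0) + X * P.divX := (X_mul_divX_add P).symm.trans (add_comm _ _)
      have hd : π ∣ aeval π P := (dvd_pow_self π (Nat.succ_ne_zero n)).trans h
      rw [hP, map_add, map_mul, aeval_C, aeval_X, dvd_add_left (dvd_mul_right _ _)] at hd
      exact hπ.not_isUnit (isUnit_of_dvd_unit hd ((isUnit_iff_ne_zero.mpr hne).map _))
    rcases m with _ | m
    · exact h0
    · have hP : P = X * P.divX := by
        conv_lhs => rw [← X_mul_divX_add P, h0, map_zero, add_zero]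
      rw [hP, map_mul, aeval_X, pow_succ', mul_dvd_mul_iff_left hπ.ne_zero] at h
      rw [← coeff_divX]
      exact ih h (by omega)

variable [RatPlace v] (hπ : Irreducible π)

/-- The power series expansion. -/
def expandPS (a : v.toValuationSubring) : PowerSeries K :=
  PowerSeries.mk fun n => (exists_approx hπ (n + 1) a).choose.coeff n

theorem coeff_expandPS {a : v.toValuationSubring} {n m : ℕ} (hm : m < n) {P : K[X]}
    (hP : π ^ n ∣ a - aeval π P) : PowerSeries.coeff m (expandPS hπ a) = P.coeff m := by
  have h1 := (exists_approx hπ (m + 1) a).choose_spec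
  have h2 : π ^ (m + 1) ∣ a - aeval π P := (pow_dvd_pow π hm).trans hP
  have h3 : π ^ (m + 1) ∣ aeval π ((exists_approx hπ (m + 1) a).choose - P) := by
    rw [map_sub]
    convert dvd_sub h2 h1 using 1
    ring
  have := approx_unique hπ h3 (Nat.lt_succ_self m)
  rw [coeff_sub, sub_eq_zero] at this
  rw [expandPS, PowerSeries.coeff_mk, this]

/-- The power series expansion as an algebra homomorphism. -/
def expandPSHom : v.toValuationSubring →ₐ[K] PowerSeries K where
  toFun := expandPS hπ
  map_one' := PowerSeries.ext fun n => by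
    rw [coeff_expandPS hπ (Nat.lt_succ_self n) (P := 1) (by simp), Polynomial.coeff_one,
      PowerSeries.coeff_one]
  map_zero' := PowerSeries.ext fun n => by
    rw [coeff_expandPS hπ (Nat.lt_succ_self n) (P := 0) (by simp)]
    simp
  map_add' a b := PowerSeries.ext fun n => by
    obtain ⟨P, hP⟩ := exists_approx hπ (n + 1) a
    obtain ⟨Q, hQ⟩ := exists_approx hπ (n + 1) b
    have hPQ : π ^ (n + 1) ∣ (a + b) - aeval π (P + Q) := by
      rw [map_add]; convert dvd_add hP hQ using 1; ring
    rw [map_add, coeff_expandPS hπ n.lt_succ_self hP, coeff_expandPS hπ n.lt_succ_self hQ,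
      coeff_expandPS hπ n.lt_succ_self hPQ, coeff_add]
  map_mul' a b := PowerSeries.ext fun n => by
    obtain ⟨P, hP⟩ := exists_approx hπ (n + 1) a
    obtain ⟨Q, hQ⟩ := exists_approx hπ (n + 1) b
    have hPQ : π ^ (n + 1) ∣ (a * b) - aeval π (P * Q) := by
      rw [map_mul]
      convert dvd_add (hP.mul_right b) (hQ.mul_left (aeval π P)) using 1
      ring
    rw [coeff_expandPS hπ n.lt_succ_self hPQ, Polynomial.coeff_mul, PowerSeries.coeff_mul]
    refine Finset.sum_congr rfl fun x hx => ?_
    rw [Finset.HasAntidiagonal.mem_antidiagonal] at hx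
    rw [coeff_expandPS hπ (by omega) hP, coeff_expandPS hπ (by omega) hQ]
  commutes' c := PowerSeries.ext fun n => by
    rw [coeff_expandPS hπ n.lt_succ_self (P := C c) (by simp), Polynomial.coeff_C,
      PowerSeries.algebraMap_apply, Algebra.algebraMap_self, RingHom.id_apply,
      PowerSeries.coeff_C]

theorem expandPSHom_self : expandPSHom hπ π = PowerSeries.X := by
  ext n
  show PowerSeries.coeff n (expandPS hπ π) = _
  rw [coeff_expandPS hπ (Nat.lt_succ_self n) (P := X) (by simp), Polynomial.coeff_X,
    PowerSeries.coeff_X]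
  simp [eq_comm]

theorem expandPSHom_injective : Function.Injective (expandPSHom hπ) := by
  rw [injective_iff_map_eq_zero]
  intro a ha
  by_contra hne
  obtain ⟨k, u, rfl⟩ := IsDiscreteValuationRing.eq_unit_mul_pow_irreducible hne hπ
  have hu := u.isUnit.map (expandPSHom hπ)
  rw [map_mul, map_pow, expandPSHom_self] at ha
  rcases mul_eq_zero.mp ha with h | h
  · exact not_isUnit_zero (h ▸ hu)
  · exact pow_ne_zero _ PowerSeries.X_ne_zero h

variable (K) in
/-- Power series as Laurent series, as an algebra homomorphism. -/
def psToLaurent : PowerSeries K →ₐ[K] LaurentSeries K :=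
  { HahnSeries.ofPowerSeries ℤ K with
    commutes' := fun c => by
      show HahnSeries.ofPowerSeries ℤ K (algebraMap K (PowerSeries K) c) = _
      rw [HahnSeries.algebraMap_apply']
      }

theorem expandPSHom_toLaurent_injective :
    Function.Injective ((psToLaurent K).comp (expandPSHom hπ)) :=
  (HahnSeries.ofPowerSeries_injective (Γ := ℤ) (R := K)).comp (expandPSHom_injective hπ)

/-- The Laurent expansion `F → K((t))`. -/
def expand : F →ₐ[K] LaurentSeries K :=
  IsFractionRing.liftAlgHom (A := v.toValuationSubring)
    (expandPSHom_toLaurent_injective hπ)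

theorem expand_coe (a : v.toValuationSubring) :
    expand hπ (a : F) = HahnSeries.ofPowerSeries ℤ K (expandPSHom hπ a) :=
  IsFractionRing.lift_algebraMap (A := v.toValuationSubring)
    (expandPSHom_toLaurent_injective hπ) a

theorem expand_uniformizer : expand hπ (π : F) = HahnSeries.single 1 1 := by
  rw [expand_coe, expandPSHom_self, HahnSeries.ofPowerSeries_X]

theorem expand_ne_zero {f : F} (hf : f ≠ 0) : expand hπ f ≠ 0 :=
  (map_ne_zero (expand hπ)).mpr hf

theorem order_expand_coe_unit (u : v.toValuationSubringˣ) :
    (expand hπ ((u : v.toValuationSubring) : F)).order = 0 := by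
  rw [expand_coe]
  exact order_ofPowerSeries_eq_zero
    (PowerSeries.isUnit_iff_constantCoeff.mp (u.isUnit.map (expandPSHom hπ))).ne_zero

/-- The expansion preserves orders. -/
theorem order_expand (f : F) : (expand hπ f).order = v.ord f := by
  rcases eq_or_ne f 0 with rfl | hf
  · simp
  obtain ⟨u, hu⟩ := v.exists_unit_mul_zpow hf hπ
  have hu0 : ((u : v.toValuationSubring) : F) ≠ 0 := by simp
  rw [congrArg (expand hπ) hu, map_mul, map_zpow₀, expand_uniformizer, ← RatFunc.single_zpow,
    HahnSeries.order_mul (expand_ne_zero hπ hu0) (by simp), order_expand_coe_unit,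
    HahnSeries.order_single one_ne_zero, zero_add]

theorem coeff_expand_of_ord_nonneg {f : F} (h : 0 ≤ v.ord f) {i : ℤ} (hi : i < 0) :
    (expand hπ f).coeff i = 0 :=
  HahnSeries.coeff_eq_zero_of_lt_order (by rw [order_expand]; omega)

theorem algebraMap_laurent (c : K) :
    algebraMap K (LaurentSeries K) c = HahnSeries.C c := by
  simp [HahnSeries.algebraMap_apply']

theorem expand_algebraMap (c : K) : expand hπ (algebraMap K F c) = HahnSeries.C c := by
  rw [AlgHom.commutes, algebraMap_laurent]

theorem exists_dExpand : ∃ Φ : Ω[F⁄K] →+ LaurentSeries K,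
    (∀ (f : F) (ω : Ω[F⁄K]), Φ (f • ω) = expand hπ f * Φ ω) ∧
      ∀ f : F, Φ (KaehlerDifferential.D K F f) = LaurentSeries.derivative K (expand hπ f) := by
  let : Module F (LaurentSeries K) :=
    Module.compHom (LaurentSeries K) (expand hπ).toRingHom
  have hsmul : ∀ (f : F) (x : LaurentSeries K), f • x = expand hπ f * x := fun _ _ => rfl
  have hK : ∀ (c : K) (x : LaurentSeries K), c • x = HahnSeries.C c * x := fun c x =>
    (HahnSeries.C_mul_eq_smul).symm
  have : IsScalarTower K F (LaurentSeries K) := ⟨fun c f x => by
    rw [hsmul, hsmul, hK, Algebra.smul_def, map_mul, expand_algebraMap, mul_assoc]⟩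
  let δ₀ : F →ₗ[K] LaurentSeries K :=
    { toFun := fun f => LaurentSeries.derivative K (expand hπ f)
      map_add' := fun a b => by rw [map_add, map_add]
      map_smul' := fun c a => by
        rw [RingHom.id_apply, ← map_smul (LaurentSeries.derivative K), hK, Algebra.smul_def,
          map_mul, expand_algebraMap] }
  let δ : Derivation K F (LaurentSeries K) :=
    Derivation.mk' δ₀ fun a b => by
      show LaurentSeries.derivative K (expand hπ (a * b)) = _
      rw [hsmul, hsmul, map_mul, laurentDeriv_mul]
      show _ = expand hπ a * LaurentSeries.derivative K (expand hπ b) +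
          expand hπ b * LaurentSeries.derivative K (expand hπ a)
      ring
  refine ⟨δ.liftKaehlerDifferential.toAddMonoidHom, fun f ω => ?_, fun f => ?_⟩
  · show δ.liftKaehlerDifferential (f • ω) = _
    rw [map_smul, hsmul]
    rfl
  · exact δ.liftKaehlerDifferential_comp_D f

/-- The expansion of differentials. -/
def dExpand : Ω[F⁄K] →+ LaurentSeries K := (exists_dExpand hπ).choose

theorem dExpand_smul (f : F) (ω : Ω[F⁄K]) :
    dExpand hπ (f • ω) = expand hπ f * dExpand hπ ω :=
  (exists_dExpand hπ).choose_spec.1 f ω

theorem dExpand_D (f : F) :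
    dExpand hπ (KaehlerDifferential.D K F f) = LaurentSeries.derivative K (expand hπ f) :=
  (exists_dExpand hπ).choose_spec.2 f

theorem dExpand_smul_D_uniformizer (f : F) :
    dExpand hπ (f • KaehlerDifferential.D K F (π : F)) = expand hπ f := by
  rw [dExpand_smul, dExpand_D, expand_uniformizer]
  simp

end FLTAgent.FF
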