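import Fermat.Agent.FF.DifferentialsLocal

/-!
# The different exponent and the trace criterion

With `s` a uniformizer at `v` and `y` adapted to the fibre (`DifferentialsLocal`),
`ord_derivative_minpoly` computes the different exponent `w.ord (P'(y))` as the order of the
differential `ds` at `w`, by differentiating `P(y) = 0` in expansions. By Euler's formula for the
trace dual of `𝒪_v[y]` this gives the trace criterion: `trace_mem_of_forall_ord` and its sharpness
`exists_trace_notMem`. Valid in any characteristic.
-/

set_option autoImplicit false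
set_option maxHeartbeats 400000

noncomputable section

open AlgebraicCurve Polynomial KaehlerDifferential WithZero

namespace FLTAgent.FF

section Kaehler

variable {R A B : Type*} [CommRing R] [CommRing A] [CommRing B] [Algebra R A] [Algebra R B]
  [Algebra A B] [IsScalarTower R A B]

/-- The chain rule for evaluating a polynomial with coefficients in `A`. -/
theorem kaehler_D_aeval (P : A[X]) (y : B) :
    KaehlerDifferential.D R B (aeval y P) =
      aeval y (derivative P) • KaehlerDifferential.D R B y +
        P.sum (fun i a => (y ^ i) • KaehlerDifferential.D R B (algebraMap A B a)) := by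
  induction P using Polynomial.induction_on' with
  | add p q hp hq =>
    rw [map_add, map_add, hp, hq, derivative_add, map_add, add_smul,
      Polynomial.sum_add_index _ _ _ (by simp) (by simp [smul_add])]
    abel
  | monomial n a =>
    rw [aeval_monomial, derivative_monomial, aeval_monomial, Polynomial.sum_monomial_index _ _
      (by simp), Derivation.leibniz, Derivation.leibniz_pow, map_mul, map_natCast, mul_smul,
      mul_smul, Nat.cast_smul_eq_nsmul]

end Kaehler

section Fiber

variable {K F₀ F : Type*} [Field K] [Field F₀] [Field F] [Algebra K F₀] [Algebra K F]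
  [Algebra F₀ F] [IsScalarTower K F₀ F] [Module.Finite F₀ F] [Algebra.IsSeparable F₀ F]
  [IsAlgClosed K] {v : Place K F₀} {s : F₀} {y : F} {c : Place K F → K}

theorem ord_eval_minpoly_eq_one (hv : ConstResidue v) (hs : v.ord s = 1) (hy : IsAdapted v y c)
    {w : Place K F} (hw : w.restrict F₀ = v) :
    ∃ b : v.toValuationSubring, IsUnit b ∧
      (((minpoly v.toValuationSubring y).eval (algebraMap K v.toValuationSubring (c w)) :
        v.toValuationSubring) : F₀) = s * b := by
  classical
  have hsmem : s ∈ v.toValuationSubring := (mem_iff v _).mpr (Or.inr (by omega))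
  set σ : v.toValuationSubring := ⟨s, hsmem⟩
  have hσirr : Irreducible σ := irreducible_of_ord_eq_one v hs
  have hint : IsIntegral v.toValuationSubring y := hy.mem
  set P := minpoly v.toValuationSubring y
  set κ := algebraMap K v.toValuationSubring (c w)
  have hs0 : algebraMap F₀ F s ≠ 0 := fun h => by
    simp only [map_eq_zero] at h; simp [h] at hs
  have hne : y - algebraMap K F (c w) ≠ 0 := fun h => by simpa [h] using hy.ord_eq_one w hw
  -- `s / (y - c)` is integral
  set γ := algebraMap F₀ F s / (y - algebraMap K F (c w)) with hγ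
  have hγmem : γ ∈ overRing v F := by
    rw [mem_overRing_iff]
    intro w' hw'
    have h1 : 0 < w'.ord (algebraMap F₀ F s) := ord_algebraMap_pos hs hw'
    have hinj := hy.inj w' w hw' hw
    refine (mem_iff w' _).mpr (Or.inr ?_)
    rw [hγ, ord_div w' hs0 hne]
    by_cases hww : w' = w
    · subst hww; rw [hy.ord_eq_one w' hw]; omega
    · have hcc : c w' - c w ≠ 0 := sub_ne_zero.mpr fun h => hww (hinj h)
      have hne' : y - algebraMap K F (c w') ≠ 0 := fun h => by
        simpa [h] using hy.ord_eq_one w' hw'
      have h2 : y - algebraMap K F (c w) =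
          algebraMap K F (c w' - c w) + (y - algebraMap K F (c w')) := by rw [map_sub]; ring
      rw [h2, (ord_add_of_lt w' (f := algebraMap K F (c w' - c w))
        (g := y - algebraMap K F (c w')) ((map_ne_zero (algebraMap K F)).mpr hcc)
        (Or.inr (by rw [ord_algebraMap, hy.ord_eq_one w' hw']; omega))).2, ord_algebraMap]
      omega
  rw [← adjoin_eq_overRing hv hs hy, Algebra.adjoin_singleton_eq_range_aeval] at hγmem
  obtain ⟨G, hG⟩ := hγmem
  have hroot : aeval y ((X - C κ) * G - C σ) = 0 := by
    rw [map_sub, map_mul, map_sub, aeval_X, aeval_C, aeval_C]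
    change (y - algebraMap v.toValuationSubring F κ) * aeval y G - algebraMap F₀ F s = 0
    rw [show algebraMap v.toValuationSubring F κ = algebraMap K F (c w) from
      (IsScalarTower.algebraMap_apply K F₀ F (c w)).symm]
    have : aeval y G = γ := hG
    rw [this, hγ, mul_div_cancel₀ _ hne, sub_self]
  obtain ⟨Q, hQ⟩ := minpoly.isIntegrallyClosed_dvd hint hroot
  have hev : -σ = P.eval κ * Q.eval κ := by
    have := congrArg (eval κ) hQ
    simpa using this
  -- `P(c)` is not a unit
  have hnu : ¬ IsUnit (P.eval κ) := by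
    intro hu
    have h0 : aeval y P = 0 := minpoly.aeval _ _
    obtain ⟨H, hH⟩ := X_sub_C_dvd_sub_C_eval (a := κ) (p := P)
    have h1 := congrArg (aeval y) hH
    rw [map_sub, h0, map_mul, map_sub, aeval_X, aeval_C, aeval_C, zero_sub] at h1
    have hHm : aeval y H ∈ w.toValuationSubring :=
      mem_place_of_mem_overRing v (Algebra.adjoin_le (by simpa using hy.mem)
        (aeval_mem_adjoin_singleton v.toValuationSubring y)) hw
    change -(algebraMap F₀ F ((P.eval κ : v.toValuationSubring) : F₀)) =
      (y - algebraMap v.toValuationSubring F κ) * aeval y H at h1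
    rw [show algebraMap v.toValuationSubring F κ = algebraMap K F (c w) from
      (IsScalarTower.algebraMap_apply K F₀ F (c w)).symm] at h1
    have hP0 : ((P.eval κ : v.toValuationSubring) : F₀) ≠ 0 := by simpa using hu.ne_zero
    have h2 : w.ord (algebraMap F₀ F ((P.eval κ : v.toValuationSubring) : F₀)) = 0 := by
      rw [Place.ord_restrict, hw, ← hu.unit_spec, v.ord_coe_unit, mul_zero]
    have hH0 : aeval y H ≠ 0 := fun h => by
      rw [h, mul_zero, neg_eq_zero, map_eq_zero] at h1; exact hP0 h1
    have h3 := congrArg w.ord h1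
    rw [ord_neg, h2, w.ord_mul hne hH0, hy.ord_eq_one w hw] at h3
    have := ord_nonneg_of_mem_placeRing w hHm
    omega
  obtain ⟨b, hb⟩ : σ ∣ P.eval κ := by
    rw [← Ideal.mem_span_singleton, ← hσirr.maximalIdeal_eq]
    exact hnu
  refine ⟨b, ?_, congrArg Subtype.val hb⟩
  rw [hb] at hev
  refine IsUnit.of_mul_eq_one (-(Q.eval κ)) ?_
  exact mul_left_cancel₀ hσirr.ne_zero (by linear_combination hev)

/-- The different exponent at `w` is the order of the differential of a uniformizer below. -/
theorem ord_derivative_minpoly (hv : ConstResidue v) (hs : v.ord s = 1) (hy : IsAdapted v y c)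
    {w : Place K F} (hw : w.restrict F₀ = v) [RatPlace w] {π : w.toValuationSubring}
    (hπ : Irreducible π) (hds : dExpand hπ (KaehlerDifferential.D K F (algebraMap F₀ F s)) ≠ 0) :
    aeval y (derivative (minpoly v.toValuationSubring y)) ≠ 0 ∧
      w.ord (aeval y (derivative (minpoly v.toValuationSubring y))) =
        (dExpand hπ (KaehlerDifferential.D K F (algebraMap F₀ F s))).order := by
  classical
  have hsmem : s ∈ v.toValuationSubring := (mem_iff v _).mpr (Or.inr (by omega))
  set σ : v.toValuationSubring := ⟨s, hsmem⟩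
  have hσirr : Irreducible σ := irreducible_of_ord_eq_one v hs
  have := ratPlace_of_constResidue hv
  obtain ⟨b, hbu, hb⟩ := ord_eval_minpoly_eq_one hv hs hy hw
  set P := minpoly v.toValuationSubring y with hPdef
  set κ := algebraMap K v.toValuationSubring (c w)
  have hsub : ∀ a : v.toValuationSubring, algebraMap F₀ F a ∈ w.toValuationSubring := fun a => by
    rw [← Place.mem_restrict_iff, hw]; exact a.2
  let E : v.toValuationSubring →ₐ[K] PowerSeries K := (expandPSHom hπ).comp
    (AlgHom.mk' (((algebraMap F₀ F).comp v.toValuationSubring.subtype).codRestrict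
      w.toValuationSubring.toSubring hsub) (fun r a => Subtype.ext (by
        show algebraMap F₀ F ((r • a : v.toValuationSubring) : F₀) = _
        rw [Algebra.smul_def, Algebra.smul_def]
        show algebraMap F₀ F (algebraMap K F₀ r * (a : F₀)) = algebraMap K F r * algebraMap F₀ F a
        rw [map_mul, ← IsScalarTower.algebraMap_apply])))
  have hE : ∀ a : v.toValuationSubring,
      expand hπ (algebraMap F₀ F a) = HahnSeries.ofPowerSeries ℤ K (E a) := fun a =>
    expand_coe hπ ⟨algebraMap F₀ F a, hsub a⟩
  have hwy : y ∈ w.toValuationSubring := mem_place_of_mem_overRing v hy.mem hw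
  set η := expandPSHom hπ ⟨y, hwy⟩ with hη
  have hEy : expand hπ y = HahnSeries.ofPowerSeries ℤ K η := expand_coe hπ ⟨y, hwy⟩
  obtain ⟨ι, hι⟩ : ∃ ι, ι = E σ := ⟨_, rfl⟩
  have hιd : dExpand hπ (KaehlerDifferential.D K F (algebraMap F₀ F s)) =
      HahnSeries.ofPowerSeries ℤ K (PowerSeries.derivative K ι) := by
    rw [dExpand_D, hι, ← laurentDeriv_ofPowerSeries, ← hE]
  have hι' : PowerSeries.derivative K ι ≠ 0 := fun h => hds (by rw [hιd, h, map_zero])
  have hι0 : PowerSeries.constantCoeff ι = 0 := by
    by_contra h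
    have h1 : 0 < w.ord (algebraMap F₀ F s) := ord_algebraMap_pos hs hw
    rw [← order_expand hπ, show algebraMap F₀ F s = algebraMap F₀ F (σ : F₀) from rfl, hE] at h1
    have := HahnSeries.coeff_eq_zero_of_lt_order h1
    exact h (by
      rw [← PowerSeries.coeff_zero_eq_constantCoeff,
        ← HahnSeries.ofPowerSeries_apply_coeff (Γ := ℤ)]
      rw [hι]; exact_mod_cast this)
  choose γ hγ1 hγ2 using exists_deriv_factor ι hι' hι0 E σ hι.symm
    (fun n a => exists_approx hσirr n a)
  have hγadd : ∀ a a', γ (a + a') = γ a + γ a' := fun a a' => mul_left_cancel₀ hι' (by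
    rw [← hγ1, map_add, map_add, hγ1, hγ1, mul_add])
  have hγmul : ∀ (k : K) a, γ (a * algebraMap K _ k) = γ a * PowerSeries.C k := fun k a =>
    mul_left_cancel₀ hι' (by
      rw [← hγ1, map_mul, AlgHom.commutes, Derivation.leibniz, Derivation.map_algebraMap, smul_zero,
        zero_add, smul_eq_mul, hγ1, PowerSeries.algebraMap_apply, Algebra.algebraMap_self,
        RingHom.id_apply]
      ring)
  -- the image of the derivative
  set Γ : PowerSeries K := P.sum fun i a => η ^ i * γ a with hΓ
  have hyw : aeval y (derivative P) ∈ w.toValuationSubring :=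
    mem_place_of_mem_overRing v (Algebra.adjoin_le (by simpa using hy.mem)
      (aeval_mem_adjoin_singleton v.toValuationSubring y)) hw
  set δ := expandPSHom hπ ⟨_, hyw⟩ with hδ
  have hrel : δ * PowerSeries.derivative K η + PowerSeries.derivative K ι * Γ = 0 := by
    have h := kaehler_D_aeval (R := K) P y
    rw [minpoly.aeval, map_zero] at h
    have h' := congrArg (dExpand hπ) h
    rw [map_zero, map_add, dExpand_smul, dExpand_D, hEy, laurentDeriv_ofPowerSeries,
      show expand hπ (aeval y (derivative P)) = HahnSeries.ofPowerSeries ℤ K δ from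
        expand_coe hπ ⟨_, hyw⟩, Polynomial.sum, map_sum, ← map_mul] at h'
    refine HahnSeries.ofPowerSeries_injective (Γ := ℤ) ?_
    rw [map_add, map_zero, hΓ, Polynomial.sum, Finset.mul_sum, map_sum]
    refine Eq.trans ?_ h'.symm
    congr 1
    refine Finset.sum_congr rfl fun i _ => ?_
    rw [dExpand_smul, map_pow, hEy, dExpand_D]
    change _ = _ * LaurentSeries.derivative K (expand hπ (algebraMap F₀ F (P.coeff i : F₀)))
    rw [hE, laurentDeriv_ofPowerSeries, hγ1, ← map_pow (HahnSeries.ofPowerSeries ℤ K),
      ← map_mul (HahnSeries.ofPowerSeries ℤ K)]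
    congr 1
    ring
  -- constant terms
  have hη0 : PowerSeries.constantCoeff η = c w := by
    have h1 := hy.ord_eq_one w hw
    rw [← order_expand hπ, map_sub, hEy, expand_algebraMap] at h1
    have h2 := HahnSeries.coeff_eq_zero_of_lt_order
      (show ((0 : ℕ) : ℤ) < (HahnSeries.ofPowerSeries ℤ K η - HahnSeries.C (c w)).order by
        rw [h1]; norm_num)
    rw [HahnSeries.coeff_sub, HahnSeries.ofPowerSeries_apply_coeff, sub_eq_zero,
      PowerSeries.coeff_zero_eq_constantCoeff] at h2
    simpa using h2
  have hη1 : PowerSeries.constantCoeff (PowerSeries.derivative K η) ≠ 0 := by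
    have h1 := hy.ord_eq_one w hw
    rw [← order_expand hπ, map_sub, hEy, expand_algebraMap] at h1
    have hne : HahnSeries.ofPowerSeries ℤ K η - HahnSeries.C (c w) ≠ 0 := fun h => by
      rw [h] at h1; simp at h1
    have h2 := coeffAtOrder_ne_zero hne
    rw [h1, HahnSeries.coeff_sub, show (1 : ℤ) = ((1 : ℕ) : ℤ) from rfl,
      HahnSeries.ofPowerSeries_apply_coeff] at h2
    rw [← PowerSeries.coeff_zero_eq_constantCoeff, PowerSeries.coeff_derivative]
    simpa [HahnSeries.C_apply, HahnSeries.coeff_single_of_ne] using h2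
  have hΓ0 : PowerSeries.constantCoeff Γ ≠ 0 := by
    have e1 : γ (P.eval κ) = P.sum fun i a => γ a * PowerSeries.C (c w ^ i) := by
      rw [eval_eq_sum, Polynomial.sum, Polynomial.sum]
      induction P.support using Finset.induction with
      | empty =>
        simp only [Finset.sum_empty]
        exact mul_left_cancel₀ hι' (by rw [← hγ1, map_zero, map_zero, mul_zero])
      | insert i t hi ih =>
        rw [Finset.sum_insert hi, Finset.sum_insert hi, hγadd, ih, ← map_pow, hγmul]
    have e2 : PowerSeries.constantCoeff (γ (P.eval κ)) = PowerSeries.constantCoeff Γ := by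
      rw [e1, hΓ, Polynomial.sum, Polynomial.sum, map_sum, map_sum]
      refine Finset.sum_congr rfl fun i _ => ?_
      simp only [map_mul, map_pow, hη0, PowerSeries.constantCoeff_C]
      ring
    rw [← e2, hγ2 _ b (Subtype.ext hb)]
    exact ((PowerSeries.isUnit_iff_constantCoeff).mp (hbu.map E)).ne_zero
  have hu : ∃ u : PowerSeries K, IsUnit u ∧ δ = PowerSeries.derivative K ι * u := by
    obtain ⟨a, ha⟩ := PowerSeries.isUnit_iff_constantCoeff.mpr (isUnit_iff_ne_zero.mpr hη1)
    refine ⟨-(Γ * (↑a⁻¹ : PowerSeries K)), (IsUnit.mul (PowerSeries.isUnit_iff_constantCoeff.mpr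
      (isUnit_iff_ne_zero.mpr hΓ0)) a⁻¹.isUnit).neg, ?_⟩
    rw [← ha, add_eq_zero_iff_eq_neg] at hrel
    rw [show δ = δ * (↑a : PowerSeries K) * (↑a⁻¹ : PowerSeries K) by
      rw [mul_assoc, Units.mul_inv, mul_one], hrel]
    ring
  obtain ⟨u, hu1, hu2⟩ := hu
  have hu0 : HahnSeries.ofPowerSeries ℤ K u ≠ 0 :=
    (map_ne_zero_iff _ HahnSeries.ofPowerSeries_injective).mpr hu1.ne_zero
  have hexp : expand hπ (aeval y (derivative P)) =
      dExpand hπ (KaehlerDifferential.D K F (algebraMap F₀ F s)) *
        HahnSeries.ofPowerSeries ℤ K u := by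
    rw [show expand hπ (aeval y (derivative P)) = HahnSeries.ofPowerSeries ℤ K δ from
        expand_coe hπ ⟨_, hyw⟩, hu2, map_mul, hιd]
  have hne : aeval y (derivative P) ≠ 0 := fun h => by
    rw [h, map_zero] at hexp
    exact mul_ne_zero hds hu0 hexp.symm
  refine ⟨hne, ?_⟩
  rw [← order_expand hπ, hexp, HahnSeries.order_mul hds hu0,
    order_ofPowerSeries_eq_zero (PowerSeries.isUnit_iff_constantCoeff.mp hu1).ne_zero, add_zero]

/-- Trace criterion: regular trace. -/
theorem trace_mem_of_forall_ord (hv : ConstResidue v) (hs : v.ord s = 1) (hy : IsAdapted v y c)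
    {β : F} (hd0 : aeval y (derivative (minpoly v.toValuationSubring y)) ≠ 0)
    (hβ : ∀ w : Place K F, w.restrict F₀ = v → β = 0 ∨
      -(w.ord (aeval y (derivative (minpoly v.toValuationSubring y)))) ≤ w.ord β) :
    Algebra.trace F₀ F β ∈ v.toValuationSubring := by
  have hint : IsIntegral v.toValuationSubring y := hy.mem
  set d := aeval y (derivative (minpoly v.toValuationSubring y)) with hd
  have hd' : aeval y (derivative (minpoly F₀ y)) = d := by
    rw [hd, minpoly.isIntegrallyClosed_eq_field_fractions' F₀ hint, derivative_map,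
      aeval_map_algebraMap]
  have hmem : β * d ∈ overRing v F := by
    rw [mem_overRing_iff]
    intro w hw
    refine (mem_iff w _).mpr ?_
    rcases hβ w hw with rfl | h
    · exact Or.inl (zero_mul _)
    · rcases eq_or_ne β 0 with rfl | hb
      · exact Or.inl (zero_mul _)
      · exact Or.inr (by rw [w.ord_mul hb hd0]; omega)
  have hβmem : β ∈ (Algebra.traceForm F₀ F).dualSubmodule
      (Subalgebra.toSubmodule (Algebra.adjoin v.toValuationSubring ({y} : Set F))) := by
    rw [traceForm_dualSubmodule_adjoin v.toValuationSubring F₀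
      (adjoin_field_eq_top hv hs hy) hint, hd']
    refine ⟨β * d, ?_, ?_⟩
    · rw [adjoin_eq_overRing hv hs hy]; exact hmem
    · show d⁻¹ • (β * d) = β
      rw [smul_eq_mul]; field_simp
  obtain ⟨a, ha⟩ := Submodule.mem_one.mp (hβmem 1 (show (1 : F) ∈ Subalgebra.toSubmodule _ from
    one_mem (Algebra.adjoin v.toValuationSubring ({y} : Set F))))
  rw [Algebra.traceForm_apply, mul_one] at ha
  exact ha ▸ a.2

open scoped Classical in
/-- Trace criterion: sharpness. -/
theorem exists_trace_notMem (hv : ConstResidue v) (hs : v.ord s = 1) (hy : IsAdapted v y c)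
    (hd0 : aeval y (derivative (minpoly v.toValuationSubring y)) ≠ 0)
    {w₀ : Place K F} (hw₀ : w₀.restrict F₀ = v) :
    ∃ β : F, β ≠ 0 ∧ Algebra.trace F₀ F β ∉ v.toValuationSubring ∧
      ∀ w : Place K F, w.restrict F₀ = v →
        -(w.ord (aeval y (derivative (minpoly v.toValuationSubring y)))) -
            (if w = w₀ then 1 else 0) ≤ w.ord β := by
  classical
  have hint : IsIntegral v.toValuationSubring y := hy.mem
  set d := aeval y (derivative (minpoly v.toValuationSubring y)) with hd
  have hd' : aeval y (derivative (minpoly F₀ y)) = d := by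
    rw [hd, minpoly.isIntegrallyClosed_eq_field_fractions' F₀ hint, derivative_map,
      aeval_map_algebraMap]
  have hne : y - algebraMap K F (c w₀) ≠ 0 := fun h => by simpa [h] using hy.ord_eq_one w₀ hw₀
  set β₀ := ((y - algebraMap K F (c w₀)) * d)⁻¹ with hβ₀
  have hnot : β₀ ∉ (Algebra.traceForm F₀ F).dualSubmodule
      (Subalgebra.toSubmodule (Algebra.adjoin v.toValuationSubring ({y} : Set F))) := by
    rw [traceForm_dualSubmodule_adjoin v.toValuationSubring F₀
      (adjoin_field_eq_top hv hs hy) hint, hd']
    rintro ⟨g, hg, hgeq⟩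
    rw [adjoin_eq_overRing hv hs hy] at hg
    change d⁻¹ * g = β₀ at hgeq
    have hg' : g = (y - algebraMap K F (c w₀))⁻¹ := by
      rw [hβ₀, mul_inv, mul_comm (y - _)⁻¹] at hgeq
      exact mul_left_cancel₀ (inv_ne_zero hd0) hgeq
    have h := ord_nonneg_of_mem_placeRing w₀ ((mem_overRing_iff v g).mp hg w₀ hw₀)
    rw [hg', w₀.ord_inv, hy.ord_eq_one w₀ hw₀] at h
    omega
  rw [LinearMap.BilinForm.mem_dualSubmodule] at hnot
  push Not at hnot
  obtain ⟨g, hg, hg2⟩ := hnot
  rw [Submodule.mem_one, Algebra.traceForm_apply] at hg2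
  have hg0 : g ≠ 0 := by
    rintro rfl
    exact hg2 ⟨0, by simp⟩
  refine ⟨β₀ * g, mul_ne_zero (inv_ne_zero (mul_ne_zero hne hd0)) hg0,
    fun h => hg2 ⟨⟨_, h⟩, rfl⟩, fun w hw => ?_⟩
  have hgw := ord_nonneg_of_mem_placeRing w
    (mem_place_of_mem_overRing v (adjoin_eq_overRing hv hs hy ▸ hg) hw)
  rw [w.ord_mul (inv_ne_zero (mul_ne_zero hne hd0)) hg0, w.ord_inv, w.ord_mul hne hd0]
  by_cases hww : w = w₀
  · subst hww
    rw [if_pos rfl, hy.ord_eq_one w hw]
    omega
  · rw [if_neg hww]
    have hcc : c w - c w₀ ≠ 0 := sub_ne_zero.mpr fun h => hww (hy.inj w w₀ hw hw₀ h)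
    have h2 : y - algebraMap K F (c w₀) =
        algebraMap K F (c w - c w₀) + (y - algebraMap K F (c w)) := by rw [map_sub]; ring
    rw [h2, (ord_add_of_lt w (f := algebraMap K F (c w - c w₀))
      (g := y - algebraMap K F (c w)) ((map_ne_zero (algebraMap K F)).mpr hcc)
      (Or.inr (by rw [ord_algebraMap, hy.ord_eq_one w hw]; omega))).2, ord_algebraMap]
    omega

end Fiber

end FLTAgent.FF
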