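import Fermat.Agent.FF.RiemannRoch

/-!
# Weil differentials and duality

`weilSpace D` (functionals on repartitions killing `A(D)` and `F`), its duality with `H¹(D)`,
`exists_weilSmul_eq` (Weil differentials form a line over `F`, by comparing dimensions of large
spaces), `hOne_eq_ell_sub` (`h¹(D) = l(W - D)` for the divisor `W` of a nonzero Weil differential)
and `degree_weil_divisor` (`deg W = 2g - 2`).
-/

set_option autoImplicit false

noncomputable section

open AlgebraicCurve WithZero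

namespace FLTAgent.FF

variable {K F : Type*} [Field K] [Field F] [Algebra K F]

/-- Linear functionals on repartitions killing `A(D)` and the constant repartitions. -/
def weilSpace (D : Divisor K F) : Submodule K (↥(repartitions K F) →ₗ[K] K) :=
  (repartitionsOf D ⊔ principalRepartitions K F).dualAnnihilator

theorem mem_weilSpace_iff {D : Divisor K F} {ω : ↥(repartitions K F) →ₗ[K] K} :
    ω ∈ weilSpace D ↔
      (∀ α ∈ repartitionsOf D, ω α = 0) ∧ ∀ f : F, ω (diagRep f) = 0 := by
  rw [weilSpace, Submodule.dualAnnihilator_sup_eq, Submodule.mem_inf,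
    Submodule.mem_dualAnnihilator, Submodule.mem_dualAnnihilator, principalRepartitions_eq_range]
  exact and_congr_right fun _ => ⟨fun h f => h _ ⟨f, rfl⟩, fun h _ ⟨f, hf⟩ => hf ▸ h f⟩

theorem weilSpace_antitone {D E : Divisor K F} (h : D ≤ E) : weilSpace E ≤ weilSpace D :=
  Submodule.dualAnnihilator_anti (repRelations_mono h)

/-- The action of a function on functionals on repartitions. -/
def weilSmul (ω : ↥(repartitions K F) →ₗ[K] K) : F →ₗ[K] (↥(repartitions K F) →ₗ[K] K) :=
  (LinearMap.llcomp K _ _ K ω) ∘ₗ mulRep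

@[simp]
theorem weilSmul_apply (ω : ↥(repartitions K F) →ₗ[K] K) (f : F) (α : ↥(repartitions K F)) :
    weilSmul ω f α = ω (f • α) := rfl

theorem weilSmul_injective {ω : ↥(repartitions K F) →ₗ[K] K} (hω : ω ≠ 0) :
    Function.Injective (weilSmul ω) := by
  rw [injective_iff_map_eq_zero]
  intro f hf
  by_contra hf0
  refine hω (LinearMap.ext fun α => ?_)
  have := LinearMap.congr_fun hf (f⁻¹ • α)
  rwa [weilSmul_apply, smul_inv_smul₀ hf0] at this

theorem weilSmul_mem {A B : Divisor K F} {ω : ↥(repartitions K F) →ₗ[K] K}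
    (hω : ω ∈ weilSpace A) {f : F} (hf : f ∈ riemannRochSpace B) :
    weilSmul ω f ∈ weilSpace (A - B) := by
  rw [mem_weilSpace_iff] at hω ⊢
  refine ⟨fun α hα => hω.1 _ ?_, fun g => ?_⟩
  · simpa using smul_mem_repartitionsOf_add hf hα
  · have : f • diagRep (K := K) g = diagRep (f * g) := Subtype.ext (funext fun v => rfl)
    rw [weilSmul_apply, this]
    exact hω.2 _

theorem mem_weilSpace_sup {D E : Divisor K F} {ω : ↥(repartitions K F) →ₗ[K] K}
    (hD : ω ∈ weilSpace D) (hE : ω ∈ weilSpace E) : ω ∈ weilSpace (D ⊔ E) := by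
  classical
  rw [mem_weilSpace_iff] at hD hE ⊢
  refine ⟨fun α hα => ?_, hD.2⟩
  let β : Place K F → F := fun v => if E v ≤ D v then (α : Place K F → F) v else 0
  have hβmem : β ∈ repartitions K F := mem_repartitions_of_forall_le_exp D β fun v => by
    by_cases h : E v ≤ D v
    · simpa [β, h, Finsupp.sup_apply, max_eq_left h] using hα v
    · simp [β, h]
  have hβ : (⟨β, hβmem⟩ : ↥(repartitions K F)) ∈ repartitionsOf D := fun v => by
    by_cases h : E v ≤ D v
    · simpa [β, h, Finsupp.sup_apply, max_eq_left h] using hα v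
    · simp [β, h]
  have hγ : α - ⟨β, hβmem⟩ ∈ repartitionsOf E := fun v => by
    show v.adicValuation ((α : Place K F → F) v - β v) ≤ _
    by_cases h : E v ≤ D v
    · simp [β, h]
    · simpa [β, h, Finsupp.sup_apply, max_eq_right (le_of_not_ge h)] using hα v
  have h1 := hE.1 _ hγ
  rw [map_sub, hD.1 _ hβ, sub_zero] at h1
  exact h1

variable [IsAlgClosed K] [IsFF K F]

/-- `weilSpace D` is dual to `H1 D`. -/
def weilSpaceEquiv (D : Divisor K F) : weilSpace D ≃ₗ[K] Module.Dual K (H1 D) :=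
  (Submodule.dualQuotEquivDualAnnihilator _).symm

instance finiteDimensional_weilSpace (D : Divisor K F) : FiniteDimensional K (weilSpace D) :=
  Module.Finite.equiv (weilSpaceEquiv D).symm

theorem finrank_weilSpace (D : Divisor K F) : Module.finrank K (weilSpace D) = hOne D := by
  rw [(weilSpaceEquiv D).finrank_eq, Subspace.dual_finrank_eq]

theorem hOne_pos_of_mem_weilSpace {D : Divisor K F} {ω : ↥(repartitions K F) →ₗ[K] K}
    (hω : ω ∈ weilSpace D) (h0 : ω ≠ 0) : 0 < hOne D := by
  rw [← finrank_weilSpace]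
  have : Nontrivial (weilSpace D) := ⟨⟨⟨ω, hω⟩, 0, fun h => h0 (congrArg Subtype.val h)⟩⟩
  exact Module.finrank_pos (R := K) (M := weilSpace D)

/-- Weil differentials form a one-dimensional `F`-space. -/
theorem exists_weilSmul_eq {D₁ D₂ : Divisor K F} {ω₁ ω₂ : ↥(repartitions K F) →ₗ[K] K}
    (h₁ : ω₁ ∈ weilSpace D₁) (h₂ : ω₂ ∈ weilSpace D₂) (h₁0 : ω₁ ≠ 0) :
    ∃ f : F, weilSmul ω₁ f = ω₂ := by
  classical
  by_contra hno
  push Not at hno
  have h₂0 : ω₂ ≠ 0 := fun h => hno 0 (by rw [map_zero, h])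
  obtain ⟨v⟩ := place_nonempty (K := K) (F := F)
  set g : ℤ := (genusFF K F : ℤ)
  obtain ⟨m, hm⟩ : ∃ m : ℕ, 3 * g - 2 - Divisor.degree D₁ - Divisor.degree D₂ < m ∧ 1 ≤ m :=
    ⟨(3 * g - 2 - Divisor.degree D₁ - Divisor.degree D₂).toNat + 1, by omega⟩
  set E : Divisor K F := Finsupp.single v (-(m : ℤ)) with hE
  have hEdeg : Divisor.degree E = -(m : ℤ) := by simp [hE, deg_eq_one v]
  let Ψ : riemannRochSpace (D₁ - E) × riemannRochSpace (D₂ - E) →ₗ[K] weilSpace E :=
    LinearMap.coprod
      (LinearMap.codRestrict _ ((weilSmul ω₁).comp (Submodule.subtype _)) fun f => by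
        simpa using weilSmul_mem h₁ f.2)
      (LinearMap.codRestrict _ ((weilSmul ω₂).comp (Submodule.subtype _)) fun f => by
        simpa using weilSmul_mem h₂ f.2)
  have hinj : Function.Injective Ψ := by
    rw [injective_iff_map_eq_zero]
    rintro ⟨f₁, f₂⟩ h
    have h' : weilSmul ω₁ (f₁ : F) + weilSmul ω₂ (f₂ : F) = 0 := congrArg Subtype.val h
    rcases eq_or_ne (f₂ : F) 0 with hf₂ | hf₂
    · rw [hf₂, map_zero, add_zero] at h'
      have hf₁ : (f₁ : F) = 0 := weilSmul_injective h₁0 (by rw [h', map_zero])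
      exact Prod.ext (Subtype.ext hf₁) (Subtype.ext hf₂)
    · refine absurd (LinearMap.ext fun α => ?_) (hno (-((f₁ : F) / (f₂ : F))))
      have := LinearMap.congr_fun h' ((f₂ : F)⁻¹ • α)
      rw [LinearMap.add_apply, weilSmul_apply, weilSmul_apply, smul_inv_smul₀ hf₂,
        LinearMap.zero_apply, smul_smul, ← div_eq_mul_inv] at this
      rw [map_neg, LinearMap.neg_apply, weilSmul_apply]
      linear_combination -this
  have hle := LinearMap.finrank_le_finrank_of_injective hinj
  rw [Module.finrank_prod, finrank_weilSpace] at hle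
  change ell (D₁ - E) + ell (D₂ - E) ≤ hOne E at hle
  have e1 := degree_add_one_sub_genusFF_le_ell (D₁ - E)
  have e2 := degree_add_one_sub_genusFF_le_ell (D₂ - E)
  have e3 := riemann_roch E
  have e4 := ell_eq_zero_of_degree_neg (D := E) (by omega)
  rw [map_sub] at e1 e2
  omega

theorem exists_weil_ne_zero :
    ∃ (D : Divisor K F) (ω : ↥(repartitions K F) →ₗ[K] K), ω ∈ weilSpace D ∧ ω ≠ 0 := by
  obtain ⟨v⟩ := place_nonempty (K := K) (F := F)
  let E : Divisor K F := Finsupp.single v (-2 : ℤ)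
  have hdeg : Divisor.degree E = -2 := by simp [E, deg_eq_one v]
  have h : 0 < Module.finrank K (weilSpace E) := by
    rw [finrank_weilSpace]
    have e3 := riemann_roch E
    have e4 := ell_eq_zero_of_degree_neg (D := E) (by omega)
    omega
  have := Module.nontrivial_of_finrank_pos h
  obtain ⟨⟨ω, hω⟩, h0⟩ := exists_ne (0 : weilSpace E)
  exact ⟨E, ω, hω, fun h => h0 (Subtype.ext h)⟩

/-- The divisor of a nonzero Weil differential: the largest `D` it kills `A(D)` for. -/
theorem exists_greatest_divisor {D : Divisor K F} {ω : ↥(repartitions K F) →ₗ[K] K}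
    (hω : ω ∈ weilSpace D) (h0 : ω ≠ 0) :
    ∃ W : Divisor K F, ω ∈ weilSpace W ∧ ∀ E : Divisor K F, ω ∈ weilSpace E → E ≤ W := by
  obtain ⟨M, ⟨W, hW, hWM⟩, hM⟩ := Int.exists_greatest_of_bdd
    (P := fun z => ∃ E : Divisor K F, ω ∈ weilSpace E ∧ Divisor.degree E = z)
    ⟨2 * (genusFF K F : ℤ) - 2, fun z ⟨E, hE, hz⟩ =>
      hz ▸ degree_le_of_hOne_pos (hOne_pos_of_mem_weilSpace hE h0)⟩ ⟨_, D, hω, rfl⟩
  refine ⟨W, hW, fun E hE => ?_⟩
  have hd : Divisor.degree (W ⊔ E) ≤ Divisor.degree W :=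
    hWM ▸ hM _ ⟨W ⊔ E, mem_weilSpace_sup hW hE, rfl⟩
  have h := eq_zero_of_degree_nonpos (sub_nonneg.2 (le_sup_left : W ≤ W ⊔ E))
    (by rw [map_sub]; omega)
  rw [sub_eq_zero] at h
  exact h ▸ le_sup_right

/-- Duality: with `W` the divisor of a nonzero Weil differential, `h1(D) = l(W - D)`. -/
theorem hOne_eq_ell_sub {W : Divisor K F} {ω : ↥(repartitions K F) →ₗ[K] K}
    (hW : ω ∈ weilSpace W) (h0 : ω ≠ 0)
    (hmax : ∀ E : Divisor K F, ω ∈ weilSpace E → E ≤ W) (D : Divisor K F) :
    hOne D = ell (W - D) := by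
  let φ : riemannRochSpace (W - D) →ₗ[K] weilSpace D :=
    LinearMap.codRestrict _ ((weilSmul ω).comp (Submodule.subtype _)) fun f => by
      simpa using weilSmul_mem hW f.2
  have hsurj : Function.Surjective φ := by
    rintro ⟨η, hη⟩
    obtain ⟨f, rfl⟩ := exists_weilSmul_eq hW hη h0
    refine ⟨⟨f, ?_⟩, rfl⟩
    rcases eq_or_ne f 0 with rfl | hf0
    · exact zero_mem _
    obtain ⟨G, hG, -⟩ := exists_div (K := K) hf0
    have hinv : f⁻¹ ∈ riemannRochSpace G :=
      mem_riemannRochSpace_of_ord fun v => by rw [v.ord_inv, hG v]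
    have hmem := weilSmul_mem hη hinv
    have heq : weilSmul (weilSmul ω f) f⁻¹ = ω := LinearMap.ext fun α => by
      simp [smul_inv_smul₀ hf0]
    rw [heq] at hmem
    refine mem_riemannRochSpace_of_ord fun v => ?_
    have := Finsupp.le_def.mp (hmax _ hmem) v
    simp only [Finsupp.sub_apply, hG v] at this ⊢
    omega
  have hinj : Function.Injective φ := fun f g h =>
    Subtype.ext (weilSmul_injective h0 (congrArg Subtype.val h))
  rw [← finrank_weilSpace]
  exact (LinearEquiv.ofBijective φ ⟨hinj, hsurj⟩).finrank_eq.symm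

/-- The divisor of a nonzero Weil differential has degree `2g - 2` and `l = g`. -/
theorem degree_weil_divisor {W : Divisor K F} {ω : ↥(repartitions K F) →ₗ[K] K}
    (hW : ω ∈ weilSpace W) (h0 : ω ≠ 0)
    (hmax : ∀ E : Divisor K F, ω ∈ weilSpace E → E ≤ W) :
    Divisor.degree W = 2 * (genusFF K F : ℤ) - 2 ∧ ell W = genusFF K F := by
  have h1 := hOne_eq_ell_sub hW h0 hmax 0
  have h2 := hOne_eq_ell_sub hW h0 hmax W
  rw [sub_zero, hOne_zero] at h1
  rw [sub_self, ell_zero] at h2
  have h3 := riemann_roch W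
  omega

end FLTAgent.FF
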