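import Fermat.Agent.FF.DifferentialsBasic
import Fermat.Agent.FF.DifferentialsTrace
import Fermat.Agent.FF.RiemannRochWeil

/-!
# The Weil differential attached to `dx`

For a separating element `x` of a function field over an algebraically closed field of any
characteristic, `exists_weil_of_isSep` gives a nonzero functional on repartitions which lies in
`weilSpace D` exactly when `D ≤ div (dx)`. It is a functional on families indexed by the points of
the projective line (`exists_residueFunctional`, vanishing on constant families from `K(x)`),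
composed with the trace `F → K(x)` of simultaneous approximations over each point; the local
input is the trace criterion of `DifferentialsTrace` (`trace_zeros_le_one`, `exists_trace_pole`).
-/

set_option autoImplicit false
set_option maxHeartbeats 400000

noncomputable section

open AlgebraicCurve KaehlerDifferential WithZero IntermediateField

namespace FLTAgent.FF

variable {K F : Type*} [Field K] [Field F] [Algebra K F] [IsAlgClosed K] [IsFF K F]

section Base

theorem adjoin_gen_eq_top {L : IntermediateField K F} {s : L}
    (hL : L = IntermediateField.adjoin K ({(s : F)} : Set F)) :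
    IntermediateField.adjoin K ({s} : Set L) = ⊤ := by
  refine IntermediateField.map_injective L.val ?_
  rw [IntermediateField.adjoin_map, Set.image_singleton, ← AlgHom.fieldRange_eq_map,
    IntermediateField.fieldRange_val]
  exact hL.symm

theorem finiteDimensional_of_eq_top {L : Type*} [Field L] [Algebra K L]
    {M : IntermediateField K L} (h : M = ⊤) :
    FiniteDimensional M L ∧ Algebra.IsSeparable M L ∧ Module.finrank M L = 1 := by
  subst h
  have e : Module.finrank (⊤ : IntermediateField K L) L = 1 := IntermediateField.finrank_top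
  have hf : FiniteDimensional (⊤ : IntermediateField K L) L :=
    Module.finite_of_finrank_eq_succ e
  exact ⟨hf, ⟨fun y => isSeparable_algebraMap (F := (⊤ : IntermediateField K L))
    (⟨y, trivial⟩ : (⊤ : IntermediateField K L))⟩, e⟩

variable {s : F} (L : IntermediateField K F) [FiniteDimensional L F] [Algebra.IsSeparable L F]

theorem exists_basePlace (hs : IsSep K s) (hL : L = IntermediateField.adjoin K ({s} : Set F)) :
    ∃ (v : Place K L) (s' : L), (s' : F) = s ∧ ConstResidue v ∧ v.ord s' = 1 ∧
      ∀ w : Place K F, w.restrict L = v ↔ 0 < w.ord s := by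
  classical
  have hsL : s ∈ L := hL ▸ IntermediateField.mem_adjoin_simple_self K s
  set s' : L := ⟨s, hsL⟩
  have htr : Transcendental K s' := fun h => hs.transcendental (h.algebraMap (A := F))
  have htop := adjoin_gen_eq_top (s := s') hL
  obtain ⟨hf1, hf2, hf3⟩ := finiteDimensional_of_eq_top htop
  have : IsFF K L := ⟨s', htr, hf1, hf2⟩
  have := hf2
  have hdeg := degree_zeroDivisor (K := K) htr
  rw [hf3, degree_eq_sum, Nat.cast_one] at hdeg
  obtain ⟨v, hv⟩ := exists_zero (K := K) htr
  have key : ∀ u : Place K L, 0 < u.ord s' → u = v ∧ u.ord s' = 1 := by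
    intro u hu
    have hsub : ({u, v} : Finset (Place K L)) ⊆ (zeroDivisor s').support := by
      intro a ha
      rw [Finset.mem_insert, Finset.mem_singleton] at ha
      rw [Finsupp.mem_support_iff, zeroDivisor_apply]
      rcases ha with rfl | rfl <;> omega
    have hle := Finset.sum_le_sum_of_subset_of_nonneg
      (f := fun a => (zeroDivisor s' : Divisor K L) a) hsub
      (fun a _ _ => by rw [zeroDivisor_apply]; exact le_max_left _ _)
    rw [Finsupp.sum] at hdeg
    rw [hdeg] at hle
    by_cases huv : u = v
    · subst huv
      rw [show ({u, u} : Finset (Place K L)) = {u} from Finset.pair_eq_singleton u,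
        Finset.sum_singleton, zeroDivisor_apply] at hle
      exact ⟨rfl, by omega⟩
    · rw [Finset.sum_pair huv, zeroDivisor_apply, zeroDivisor_apply] at hle
      omega
  refine ⟨v, s', rfl, constResidue v, (key v hv).2, fun w => ⟨fun hw => ?_, fun hw => ?_⟩⟩
  · exact ord_algebraMap_pos (key v hv).2 hw
  · refine (key _ ?_).1
    have h := w.ord_restrict (F := L) s'
    have hpos : (0 : ℤ) ≤ (w.ramificationIndex L : ℤ) := Int.natCast_nonneg _
    change w.ord s = _ at h
    rw [h] at hw
    exact pos_of_mul_pos_right hw hpos

variable {L}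

/-- Trace criterion at the zeros of a separating element: regularity. -/
theorem trace_zeros_le_one (hs : IsSep K s) (hL : L = IntermediateField.adjoin K ({s} : Set F))
    {β : F} (hβ : ∀ w : Place K F, 0 < w.ord s → w.adicValuation β ≤
      exp (w.ordDifferential (KaehlerDifferential.D K F s)))
    {w : Place K F} (hw : 0 < w.ord s) :
    w.adicValuation ((Algebra.trace L F β : L) : F) ≤ 1 := by
  obtain ⟨v, s', hs', hv, hs1, hiff⟩ := exists_basePlace L hs hL
  obtain ⟨y, c, hy⟩ := exists_isAdapted (F := F) hv
  have hds : ∀ u : Place K F,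
      dExpand (uni_irreducible u) (KaehlerDifferential.D K F (algebraMap L F s')) ≠ 0 := fun u h => by
    rw [IntermediateField.algebraMap_apply, hs', ← map_zero (dExpand (uni_irreducible u))] at h
    exact D_ne_zero_of_isSep' hs (dExpand_injective _ h)
  have hd := fun u hu => ord_derivative_minpoly hv hs1 hy (w := u) hu (uni_irreducible u) (hds u)
  have hw' := (hiff w).mpr hw
  have hmem : Algebra.trace L F β ∈ v.toValuationSubring :=
    trace_mem_of_forall_ord hv hs1 hy (hd w hw').1 fun u hu => by
      have h := (val_le_exp_iff u).mp (hβ u ((hiff u).mp hu))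
      rw [(hd u hu).2, IntermediateField.algebraMap_apply, hs', ← ordDifferential_eq_order]
      exact h
  rw [← mem_iff_val_le_one]
  exact Place.mem_restrict_iff w |>.mp (hw'.symm ▸ hmem)

open scoped Classical in
/-- Trace criterion at the zeros of a separating element: sharpness. -/
theorem exists_trace_pole (hs : IsSep K s) (hL : L = IntermediateField.adjoin K ({s} : Set F))
    {w₀ : Place K F} (hw₀ : 0 < w₀.ord s) :
    ∃ (β : F) (k : K), k ≠ 0 ∧
      (∀ w : Place K F, 0 < w.ord s → w.adicValuation β ≤
        exp (w.ordDifferential (KaehlerDifferential.D K F s) + if w = w₀ then 1 else 0)) ∧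
      ∀ w : Place K F, 0 < w.ord s →
        w.adicValuation (((Algebra.trace L F β : L) : F) - algebraMap K F k * s⁻¹) ≤ 1 := by
  obtain ⟨v, s', hs', hv, hs1, hiff⟩ := exists_basePlace L hs hL
  obtain ⟨y, c, hy⟩ := exists_isAdapted (F := F) hv
  have hds : ∀ u : Place K F,
      dExpand (uni_irreducible u) (KaehlerDifferential.D K F (algebraMap L F s')) ≠ 0 := fun u h => by
    rw [IntermediateField.algebraMap_apply, hs', ← map_zero (dExpand (uni_irreducible u))] at h
    exact D_ne_zero_of_isSep' hs (dExpand_injective _ h)
  have hd := fun u hu => ord_derivative_minpoly hv hs1 hy (w := u) hu (uni_irreducible u) (hds u)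
  have hW : ∀ u : Place K F, (dExpand (uni_irreducible u)
      (KaehlerDifferential.D K F (algebraMap L F s'))).order =
      u.ordDifferential (KaehlerDifferential.D K F s) := fun u => by
    rw [IntermediateField.algebraMap_apply, hs', ← ordDifferential_eq_order]
  have hw₀' := (hiff w₀).mpr hw₀
  obtain ⟨β, hβ0, hnot, hbd⟩ := exists_trace_notMem hv hs1 hy (hd w₀ hw₀').1 hw₀'
  have hs'0 : s' ≠ 0 := fun h => by simp [h] at hs1
  have hmul : Algebra.trace L F (algebraMap L F s' * β) = s' * Algebra.trace L F β := by
    rw [← Algebra.smul_def, map_smul, smul_eq_mul]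
  have hg : s' * Algebra.trace L F β ∈ v.toValuationSubring := by
    rw [← hmul]
    refine trace_mem_of_forall_ord hv hs1 hy (hd w₀ hw₀').1 fun u hu => Or.inr ?_
    have h := hbd u hu
    have hpos := ord_algebraMap_pos hs1 hu
    rw [u.ord_mul ((map_ne_zero _).mpr hs'0) hβ0]
    split_ifs at h <;> omega
  have htr0 : Algebra.trace L F β ≠ 0 := fun h => hnot (h ▸ zero_mem _)
  obtain ⟨k, hk⟩ := hv _ hg
  have hk0 : k ≠ 0 := by
    rintro rfl
    rw [map_zero, sub_zero] at hk
    refine hnot ((mem_iff v _).mpr (Or.inr ?_))
    rcases (val_le_exp_iff v).mp hk with h | h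
    · exact absurd h (mul_ne_zero hs'0 htr0)
    · rw [v.ord_mul hs'0 htr0, hs1] at h; omega
  refine ⟨β, k, hk0, fun u hu => ?_, fun u hu => ?_⟩
  · have hu' := (hiff u).mpr hu
    have h := hbd u hu'
    rw [(hd u hu').2, hW] at h
    refine (val_le_exp_iff u).mpr (Or.inr ?_)
    omega
  · have hu' := (hiff u).mpr hu
    have hmem : Algebra.trace L F β - algebraMap K L k * s'⁻¹ ∈ v.toValuationSubring := by
      have e : Algebra.trace L F β - algebraMap K L k * s'⁻¹ =
          (s' * Algebra.trace L F β - algebraMap K L k) * s'⁻¹ := by
        field_simp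
      rw [e, mem_iff_val_le_one, map_mul, map_inv₀, val_eq_exp v hs'0, hs1, ← exp_neg, neg_neg]
      calc _ ≤ exp (-1 : ℤ) * exp (1 : ℤ) := mul_le_mul' hk le_rfl
        _ = 1 := by rw [← exp_add]; simp
    rw [← mem_iff_val_le_one]
    have h := Place.mem_restrict_iff u |>.mp (hu'.symm ▸ hmem)
    simp only [map_sub, map_mul, map_inv₀, IntermediateField.algebraMap_apply, hs'] at h
    exact h

end Base

section Chart

variable (x : F)

/-- Local parameter on the projective line. -/
def loc : Option K → F
  | none => x⁻¹
  | some c => x - algebraMap K F c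

/-- Weight of the differential `dx` on the projective line. -/
def wgt : Option K → F
  | none => x⁻¹ ^ 2
  | some _ => 1

variable {x} (hx : IsSep K x)
include hx

theorem x_ne_zero : x ≠ 0 := fun h => hx.transcendental (h ▸ isAlgebraic_zero)

theorem adjoin_loc (i : Option K) :
    IntermediateField.adjoin K ({loc x i} : Set F) = IntermediateField.adjoin K ({x} : Set F) := by
  refine le_antisymm (IntermediateField.adjoin_simple_le_iff.mpr ?_)
    (IntermediateField.adjoin_simple_le_iff.mpr ?_)
  · cases i with
    | none => exact inv_mem (IntermediateField.mem_adjoin_simple_self K x)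
    | some c =>
      exact sub_mem (IntermediateField.mem_adjoin_simple_self K x)
        (IntermediateField.algebraMap_mem _ c)
  · cases i with
    | none =>
      have h := inv_mem (IntermediateField.mem_adjoin_simple_self K (loc x (none : Option K)))
      simpa [loc] using h
    | some c =>
      have h := add_mem (IntermediateField.mem_adjoin_simple_self K (loc x (some c)))
        (IntermediateField.algebraMap_mem _ c)
      simpa [loc] using h

theorem isSep_loc (i : Option K) : IsSep K (loc x i) := by
  refine ⟨fun halg => ?_, (adjoin_loc hx i).symm ▸ hx.finite,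
    (adjoin_loc hx i).symm ▸ hx.separable⟩
  obtain ⟨d, hd⟩ := mem_range_of_not_transcendental (K := K) (not_not_intro halg)
  have hmem : x ∈ IntermediateField.adjoin K ({loc x i} : Set F) :=
    (adjoin_loc hx i).symm ▸ IntermediateField.mem_adjoin_simple_self K x
  rw [← hd, show IntermediateField.adjoin K ({algebraMap K F d} : Set F) = ⊥ from
    IntermediateField.adjoin_simple_eq_bot_iff.mpr (IntermediateField.algebraMap_mem ⊥ d)] at hmem
  obtain ⟨e, he⟩ := IntermediateField.mem_bot.mp hmem
  exact hx.transcendental (he ▸ isAlgebraic_algebraMap e)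

theorem wgt_ne_zero (i : Option K) : wgt x i ≠ 0 := by
  cases i with
  | none => exact pow_ne_zero _ (inv_ne_zero (x_ne_zero hx))
  | some c => exact one_ne_zero

theorem wgt_mem (i : Option K) : wgt x i ∈ IntermediateField.adjoin K ({x} : Set F) := by
  cases i with
  | none => exact pow_mem (inv_mem (IntermediateField.mem_adjoin_simple_self K x)) _
  | some c => exact one_mem _

theorem ordDifferential_loc (i : Option K) (w : Place K F) :
    w.ordDifferential (KaehlerDifferential.D K F (loc x i)) =
      w.ordDifferential (KaehlerDifferential.D K F x) + w.ord (wgt x i) := by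
  cases i with
  | none =>
    simp only [loc, wgt]
    rw [ordDifferential_D_inv w (x_ne_zero hx) (D_ne_zero_of_isSep' hx), ord_pow, w.ord_inv]
    push_cast
    ring
  | some c =>
    simp only [loc, wgt]
    rw [D_sub_algebraMap, w.ord_one, add_zero]

theorem exists_index (w : Place K F) : ∃ i : Option K, 0 < w.ord (loc x i) := by
  rcases lt_or_ge (w.ord x) 0 with h | h
  · exact ⟨none, by simp only [loc, w.ord_inv]; omega⟩
  · obtain ⟨c, hc⟩ := exists_residue w (f := x) ((mem_iff w x).mpr (Or.inr h))
    rcases hc with hc | hc
    · exact absurd (hc ▸ isAlgebraic_algebraMap c) hx.transcendental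
    · exact ⟨some c, hc⟩

omit [IsAlgClosed K] [IsFF K F] in
theorem ord_x_nonneg_of_some {w : Place K F} {c : K} (h : 0 < w.ord (loc x (some c))) :
    0 ≤ w.ord x := by
  have hm : x - algebraMap K F c ∈ w.toValuationSubring :=
    (mem_iff w _).mpr (Or.inr h.le)
  exact ord_nonneg_of_mem_placeRing w (by simpa using add_mem hm (w.algebraMap_mem' c))

theorem index_unique {w : Place K F} {i j : Option K} (hi : 0 < w.ord (loc x i))
    (hj : 0 < w.ord (loc x j)) : i = j := by
  cases i with
  | none =>
    cases j with
    | none => rfl
    | some d =>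
      have := ord_x_nonneg_of_some hx hj
      simp only [loc, w.ord_inv] at hi
      omega
  | some c =>
    cases j with
    | none =>
      have := ord_x_nonneg_of_some hx hi
      simp only [loc, w.ord_inv] at hj
      omega
    | some d =>
      by_contra hne
      have hcd : c - d ≠ 0 := sub_ne_zero.mpr fun h => hne (h ▸ rfl)
      have hd0 : algebraMap K F (c - d) ≠ 0 := (map_ne_zero _).mpr hcd
      have h2 := ord_add_of_lt w (f := algebraMap K F (c - d)) (g := loc x (some c)) hd0
        (Or.inr (by rw [ord_algebraMap]; exact hi))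
      rw [show algebraMap K F (c - d) + loc x (some c) = loc x (some d) by
        simp only [loc, map_sub]; ring, ord_algebraMap] at h2
      omega

theorem finite_index (i : Option K) : {w : Place K F | 0 < w.ord (loc x i)}.Finite :=
  (finite_ord_ne_zero (loc x i)).subset fun _ h => ne_of_gt h

variable {L : IntermediateField K F} [FiniteDimensional L F] [Algebra.IsSeparable L F]
  (hL : L = IntermediateField.adjoin K ({x} : Set F))
include hL

theorem trace_wgt_le {i : Option K} {β : F}
    (hβ : ∀ w : Place K F, 0 < w.ord (loc x i) → w.adicValuation β ≤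
      exp (w.ordDifferential (KaehlerDifferential.D K F x)))
    {w : Place K F} (hw : 0 < w.ord (loc x i)) :
    w.adicValuation ((Algebra.trace L F β : L) : F) ≤ w.adicValuation (wgt x i) := by
  have huL : wgt x i ∈ L := hL ▸ wgt_mem hx i
  set u : L := ⟨wgt x i, huL⟩
  have hu0 : wgt x i ≠ 0 := wgt_ne_zero hx i
  have h := trace_zeros_le_one (L := L) (isSep_loc hx i) (hL.trans (adjoin_loc hx i).symm)
    (β := (wgt x i)⁻¹ * β) (fun w' hw' => by
      rw [map_mul, map_inv₀, val_eq_exp w' hu0, ← exp_neg, neg_neg, ordDifferential_loc hx,
        add_comm, exp_add]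
      exact mul_le_mul' le_rfl (hβ w' hw')) hw
  have e : Algebra.trace L F β = u * Algebra.trace L F ((wgt x i)⁻¹ * β) := by
    rw [← smul_eq_mul, ← map_smul]
    congr 1
    rw [Algebra.smul_def]
    show β = wgt x i * ((wgt x i)⁻¹ * β)
    field_simp
  rw [e, MulMemClass.coe_mul, map_mul]
  exact mul_le_of_le_one_right' h

/-- Functions `ℙ¹(K) → F` that are regular against `dx`, plus the principal ones. -/
def smallFamilies (x : F) : Submodule K (Option K → F) where
  carrier := {a | ∀ i, ∀ w : Place K F, 0 < w.ord (loc x i) →
    w.adicValuation (a i) ≤ w.adicValuation (wgt x i)}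
  zero_mem' i w _ := by simp
  add_mem' {a b} ha hb i w hw :=
    (Valuation.map_add _ _ _).trans (max_le (ha i w hw) (hb i w hw))
  smul_mem' k a ha i w hw := by
    show w.adicValuation (k • a i) ≤ _
    rw [Algebra.smul_def, map_mul]
    exact (mul_le_of_le_one_left' (w.adicValuation_algebraMap_le_one k)).trans (ha i w hw)

omit hx hL [FiniteDimensional L F] [Algebra.IsSeparable L F] [IsAlgClosed K] [IsFF K F] in
/-- Constant families from the subfield. -/
def constFamilies (L : IntermediateField K F) : L →ₗ[K] (Option K → F) where
  toFun f := fun _ => (f : F)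
  map_add' _ _ := rfl
  map_smul' _ _ := rfl

open scoped Classical in
theorem exists_residueFunctional : ∃ Λ : (Option K → F) →ₗ[K] K,
    (∀ a ∈ smallFamilies x, Λ a = 0) ∧ (∀ f : L, Λ (constFamilies L f) = 0) ∧
    ∀ i : Option K, Λ (Pi.single i (wgt x i * (loc x i)⁻¹)) ≠ 0 := by
  classical
  set B := smallFamilies x ⊔ LinearMap.range (constFamilies L)
  have hx0 := x_ne_zero hx
  have hxL : x ∈ L := hL ▸ IntermediateField.mem_adjoin_simple_self K x
  have hp : wgt x (none : Option K) * (loc x (none : Option K))⁻¹ = x⁻¹ := by
    simp only [loc, wgt]; field_simp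
  set p : Option K → F := Pi.single none (x⁻¹) with hpdef
  have hnot : p ∉ B := by
    intro hmem
    obtain ⟨b, hb, _, ⟨f, rfl⟩, hsum⟩ := Submodule.mem_sup.mp hmem
    have hval : ∀ i, b i = p i - (f : F) := fun i => eq_sub_of_add_eq (congrFun hsum i)
    have hpole : ∀ w : Place K F, w.ord x < 0 →
        w.adicValuation (f : F) = w.adicValuation x⁻¹ ∧ w.adicValuation x⁻¹ < 1 := by
      intro w hw
      have hi : 0 < w.ord (loc x (none : Option K)) := by simp only [loc, w.ord_inv]; omega
      have h := hb none w hi
      rw [hval, hpdef, Pi.single_eq_same] at h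
      simp only [wgt, map_pow] at h
      have h1 : w.adicValuation x⁻¹ < 1 := by
        rw [val_eq_exp w (inv_ne_zero hx0), ← exp_zero, exp_lt_exp, w.ord_inv]
        omega
      have h2 : w.adicValuation (x⁻¹ - (f : F)) < w.adicValuation x⁻¹ := by
        refine h.trans_lt ?_
        rw [sq]
        exact mul_lt_of_lt_one_right (zero_lt_iff.mpr (w.adicValuation_ne_zero (inv_ne_zero hx0))) h1
      refine ⟨?_, h1⟩
      have h3 := Valuation.map_sub_eq_of_lt_left w.adicValuation h2
      rwa [sub_sub_cancel] at h3
    have hreg : ∀ w : Place K F, 0 ≤ w.ord (f : F) := by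
      intro w
      refine ord_nonneg_of_mem_placeRing w ((mem_iff_val_le_one w _).mpr ?_)
      obtain ⟨i, hi⟩ := exists_index hx w
      cases i with
      | none =>
        obtain ⟨h1, h2⟩ := hpole w (by simp only [loc, w.ord_inv] at hi; omega)
        exact h1.le.trans h2.le
      | some c =>
        have h := hb (some c) w hi
        rw [hval, hpdef, Pi.single_eq_of_ne (by simp), zero_sub, Valuation.map_neg] at h
        simpa [wgt] using h
    obtain ⟨k, hk⟩ := mem_range_of_forall_ord_nonneg hreg
    obtain ⟨w, hw⟩ := exists_pole (K := K) hx.transcendental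
    obtain ⟨h1, h2⟩ := hpole w hw
    rw [← hk] at h1
    rcases eq_or_ne k 0 with rfl | hk0
    · rw [map_zero, map_zero] at h1
      exact w.adicValuation_ne_zero (inv_ne_zero hx0) h1.symm
    · have hk' : algebraMap K F k ≠ 0 := (map_ne_zero _).mpr hk0
      rw [val_eq_exp w hk', ord_algebraMap, neg_zero, exp_zero] at h1
      exact h2.ne h1.symm
  obtain ⟨Λ, hΛp, hΛ⟩ := Submodule.exists_dual_map_eq_bot_of_notMem hnot inferInstance
  have hB : ∀ a ∈ B, Λ a = 0 := fun a ha =>
    (Submodule.eq_bot_iff _).mp hΛ _ (Submodule.mem_map_of_mem ha)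
  refine ⟨Λ, fun a ha => hB a (Submodule.mem_sup_left ha),
    fun f => hB _ (Submodule.mem_sup_right ⟨f, rfl⟩), fun i => ?_⟩
  cases i with
  | none => rw [hp]; exact hΛp
  | some c =>
    have hc0 : x - algebraMap K F c ≠ 0 := fun h =>
      hx.transcendental (sub_eq_zero.mp h ▸ isAlgebraic_algebraMap c)
    have hfL : (x - algebraMap K F c)⁻¹ ∈ L :=
      inv_mem (sub_mem hxL (L.algebraMap_mem c))
    set f : L := ⟨_, hfL⟩
    have hmem : Pi.single (some c) (wgt x (some c) * (loc x (some c))⁻¹) + p - constFamilies L f ∈
        smallFamilies x := by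
      intro i w hw
      show w.adicValuation _ ≤ _
      simp only [Pi.sub_apply, Pi.add_apply, constFamilies, LinearMap.coe_mk, AddHom.coe_mk]
      cases i with
      | none =>
        rw [Pi.single_eq_of_ne (by simp), zero_add, hpdef, Pi.single_eq_same]
        show w.adicValuation (x⁻¹ - (x - algebraMap K F c)⁻¹) ≤ w.adicValuation (x⁻¹ ^ 2)
        have hxv : 1 < w.adicValuation x := by
          simp only [loc, w.ord_inv] at hw
          rw [val_eq_exp w hx0, ← exp_zero, exp_lt_exp]
          omega
        have hsub : w.adicValuation (x - algebraMap K F c) = w.adicValuation x :=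
          Valuation.map_sub_eq_of_lt_left _
            ((w.adicValuation_algebraMap_le_one c).trans_lt hxv)
        rw [show x⁻¹ - (x - algebraMap K F c)⁻¹ =
          -(algebraMap K F c) * (x⁻¹ * (x - algebraMap K F c)⁻¹) by field_simp; ring]
        rw [map_mul, Valuation.map_neg, map_mul, map_pow, map_inv₀, map_inv₀, hsub, sq]
        exact mul_le_of_le_one_left' (w.adicValuation_algebraMap_le_one c)
      | some d =>
        rw [hpdef, Pi.single_eq_of_ne (by simp : (some d : Option K) ≠ none), add_zero]
        by_cases hdc : d = c
        · subst hdc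
          rw [Pi.single_eq_same]
          simp [wgt, loc, f]
        · rw [Pi.single_eq_of_ne (by simpa using hdc), zero_sub, Valuation.map_neg]
          show w.adicValuation (x - algebraMap K F c)⁻¹ ≤ w.adicValuation (1 : F)
          have hcd : algebraMap K F (d - c) ≠ 0 := (map_ne_zero _).mpr (sub_ne_zero.mpr hdc)
          have h2 := (ord_add_of_lt w (f := algebraMap K F (d - c)) (g := loc x (some d)) hcd
            (Or.inr (by rw [ord_algebraMap]; exact hw))).2
          rw [show algebraMap K F (d - c) + loc x (some d) = x - algebraMap K F c by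
            simp only [loc, map_sub]; ring, ord_algebraMap] at h2
          rw [map_one, map_inv₀, val_eq_exp w hc0, h2]
          simp
    have h0 := hB _ (Submodule.mem_sup_left hmem)
    rw [map_sub, map_add, hB _ (Submodule.mem_sup_right ⟨f, rfl⟩), sub_zero,
      add_eq_zero_iff_eq_neg] at h0
    rw [h0]
    exact neg_ne_zero.mpr hΛp

open scoped Classical in
/-- The Weil differential of `dx`. -/
theorem exists_weil_of_isSep' :
    ∃ lam : ↥(repartitions K F) →ₗ[K] K, lam ≠ 0 ∧
      (∀ D : Divisor K F,
        (∀ w, D w ≤ w.ordDifferential (KaehlerDifferential.D K F x)) → lam ∈ weilSpace D) ∧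
      (∀ E : Divisor K F, lam ∈ weilSpace E →
        ∀ w, E w ≤ w.ordDifferential (KaehlerDifferential.D K F x)) := by
  obtain ⟨Λ, hΛ0, hΛc, hΛp⟩ := exists_residueFunctional hx hL
  set W : Place K F → ℤ := fun w => w.ordDifferential (KaehlerDifferential.D K F x) with hW
  let Cond : ↥(repartitions K F) → (Option K → F) → Prop := fun α β =>
    ∀ i, ∀ w : Place K F, 0 < w.ord (loc x i) →
      w.adicValuation (β i - (α : Place K F → F) w) ≤ exp (W w)
  let T : (Option K → F) → K := fun β => Λ fun i => ((Algebra.trace L F (β i) : L) : F)
  have hex : ∀ α, ∃ β, Cond α β := by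
    intro α
    choose β hβ using fun i : Option K =>
      exists_val_sub_le (finite_index hx i).toFinset (fun w => (α : Place K F → F) w) (fun w => -W w)
    refine ⟨β, fun i w hw => ?_⟩
    have := hβ i w ((finite_index hx i).mem_toFinset.mpr hw)
    rwa [neg_neg] at this
  have huniq : ∀ α β β', Cond α β → Cond α β' → T β = T β' := by
    intro α β β' hβ hβ'
    rw [← sub_eq_zero]
    show Λ _ - Λ _ = 0
    rw [← map_sub]
    refine hΛ0 _ fun i w hw => ?_
    show w.adicValuation (((Algebra.trace L F (β i) : L) : F) - ((Algebra.trace L F (β' i) : L) : F))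
      ≤ _
    rw [← AddSubgroupClass.coe_sub, ← map_sub]
    refine trace_wgt_le hx hL (fun w' hw' => ?_) hw
    rw [show β i - β' i = (β i - (α : Place K F → F) w') - (β' i - (α : Place K F → F) w') by ring]
    exact (Valuation.map_sub _ _ _).trans (max_le (hβ i w' hw') (hβ' i w' hw'))
  choose β hβ using hex
  let lam : ↥(repartitions K F) →ₗ[K] K :=
    { toFun := fun α => T (β α)
      map_add' := fun α α' => by
        rw [huniq (α + α') (β (α + α')) (β α + β α') (hβ _) fun i w hw => ?_]
        · show Λ _ = Λ _ + Λ _
          rw [← map_add]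
          congr 1
          funext i
          simp [map_add]
        · show w.adicValuation (β α i + β α' i -
            ((α : Place K F → F) w + (α' : Place K F → F) w)) ≤ _
          rw [show β α i + β α' i - ((α : Place K F → F) w + (α' : Place K F → F) w) =
            (β α i - (α : Place K F → F) w) + (β α' i - (α' : Place K F → F) w) by ring]
          exact (Valuation.map_add _ _ _).trans (max_le (hβ α i w hw) (hβ α' i w hw))
      map_smul' := fun k α => by
        rw [huniq (k • α) (β (k • α)) (k • β α) (hβ _) fun i w hw => ?_]
        · show Λ _ = k • Λ _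
          rw [← map_smul]
          congr 1
          funext i
          simp [LinearMap.map_smul_of_tower]
        · show w.adicValuation (k • β α i - k • (α : Place K F → F) w) ≤ _
          rw [← smul_sub, Algebra.smul_def, map_mul]
          exact (mul_le_of_le_one_left' (w.adicValuation_algebraMap_le_one k)).trans
            (hβ α i w hw) }
  have hlam : ∀ α β', Cond α β' → lam α = T β' := fun α β' h => huniq α _ β' (hβ α) h
  have hmem : ∀ D : Divisor K F, (∀ w, D w ≤ W w) → lam ∈ weilSpace D := by
    intro D hD
    rw [mem_weilSpace_iff]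
    refine ⟨fun α hα => ?_, fun f => ?_⟩
    · rw [hlam α 0 fun i w hw => ?_]
      · show Λ _ = 0
        simp only [Pi.zero_apply, map_zero, ZeroMemClass.coe_zero]
        exact map_zero Λ
      · rw [Pi.zero_apply, zero_sub, Valuation.map_neg]
        exact (hα w).trans (exp_le_exp.mpr (hD w))
    · rw [hlam (diagRep f) (fun _ => f) fun i w hw => by simp]
      exact hΛc (Algebra.trace L F f)
  have hsharp : ∀ w₀ : Place K F, ∃ b : F,
      w₀.adicValuation b ≤ exp (W w₀ + 1) ∧ lam (singleRep w₀ b) ≠ 0 := by
    intro w₀
    obtain ⟨i, hi⟩ := exists_index hx w₀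
    have huL : wgt x i ∈ L := hL ▸ wgt_mem hx i
    set u : L := ⟨wgt x i, huL⟩
    have hu0 : wgt x i ≠ 0 := wgt_ne_zero hx i
    obtain ⟨b', k, hk, hb1, hb2⟩ :=
      exists_trace_pole (L := L) (isSep_loc hx i) (hL.trans (adjoin_loc hx i).symm) hi
    set b := wgt x i * b'
    have hb : ∀ w : Place K F, 0 < w.ord (loc x i) →
        w.adicValuation b ≤ exp (W w + if w = w₀ then 1 else 0) := by
      intro w hw
      rw [map_mul, val_eq_exp w hu0]
      refine (mul_le_mul' le_rfl (hb1 w hw)).trans ?_
      rw [← exp_add, exp_le_exp, ordDifferential_loc hx]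
      have : W w = w.ordDifferential (KaehlerDifferential.D K F x) := rfl
      omega
    refine ⟨b, by simpa using hb w₀ hi, ?_⟩
    have hcond : Cond (singleRep w₀ b) (Pi.single i b) := by
      intro j w hw
      by_cases hww : w = w₀
      · subst hww
        obtain rfl := index_unique hx hw hi
        simp
      · rw [singleRep_of_ne hww, sub_zero]
        by_cases hji : j = i
        · subst hji
          rw [Pi.single_eq_same]
          have := hb w hw
          rwa [if_neg hww, add_zero] at this
        · rw [Pi.single_eq_of_ne hji, map_zero]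
          exact zero_le
    rw [hlam _ _ hcond]
    have e : (fun j => ((Algebra.trace L F ((Pi.single i b : Option K → F) j) : L) : F)) =
        Pi.single i ((Algebra.trace L F b : L) : F) := by
      funext j
      by_cases hji : j = i
      · subst hji; simp
      · simp [Pi.single_eq_of_ne hji]
    show Λ _ ≠ 0
    rw [e]
    have etr : ((Algebra.trace L F b : L) : F) = wgt x i * ((Algebra.trace L F b' : L) : F) := by
      have : b = u • b' := (Algebra.smul_def u b').symm
      rw [this, map_smul]
      rfl
    set q := wgt x i * (loc x i)⁻¹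
    set r := ((Algebra.trace L F b : L) : F) - k • q with hr
    have hsmall : Pi.single i r ∈ smallFamilies x := by
      intro j w hw
      by_cases hji : j = i
      · subst hji
        rw [Pi.single_eq_same, hr, etr, Algebra.smul_def,
          show wgt x j * ((Algebra.trace L F b' : L) : F) - algebraMap K F k * q =
            wgt x j * (((Algebra.trace L F b' : L) : F) - algebraMap K F k * (loc x j)⁻¹) by
            simp only [q]; ring, map_mul]
        exact mul_le_of_le_one_right' (hb2 w hw)
      · rw [Pi.single_eq_of_ne hji, map_zero]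
        exact zero_le
    rw [show (Algebra.trace L F b : F) = r + k • q by rw [hr]; ring, Pi.single_add,
      map_add, hΛ0 _ hsmall, zero_add, Pi.single_smul, map_smul]
    exact smul_ne_zero hk (hΛp i)
  refine ⟨lam, ?_, hmem, fun E hE w₀ => ?_⟩
  · obtain ⟨v, -⟩ := exists_pole (K := K) hx.transcendental
    obtain ⟨b, -, hb⟩ := hsharp v
    exact fun h => hb (by rw [h]; rfl)
  · by_contra hlt
    obtain ⟨b, hb, hne⟩ := hsharp w₀
    rw [mem_weilSpace_iff] at hE
    refine hne (hE.1 _ fun w => ?_)
    by_cases hww : w = w₀
    · subst hww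
      rw [singleRep_same]
      have : W w = w.ordDifferential (KaehlerDifferential.D K F x) := rfl
      exact hb.trans (exp_le_exp.mpr (by omega))
    · rw [singleRep_of_ne hww, map_zero]
      exact zero_le

end Chart

/-- The Weil differential of `dx`, for a separating element `x`. -/
theorem exists_weil_of_isSep {x : F} (hx : IsSep K x) :
    ∃ lam : ↥(repartitions K F) →ₗ[K] K, lam ≠ 0 ∧
      (∀ D : Divisor K F,
        (∀ w, D w ≤ w.ordDifferential (KaehlerDifferential.D K F x)) → lam ∈ weilSpace D) ∧
      (∀ E : Divisor K F, lam ∈ weilSpace E →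
        ∀ w, E w ≤ w.ordDifferential (KaehlerDifferential.D K F x)) := by
  have := hx.finite
  have := hx.separable
  exact exists_weil_of_isSep' hx rfl

end FLTAgent.FF
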