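import Mathlib

/-!
# The derivative of Laurent series

`laurentDeriv_mul` (Leibniz rule for `LaurentSeries.derivative`), compatibility with power series
(`laurentDeriv_ofPowerSeries`), and bounds on the order of the derivative, exact when the order is
nonzero in `K` (`laurentDeriv_order_of_cast_ne_zero`).
-/

set_option autoImplicit false

noncomputable section

open HahnSeries

namespace FLTAgent.FF

variable {K : Type*} [Field K]

theorem laurentDeriv_coeff (f : LaurentSeries K) (n : ℤ) :
    (LaurentSeries.derivative K f).coeff n = ((n + 1 : ℤ) : K) * f.coeff (n + 1) := by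
  rw [LaurentSeries.derivative_apply, LaurentSeries.hasseDeriv_coeff]
  simp [zsmul_eq_mul]

theorem laurentDeriv_single_mul (n : ℤ) (c : K) (g : LaurentSeries K) :
    LaurentSeries.derivative K (single n c * g) =
      single (n - 1) ((n : K) * c) * g + single n c * LaurentSeries.derivative K g := by
  ext a
  simp only [laurentDeriv_coeff, coeff_single_mul, coeff_add]
  rw [show a - (n - 1) = a - n + 1 by ring, show a + 1 - n = a - n + 1 by ring]
  push_cast
  ring

theorem laurentDeriv_ofPowerSeries (P : PowerSeries K) :
    LaurentSeries.derivative K (ofPowerSeries ℤ K P) =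
      ofPowerSeries ℤ K (PowerSeries.derivative K P) := by
  ext a
  rw [laurentDeriv_coeff]
  rcases lt_or_ge a 0 with ha | ha
  · have h2 : (ofPowerSeries ℤ K (PowerSeries.derivative K P)).coeff a = 0 := by
      rw [ofPowerSeries_apply]
      refine embDomain_of_notMem_range ?_
      rintro ⟨m, hm⟩
      simp [Nat.castOrderEmbedding] at hm
      omega
    rw [h2]
    rcases lt_or_ge (a + 1) 0 with ha1 | ha1
    · have h1 : (ofPowerSeries ℤ K P).coeff (a + 1) = 0 := by
        rw [ofPowerSeries_apply]
        refine embDomain_of_notMem_range ?_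
        rintro ⟨m, hm⟩
        simp [Nat.castOrderEmbedding] at hm
        omega
      rw [h1, mul_zero]
    · rw [show a + 1 = 0 by omega]
      simp
  · obtain ⟨m, rfl⟩ := Int.eq_ofNat_of_zero_le ha
    rw [show (m : ℤ) + 1 = ((m + 1 : ℕ) : ℤ) by push_cast; ring, ofPowerSeries_apply_coeff,
      ofPowerSeries_apply_coeff, PowerSeries.coeff_derivative]
    push_cast
    ring

theorem laurentDeriv_mul (f g : LaurentSeries K) :
    LaurentSeries.derivative K (f * g) =
      LaurentSeries.derivative K f * g + f * LaurentSeries.derivative K g := by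
  conv_lhs => rw [← f.single_order_mul_powerSeriesPart, ← g.single_order_mul_powerSeriesPart]
  conv_rhs => rw [← f.single_order_mul_powerSeriesPart, ← g.single_order_mul_powerSeriesPart]
  set m := f.order
  set n := g.order
  set P := f.powerSeriesPart
  set Q := g.powerSeriesPart
  have e1 : single m (1 : K) * ofPowerSeries ℤ K P * (single n 1 * ofPowerSeries ℤ K Q)
      = single (m + n) 1 * ofPowerSeries ℤ K (P * Q) := by
    rw [map_mul, show (single (m + n) (1 : K)) = single m 1 * single n 1 by simp]
    ring
  have e2 : single (m + n - 1) (((m + n : ℤ) : K) * 1) =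
      single (m - 1) ((m : K) * 1) * single n (1 : K) +
        single m (1 : K) * single (n - 1) ((n : K) * 1) := by
    rw [single_mul_single, single_mul_single, show m - 1 + n = m + n - 1 by ring,
      show m + (n - 1) = m + n - 1 by ring, ← HahnSeries.single_add]
    push_cast; ring_nf
  have e3 : single (m + n) (1 : K) = single m 1 * single n 1 := by simp
  rw [e1, laurentDeriv_single_mul, laurentDeriv_single_mul, laurentDeriv_single_mul, e2, e3,
    laurentDeriv_ofPowerSeries, laurentDeriv_ofPowerSeries, laurentDeriv_ofPowerSeries]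
  simp only [Derivation.leibniz, smul_eq_mul, map_add, map_mul]
  ring

theorem laurentDeriv_algebraMap (c : K) :
    LaurentSeries.derivative K (algebraMap K (LaurentSeries K) c) = 0 := by
  ext a
  rw [laurentDeriv_coeff]
  rcases eq_or_ne (a + 1) 0 with h | h
  · simp [h]
  · simp [HahnSeries.algebraMap_apply', h]

theorem coeffAtOrder_ne_zero {f : LaurentSeries K} (hf : f ≠ 0) : f.coeff f.order ≠ 0 :=
  mt coeff_order_eq_zero.mp hf

theorem le_order_of_coeff_eq_zero {f : LaurentSeries K} (hf : f ≠ 0) {m : ℤ}
    (h : ∀ i < m, f.coeff i = 0) : m ≤ f.order := by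
  by_contra hc
  exact coeffAtOrder_ne_zero hf (h _ (not_le.mp hc)) 

theorem order_ofPowerSeries_eq_zero {P : PowerSeries K}
    (h : PowerSeries.constantCoeff P ≠ 0) : (ofPowerSeries ℤ K P).order = 0 := by
  have h0 : (ofPowerSeries ℤ K P).coeff ((0 : ℕ) : ℤ) ≠ 0 := by
    rw [ofPowerSeries_apply_coeff, PowerSeries.coeff_zero_eq_constantCoeff]
    exact h
  refine le_antisymm (order_le_of_coeff_ne_zero h0)
    (le_order_of_coeff_eq_zero (fun e => h0 (by simp [e])) fun i hi => ?_)
  rw [ofPowerSeries_apply]
  refine embDomain_of_notMem_range ?_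
  rintro ⟨m, hm⟩
  simp [Nat.castOrderEmbedding] at hm
  omega

/-- Order bounds for the derivative. -/
theorem order_sub_one_le_order_laurentDeriv {f : LaurentSeries K}
    (hf : LaurentSeries.derivative K f ≠ 0) :
    f.order - 1 ≤ (LaurentSeries.derivative K f).order := by
  refine le_order_of_coeff_eq_zero hf fun i hi => ?_
  rw [laurentDeriv_coeff, coeff_eq_zero_of_lt_order (by omega), mul_zero]

theorem order_laurentDeriv_nonneg {f : LaurentSeries K} (h : ∀ i < 0, f.coeff i = 0)
    (hf : LaurentSeries.derivative K f ≠ 0) : 0 ≤ (LaurentSeries.derivative K f).order := by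
  refine le_order_of_coeff_eq_zero hf fun i hi => ?_
  rw [laurentDeriv_coeff]
  rcases eq_or_ne (i + 1) 0 with h0 | h0
  · simp [h0]
  · rw [h (i + 1) (by omega), mul_zero]

theorem laurentDeriv_order_of_cast_ne_zero {f : LaurentSeries K} (hn : ((f.order : ℤ) : K) ≠ 0) :
    LaurentSeries.derivative K f ≠ 0 ∧
      (LaurentSeries.derivative K f).order = f.order - 1 := by
  have hf : f ≠ 0 := fun h => hn (by simp [h])
  have hc : (LaurentSeries.derivative K f).coeff (f.order - 1) ≠ 0 := by
    rw [laurentDeriv_coeff, sub_add_cancel]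
    exact mul_ne_zero hn (coeffAtOrder_ne_zero hf)
  have hne : LaurentSeries.derivative K f ≠ 0 := fun h => hc (by simp [h])
  exact ⟨hne, le_antisymm (order_le_of_coeff_ne_zero hc)
    (order_sub_one_le_order_laurentDeriv hne)⟩

end FLTAgent.FF
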