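import Mathlib
import Fermat.Agent.FF.Defs

/-!
# Field theory of function fields of one variable

Finiteness of `F` over `K(t)` for any transcendental `t`
(`finiteDimensional_adjoin_of_transcendental'`), and constructions of `IsFF` in characteristic
zero for intermediate fields and finitely generated fields. The primed names are restated in
`PlacesMain`.
-/

set_option autoImplicit false

noncomputable section

open IntermediateField

namespace FLTAgent.FF

/-- Finiteness is inherited by a larger base inside the same ring. -/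
theorem finite_of_range_le {A B M : Type*} [Field A] [Field B] [Field M] [Algebra A M] [Algebra B M]
    (h : ∀ a : A, algebraMap A M a ∈ (algebraMap B M).range) [Module.Finite A M] :
    Module.Finite B M := by
  obtain ⟨s, hs⟩ := Module.Finite.fg_top (R := A) (M := M)
  refine ⟨⟨s, ?_⟩⟩
  rw [eq_top_iff]
  intro m _
  have hm : m ∈ Submodule.span A (s : Set M) := hs ▸ Submodule.mem_top
  induction hm using Submodule.span_induction with
  | mem x hx => exact Submodule.subset_span hx
  | zero => exact zero_mem _
  | add x y _ _ hx hy => exact add_mem (hx trivial) (hy trivial)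
  | smul a x _ hx =>
    obtain ⟨b, hb⟩ := h a
    rw [Algebra.smul_def, ← hb, ← Algebra.smul_def]
    exact Submodule.smul_mem _ b (hx trivial)

variable {K F : Type*} [Field K] [Field F] [Algebra K F]

theorem adjoin_simple_range_le {L : Type*} [Field L] [Algebra K L] (f : L →ₐ[K] F) {y : L}
    {t : F} (h : f y = t) : ∀ a : K⟮t⟯, (a : F) ∈ (f.comp (val K⟮y⟯)).toRingHom.range := by
  intro a
  have hle : K⟮t⟯ ≤ K⟮y⟯.map f := by
    rw [adjoin_simple_le_iff]
    exact ⟨y, mem_adjoin_simple_self K y, h⟩
  obtain ⟨z, hz, hza⟩ := hle a.2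
  exact ⟨⟨z, hz⟩, hza⟩

theorem isAlgebraic_adjoin_of_transcendental [IsFF K F] {t : F} (ht : Transcendental K t) :
    Algebra.IsAlgebraic K⟮t⟯ F := by
  obtain ⟨x, hx, hfin, -⟩ := IsFF.exists_sep (K := K) (F := F)
  have halg : Algebra.IsAlgebraic K⟮x⟯ F := Algebra.IsAlgebraic.of_finite _ _
  have hx1 : Algebra.IsAlgebraic (Algebra.adjoin K (Set.range ![x])) F := by
    rw [Matrix.range_cons, Matrix.range_empty, Set.union_empty]
    exact isAlgebraic_adjoin_iff_top.mp halg
  have hbasis : IsTranscendenceBasis K ![x] :=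
    (algebraicIndependent_iff_transcendental.mpr hx).isTranscendenceBasis_iff_isAlgebraic.mpr hx1
  have htr : Algebra.trdeg K F = 1 := by simpa using hbasis.lift_cardinalMk_eq_trdeg.symm
  have hbt : IsTranscendenceBasis K ![t] :=
    (algebraicIndependent_iff_transcendental.mpr ht).isTranscendenceBasis_of_lift_trdeg_le_of_finite
      (by simp [htr])
  have h1 := hbt.isAlgebraic
  rw [Matrix.range_cons, Matrix.range_empty, Set.union_empty] at h1
  exact isAlgebraic_adjoin_iff_top.mpr h1

theorem finiteDimensional_adjoin_of_transcendental' [IsFF K F] {t : F} (ht : Transcendental K t) :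
    FiniteDimensional K⟮t⟯ F := by
  have halg := isAlgebraic_adjoin_of_transcendental ht
  obtain ⟨x, hx, hfin, -⟩ := IsFF.exists_sep (K := K) (F := F)
  let E : IntermediateField K⟮t⟯ F := K⟮t⟯⟮x⟯
  have hE : FiniteDimensional K⟮t⟯ E :=
    adjoin.finiteDimensional (Algebra.IsIntegral.isIntegral (R := K⟮t⟯) x)
  have : FiniteDimensional E F := by
    refine finite_of_range_le (A := K⟮x⟯) fun a => ?_
    have hle : K⟮x⟯ ≤ E.restrictScalars K :=
      adjoin_simple_le_iff.mpr (mem_adjoin_simple_self K⟮t⟯ x)
    exact ⟨⟨(a : F), hle a.2⟩, rfl⟩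
  exact Module.Finite.trans E F

theorem IsFF.of_finiteDimensional' [CharZero K] (x : F) (hx : Transcendental K x)
    [FiniteDimensional K⟮x⟯ F] : IsFF K F :=
  ⟨x, hx, ‹_›, inferInstance⟩

theorem isSeparable_adjoin_of_charZero' [IsFF K F] [CharZero K] {t : F} (ht : Transcendental K t) :
    Algebra.IsSeparable K⟮t⟯ F := by
  have := finiteDimensional_adjoin_of_transcendental' ht
  infer_instance

/-- A subfield `E` of a field `L` is finite over `K(y)` when `L` is finite over a field whose
elements lie in the image of `K(y)`. -/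
theorem finiteDimensional_sub {L : Type*} [Field L] [Algebra K L] (E : IntermediateField K L)
    (B : IntermediateField K L) (hEB : E ≤ B) {y : E}
    (hB : ∀ a : K⟮(y : L)⟯, (a : L) ∈ B) 
    (hfin : letI : Algebra K⟮(y : L)⟯ B := (IntermediateField.inclusion (show K⟮(y : L)⟯ ≤ B from
        fun a ha => hB ⟨a, ha⟩)).toRingHom.toAlgebra
      FiniteDimensional K⟮(y : L)⟯ B) : FiniteDimensional K⟮y⟯ E := by
  let : Algebra K⟮(y : L)⟯ B := (IntermediateField.inclusion (show K⟮(y : L)⟯ ≤ B from
        fun a ha => hB ⟨a, ha⟩)).toRingHom.toAlgebra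
  let ι : E →ₐ[K] B := IntermediateField.inclusion hEB
  let : Algebra K⟮y⟯ B := ((ι.comp (val K⟮y⟯)).toRingHom).toAlgebra
  have : FiniteDimensional K⟮(y : L)⟯ B := hfin
  have : FiniteDimensional K⟮y⟯ B := by
    refine finite_of_range_le (A := K⟮(y : L)⟯) fun a => ?_
    obtain ⟨z, hz⟩ := adjoin_simple_range_le E.val (rfl : E.val y = (y : L)) a
    exact ⟨z, Subtype.ext hz⟩
  let f : E →ₗ[K⟮y⟯] B :=
    { toFun := ι
      map_add' := map_add ι
      map_smul' := fun c e => by
        simp only [Algebra.smul_def, map_mul, RingHom.id_apply]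
        rfl }
  exact FiniteDimensional.of_injective f ι.injective

theorem IsFF.intermediateField' [IsFF K F] [CharZero K] (E : IntermediateField K F) {x : F}
    (hxE : x ∈ E) (hx : Transcendental K x) : IsFF K E := by
  let y : E := ⟨x, hxE⟩
  have hy : Transcendental K y := fun h => hx (h.algHom E.val)
  have hB : ∀ a : K⟮(y : F)⟯, (a : F) ∈ (⊤ : IntermediateField K F) := fun _ => trivial
  have : FiniteDimensional K⟮(y : F)⟯ F := finiteDimensional_adjoin_of_transcendental' hx
  let : Algebra K⟮(y : F)⟯ (⊤ : IntermediateField K F) :=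
    (IntermediateField.inclusion (show K⟮(y : F)⟯ ≤ ⊤ from le_top)).toRingHom.toAlgebra
  have : FiniteDimensional K⟮(y : F)⟯ (⊤ : IntermediateField K F) := by
    let f : F →ₗ[K⟮(y : F)⟯] (⊤ : IntermediateField K F) :=
      { toFun := fun a => ⟨a, trivial⟩
        map_add' := fun _ _ => rfl
        map_smul' := fun c e => Subtype.ext rfl }
    exact Module.Finite.of_surjective f fun a => ⟨a.1, rfl⟩
  have := finiteDimensional_sub E ⊤ le_top (y := y) hB this
  exact IsFF.of_finiteDimensional' y hy

theorem IsFF.adjoin_of_isAlgebraic' [CharZero K] {L : Type*} [Field L] [Algebra K L] {x : L}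
    (hx : Transcendental K x) {s : Set L} (hs : s.Finite) (hxs : x ∈ adjoin K s)
    (halg : ∀ y ∈ s, IsAlgebraic K⟮x⟯ y) : IsFF K (adjoin K s) := by
  have : Finite s := hs.to_subtype
  let y : adjoin K s := ⟨x, hxs⟩
  have hy : Transcendental K y := fun h => hx (h.algHom (adjoin K s).val)
  let B₀ : IntermediateField K⟮(y : L)⟯ L := adjoin K⟮(y : L)⟯ s
  have : FiniteDimensional K⟮(y : L)⟯ B₀ :=
    IntermediateField.finiteDimensional_adjoin fun z hz => (halg z hz).isIntegral
  have hle : adjoin K s ≤ B₀.restrictScalars K :=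
    adjoin_le_iff.mpr fun z hz => subset_adjoin K⟮(y : L)⟯ s hz
  have hB : ∀ a : K⟮(y : L)⟯, (a : L) ∈ B₀.restrictScalars K := fun a => B₀.algebraMap_mem a
  have := finiteDimensional_sub (adjoin K s) (B₀.restrictScalars K) hle (y := y) hB this
  exact IsFF.of_finiteDimensional' y hy

theorem mem_range_of_not_transcendental' [IsAlgClosed K] {t : F} (ht : ¬ Transcendental K t) :
    t ∈ (algebraMap K F).range := by
  have hint : IsIntegral K t := (not_not.mp ht : IsAlgebraic K t).isIntegral
  exact minpoly.mem_range_of_degree_eq_one K t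
    (IsAlgClosed.degree_eq_one_of_irreducible K (minpoly.irreducible hint))

section Extension

theorem module_finite_extension' (K : Type*) {F F' : Type*} [Field K] [Field F] [Field F']
    [Algebra K F] [Algebra K F'] [IsFF K F] [IsFF K F'] [Algebra F F'] [IsScalarTower K F F'] :
    Module.Finite F F' := by
  obtain ⟨x, hx, -, -⟩ := IsFF.exists_sep (K := K) (F := F)
  have ht : Transcendental K (algebraMap F F' x) :=
    fun h => hx ((isAlgebraic_algebraMap_iff (algebraMap F F').injective).mp h)
  have := finiteDimensional_adjoin_of_transcendental' ht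
  refine finite_of_range_le (A := K⟮algebraMap F F' x⟯) fun a => ?_
  obtain ⟨z, hz⟩ := adjoin_simple_range_le (IsScalarTower.toAlgHom K F F')
    (rfl : IsScalarTower.toAlgHom K F F' x = algebraMap F F' x) a
  exact ⟨z.1, hz⟩

theorem isSeparable_extension' (K : Type*) {F F' : Type*} [Field K] [Field F] [Field F']
    [Algebra K F] [Algebra K F'] [IsFF K F] [IsFF K F'] [Algebra F F'] [IsScalarTower K F F']
    [CharZero K] : Algebra.IsSeparable F F' := by
  have := module_finite_extension' K (F := F) (F' := F')
  have : CharZero F := charZero_of_injective_algebraMap (algebraMap K F).injective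
  infer_instance

end Extension

end FLTAgent.FF
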