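import Fermat.Agent.FF.PlacesRat
import Fermat.Agent.FF.PlacesField

/-!
# Function fields as extensions of the rational function field

For `x` with `F` finite separable over `K(x)` (`ratData`), the results on `RatFunc K` and on
finite extensions give: constant residues at every place, finiteness of zeros and poles, degree
zero of principal divisors (`exists_divisor_of_rat`, by the norm formula), integrality over
`K[x]` of functions regular away from infinity, constancy of functions regular everywhere, and
`exists_place_eq_of_rat` (nontrivial valuation rings containing `K` are places).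
-/

set_option autoImplicit false

noncomputable section

open WithZero IsDedekindDomain AlgebraicCurve
open scoped RatFunc Classical

namespace FLTAgent.FF

section General

variable {K F F' : Type*} [Field K] [Field F] [Field F'] [Algebra K F] [Algebra K F']
  [Algebra F F'] [IsScalarTower K F F'] [Module.Finite F F']

theorem inertiaDeg_eq_one_of_constResidue (w : Place K F') (h : ConstResidue w) :
    w.inertiaDeg F = 1 := by
  have h1 := w.deg_restrict_mul_inertiaDeg (F := F)
  rw [h.deg_eq_one] at h1
  exact Nat.eq_one_of_mul_eq_one_left h1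

/-- The pushforward of a divisor, at a place with constant residues above it. -/
theorem pushforward_apply_eq_sum {v : Place K F} (hv : ConstResidue v)
    (hres : ∀ w : Place K F', w.restrict F = v → ConstResidue w) (D : Divisor K F') :
    Divisor.pushforward F D v = ∑ w ∈ placesAbove hv F', D w := by
  rw [Divisor.pushforward_apply, ← Finset.sum_filter]
  have h1 : ∀ w ∈ D.support.filter (fun w => w.restrict F = v),
      D w * (w.inertiaDeg F : ℤ) = D w := by
    intro w hw
    rw [inertiaDeg_eq_one_of_constResidue w (hres w (Finset.mem_filter.mp hw).2), Nat.cast_one,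
      mul_one]
  rw [Finset.sum_congr rfl h1]
  refine Finset.sum_subset (fun w hw => (mem_placesAbove hv).mpr (Finset.mem_filter.mp hw).2)
    fun w hw hnw => ?_
  by_contra h0
  exact hnw (Finset.mem_filter.mpr ⟨Finsupp.mem_support_iff.mpr h0, (mem_placesAbove hv).mp hw⟩)

theorem pushforward_eq_finrank_mul [IsAlgClosed K] [Algebra.IsSeparable F F']
    (D : Divisor K F') (c : Place K F → ℤ)
    (hD : ∀ w : Place K F', D w = w.ramificationIndex F * c (w.restrict F)) (v : Place K F)
    (hv : ConstResidue v) :
    Divisor.pushforward F D v = (Module.finrank F F' : ℤ) * c v := by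
  have hres : ∀ w : Place K F', w.restrict F = v → ConstResidue w := fun w hw =>
    constResidue_of_restrict w (hw ▸ hv)
  rw [pushforward_apply_eq_sum hv hres, ← sum_ramificationIndex_placesAbove hv hres,
    Finset.sum_mul]
  exact Finset.sum_congr rfl fun w hw => by rw [hD, (mem_placesAbove hv).mp hw]

/-- A function integral at the restriction data is integral. -/
theorem mem_of_coeff_mem (w : Place K F') (g : F')
    (h : ∀ i, (minpoly F g).coeff i ∈ (w.restrict F).toValuationSubring) :
    g ∈ w.toValuationSubring := by
  rw [mem_iff_val_le_one]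
  by_contra hgt
  push Not at hgt
  set P := minpoly F g with hP
  have hint : IsIntegral F g := IsIntegral.of_finite F g
  have hmon : P.Monic := minpoly.monic hint
  have h0 := minpoly.aeval F g
  rw [← hP, Polynomial.aeval_eq_sum_range, Finset.sum_range_succ, hmon.coeff_natDegree,
    one_smul] at h0
  set n := P.natDegree with hn
  have hlt : w.adicValuation (∑ i ∈ Finset.range n, P.coeff i • g ^ i) < w.adicValuation g ^ n := by
    refine Valuation.map_sum_lt _ (pow_ne_zero _ (ne_of_gt (lt_trans zero_lt_one hgt))) fun i hi => ?_
    rw [Algebra.smul_def, map_mul, map_pow]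
    calc w.adicValuation (algebraMap F F' (P.coeff i)) * w.adicValuation g ^ i
        ≤ 1 * w.adicValuation g ^ i :=
          mul_le_mul_of_nonneg_right ((mem_iff_val_le_one _ _).mp (h i)) zero_le
      _ < w.adicValuation g ^ n := by
          rw [one_mul]
          exact pow_lt_pow_right₀ hgt (Finset.mem_range.mp hi)
  rw [← map_pow] at hlt
  have h1 := Valuation.map_add_eq_of_lt_left w.adicValuation hlt
  rw [add_comm] at h0
  rw [h0, map_zero] at h1
  rw [← h1] at hlt
  exact not_lt_zero hlt

/-- A proper valuation subring containing a Dedekind domain with fraction field `F` comes from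
one of its primes. -/
theorem exists_ofHeightOneSpectrum_eq {R : Type*} [CommRing R] [IsDedekindDomain R] [Algebra R F]
    [IsFractionRing R F] [Algebra K R] [IsScalarTower K R F] (A : ValuationSubring F) (hA : A ≠ ⊤)
    (h : ∀ r : R, algebraMap R F r ∈ A) :
    ∃ P : HeightOneSpectrum R,
      (Place.ofHeightOneSpectrum (K := K) (F := F) P).toValuationSubring = A := by
  let φ : R →+* A := (algebraMap R F).codRestrict A.toSubring h
  let I : Ideal R := (IsLocalRing.maximalIdeal A).comap φ
  have hI : I.IsPrime := Ideal.IsPrime.comap φ
  have hinv : ∀ r : R, r ∉ I → (algebraMap R F r)⁻¹ ∈ A := by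
    intro r hr
    have hu : IsUnit (φ r) := by
      by_contra hu
      exact hr ((IsLocalRing.mem_maximalIdeal _).mpr hu)
    obtain ⟨y, hy⟩ := isUnit_iff_exists_inv.mp hu
    have hy' : algebraMap R F r * (y : F) = 1 := congrArg Subtype.val hy
    rw [inv_eq_of_mul_eq_one_right hy']
    exact y.2
  have hne : I ≠ ⊥ := by
    intro hbot
    apply hA
    refine SetLike.ext fun f => ⟨fun _ => ValuationSubring.mem_top f, fun _ => ?_⟩
    obtain ⟨a, b, hb, rfl⟩ := IsFractionRing.div_surjective (A := R) f
    rw [div_eq_mul_inv]
    refine mul_mem (h a) (hinv b ?_)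
    rw [hbot, Ideal.mem_bot]
    exact nonZeroDivisors.ne_zero hb
  refine ⟨⟨I, hI, hne⟩, valuationSubring_eq_of_le _ hA fun f hf => ?_⟩
  rw [Place.ofHeightOneSpectrum_toValuationSubring,
    ← HeightOneSpectrum.valuationSubringAtPrime_eq_valuationSubring] at hf
  obtain ⟨a, b, hb, rfl⟩ := hf
  exact mul_mem (h a) (hinv b hb)

end General

section Rat

variable {K F : Type*} [Field K] [IsAlgClosed K] [Field F] [Algebra K F]

/-- The embedding `X ↦ x` of the rational function field. -/
def ratHom (x : F) (hx : Transcendental K x) : RatFunc K →ₐ[K] F :=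
  (IntermediateField.val _).comp (RatFunc.algEquivOfTranscendental x hx).toAlgHom

omit [IsAlgClosed K] in
theorem ratHom_X (x : F) (hx : Transcendental K x) : ratHom x hx RatFunc.X = x :=
  RatFunc.algEquivOfTranscendental_X x hx

omit [IsAlgClosed K] in
theorem ratHom_range (x : F) (hx : Transcendental K x) (a : IntermediateField.adjoin K ({x} : Set F)) :
    ∃ r : RatFunc K, ratHom x hx r = a :=
  ⟨(RatFunc.algEquivOfTranscendental x hx).symm a, by
    show (((RatFunc.algEquivOfTranscendental x hx)
      ((RatFunc.algEquivOfTranscendental x hx).symm a)) : F) = a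
    rw [AlgEquiv.apply_symm_apply]⟩

/-- An element with separable finite extension gives the structure over `RatFunc K`. -/
structure RatData (K : Type*) (F : Type*) [Field K] [Field F] [Algebra K F]
    [Algebra (RatFunc K) F] (x : F) : Prop where
  tower : IsScalarTower K (RatFunc K) F
  fin : Module.Finite (RatFunc K) F
  sep : Algebra.IsSeparable (RatFunc K) F
  map_X : algebraMap (RatFunc K) F RatFunc.X = x
  rank : Module.finrank (RatFunc K) F = Module.finrank (IntermediateField.adjoin K ({x} : Set F)) F

omit [IsAlgClosed K] in
theorem ratData (x : F) (hx : Transcendental K x)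
    [FiniteDimensional (IntermediateField.adjoin K ({x} : Set F)) F]
    [Algebra.IsSeparable (IntermediateField.adjoin K ({x} : Set F)) F] :
    letI := (ratHom x hx).toRingHom.toAlgebra
    RatData K F x := by
  let := (ratHom x hx).toRingHom.toAlgebra
  let e : RatFunc K ≃+* IntermediateField.adjoin K ({x} : Set F) :=
    (RatFunc.algEquivOfTranscendental x hx).toRingEquiv
  have he : ((algebraMap (RatFunc K) F).comp (e.symm : _ →+* RatFunc K))
      = (RingEquiv.refl F : F →+* F).comp
        (algebraMap (IntermediateField.adjoin K ({x} : Set F)) F) := by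
    refine RingHom.ext fun a => ?_
    show (((RatFunc.algEquivOfTranscendental x hx)
      ((RatFunc.algEquivOfTranscendental x hx).symm a)) : F) = (a : F)
    rw [AlgEquiv.apply_symm_apply]
  refine ⟨IsScalarTower.of_algebraMap_eq fun c => ((ratHom x hx).commutes c).symm, ?_,
    Algebra.IsSeparable.of_equiv_equiv e.symm (RingEquiv.refl F) he, ratHom_X x hx,
    (Algebra.finrank_eq_of_equiv_equiv e.symm (RingEquiv.refl F) he).symm⟩
  exact finite_of_range_le (A := IntermediateField.adjoin K ({x} : Set F)) fun a =>
    ratHom_range x hx a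

variable [Algebra (RatFunc K) F] [IsScalarTower K (RatFunc K) F] [Module.Finite (RatFunc K) F]

theorem constResidue_of_rat (w : Place K F) : ConstResidue w :=
  constResidue_of_restrict (F := RatFunc K) w (constResidue_rat _)

theorem finite_ord_ne_zero_of_rat (f : F) : {w : Place K F | w.ord f ≠ 0}.Finite := by
  have key : ∀ g : F, {w : Place K F | w.ord g < 0}.Finite := by
    intro g
    set P := minpoly (RatFunc K) g
    have hfib : ∀ i, {w : Place K F | (w.restrict (RatFunc K)).ord (P.coeff i) < 0}.Finite := by
      intro i
      rcases eq_or_ne (P.coeff i) 0 with h | h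
      · simp [h]
      obtain ⟨D, hD, -⟩ := rat_exists_divisor (P.coeff i) h
      refine Set.Finite.subset
        (Set.Finite.biUnion D.support.finite_toSet fun v _ =>
          fiber_finite (F' := F) (constResidue_rat v)) fun w hw => ?_
      rw [Set.mem_iUnion₂]
      refine ⟨w.restrict (RatFunc K), ?_, rfl⟩
      rw [Finset.mem_coe, Finsupp.mem_support_iff, hD]
      exact ne_of_lt hw
    refine Set.Finite.subset
      ((Finset.range (P.natDegree + 1)).finite_toSet.biUnion fun i _ => hfib i) fun w hw => ?_
    by_contra hc
    rw [Set.mem_iUnion₂] at hc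
    push Not at hc
    have hmem := mem_of_coeff_mem (F := RatFunc K) w g fun i => by
      rw [mem_iff]
      rcases le_or_gt i P.natDegree with hi | hi
      · exact Or.inr (not_lt.mp (hc i (Finset.mem_coe.mpr (Finset.mem_range.mpr (by omega)))))
      · exact Or.inl (Polynomial.coeff_eq_zero_of_natDegree_lt hi)
    exact absurd (ord_nonneg_of_mem_placeRing w hmem) (not_le.mpr hw)
  refine ((key f).union (key f⁻¹)).subset fun w hw => ?_
  rcases lt_or_gt_of_ne (show w.ord f ≠ 0 from hw) with h | h
  · exact Or.inl h
  · exact Or.inr (by show w.ord f⁻¹ < 0; rw [w.ord_inv]; omega)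

variable [Algebra.IsSeparable (RatFunc K) F]

theorem exists_place_over_rat (v : Place K (RatFunc K)) :
    ∃ w : Place K F, w.restrict (RatFunc K) = v := by
  obtain ⟨w, hw⟩ :=
    placesAbove_nonempty (F' := F) (constResidue_rat v) fun w _ => constResidue_of_rat w
  exact ⟨w, (mem_placesAbove _).mp hw⟩

theorem exists_divisor_of_rat (f : F) (hf : f ≠ 0) : ∃ D : Divisor K F,
    (∀ w : Place K F, D w = w.ord f) ∧ Divisor.degree D = 0 := by
  refine ⟨Finsupp.ofSupportFinite (fun w => w.ord f) (finite_ord_ne_zero_of_rat f),
    fun w => rfl, ?_⟩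
  obtain ⟨E, hE, hE0⟩ :=
    rat_exists_divisor (Algebra.norm (RatFunc K) f) (Algebra.norm_ne_zero_iff.mpr hf)
  rw [← Divisor.degree_pushforward (F := RatFunc K), ← hE0]
  congr 1
  refine Finsupp.ext fun v => ?_
  rw [hE, pushforward_apply_eq_sum (constResidue_rat v) (fun w _ => constResidue_of_rat w),
    ord_norm_eq_sum (constResidue_rat v) (fun w _ => constResidue_of_rat w) hf]
  rfl

/-- Integral functions over `K[x]`. -/
theorem isIntegral_of_forall_mem {x : F} (hX : algebraMap (RatFunc K) F RatFunc.X = x) (f : F)
    (h : ∀ w : Place K F, 0 ≤ w.ord x → f ∈ w.toValuationSubring) :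
    IsIntegral (Algebra.adjoin K ({x} : Set F)) f := by
  have hcoeff : ∀ i, ∃ p : Polynomial K,
      algebraMap (Polynomial K) (RatFunc K) p = (minpoly (RatFunc K) f).coeff i := by
    intro i
    refine rat_exists_polynomial fun a => ?_
    have hf : f ∈ overRing (finPlace a) F := by
      rw [mem_overRing_iff]
      intro w hw
      refine h w ?_
      rw [← hX, w.ord_restrict, hw]
      refine mul_nonneg (Int.natCast_nonneg _) ?_
      have := ord_finPlace a (0 : K)
      simp only [linFun, map_zero, sub_zero, RatFunc.algebraMap_X] at this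
      rw [this]
      split_ifs <;> omega
    have hmap := minpoly.isIntegrallyClosed_eq_field_fractions' (RatFunc K)
      (show IsIntegral (finPlace a).toValuationSubring f from hf)
    rw [hmap, Polynomial.coeff_map]
    exact ord_nonneg_of_mem_placeRing _ (((minpoly (finPlace a).toValuationSubring f).coeff i).2)
  have hlift : minpoly (RatFunc K) f
      ∈ Polynomial.lifts (algebraMap (Polynomial K) (RatFunc K)) := by
    rw [Polynomial.lifts_iff_coeff_lifts]
    exact hcoeff
  obtain ⟨Q, hQ, -, hQm⟩ := Polynomial.lifts_and_natDegree_eq_and_monic hlift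
    (minpoly.monic (IsIntegral.of_finite (RatFunc K) f))
  let ψ : Polynomial K →ₐ[K] Algebra.adjoin K ({x} : Set F) :=
    Polynomial.aeval (⟨x, Algebra.self_mem_adjoin_singleton K x⟩ : Algebra.adjoin K ({x} : Set F))
  refine ⟨Q.map (ψ : Polynomial K →+* Algebra.adjoin K ({x} : Set F)), hQm.map _, ?_⟩
  have hcomp : (algebraMap (Algebra.adjoin K ({x} : Set F)) F).comp
      (ψ : Polynomial K →+* Algebra.adjoin K ({x} : Set F))
      = (algebraMap (RatFunc K) F).comp (algebraMap (Polynomial K) (RatFunc K)) := by
    refine Polynomial.ringHom_ext (fun c => ?_) ?_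
    · simp [ψ, RatFunc.algebraMap_C, ← IsScalarTower.algebraMap_apply K (RatFunc K) F,
        ← RatFunc.algebraMap_eq_C]
    · simp [ψ, hX]
  rw [Polynomial.eval₂_map, hcomp, ← Polynomial.eval₂_map, hQ]
  exact minpoly.aeval (RatFunc K) f

theorem mem_range_of_forall_ord_nonneg_of_rat (f : F) (h : ∀ w : Place K F, 0 ≤ w.ord f) :
    f ∈ (algebraMap K F).range := by
  have hmem : ∀ w : Place K F, f ∈ w.toValuationSubring := fun w =>
    (mem_iff w f).mpr (Or.inr (h w))
  have hcoeff : ∀ i, (minpoly (RatFunc K) f).coeff i ∈ (algebraMap K (RatFunc K)).range := by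
    intro i
    obtain ⟨c, hc⟩ := rat_exists_const (f := (minpoly (RatFunc K) f).coeff i) fun v => by
      have hf : f ∈ overRing v F := (mem_overRing_iff v f).mpr fun w _ => hmem w
      have hmap := minpoly.isIntegrallyClosed_eq_field_fractions' (RatFunc K)
        (show IsIntegral v.toValuationSubring f from hf)
      rw [hmap, Polynomial.coeff_map]
      exact ord_nonneg_of_mem_placeRing _ (((minpoly v.toValuationSubring f).coeff i).2)
    exact ⟨c, hc⟩
  have hlift : minpoly (RatFunc K) f ∈ Polynomial.lifts (algebraMap K (RatFunc K)) := by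
    rw [Polynomial.lifts_iff_coeff_lifts]
    exact hcoeff
  obtain ⟨Q, hQ, -, hQm⟩ := Polynomial.lifts_and_natDegree_eq_and_monic hlift
    (minpoly.monic (IsIntegral.of_finite (RatFunc K) f))
  refine mem_range_of_not_transcendental' fun ht => ht ⟨Q, hQm.ne_zero, ?_⟩
  rw [← Polynomial.aeval_map_algebraMap (RatFunc K) f Q, hQ]
  exact minpoly.aeval _ f

theorem exists_place_eq_of_rat (A : ValuationSubring F) (hK : ∀ a : K, algebraMap K F a ∈ A)
    (hA : A ≠ ⊤) : ∃ w : Place K F, w.toValuationSubring = A := by
  set B := A.comap (algebraMap (RatFunc K) F) with hBdef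
  have hBK : ∀ c : K, algebraMap K (RatFunc K) c ∈ B := fun c => by
    rw [hBdef, ValuationSubring.mem_comap, ← IsScalarTower.algebraMap_apply]
    exact hK c
  have hB : B ≠ ⊤ := by
    intro htop
    apply hA
    refine SetLike.ext fun y => ⟨fun _ => ValuationSubring.mem_top y, fun _ => ?_⟩
    have hall : ∀ r : RatFunc K, algebraMap (RatFunc K) F r ∈ A := fun r =>
      ValuationSubring.mem_comap.mp (by rw [← hBdef, htop]; exact ValuationSubring.mem_top r)
    let : Algebra (RatFunc K) A :=
      ((algebraMap (RatFunc K) F).codRestrict A.toSubring hall).toAlgebra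
    have : IsScalarTower (RatFunc K) A F := IsScalarTower.of_algebraMap_eq fun _ => rfl
    obtain ⟨z, hz⟩ := IsIntegrallyClosed.isIntegral_iff.mp
      (IsIntegral.tower_top (A := A) (IsIntegral.of_finite (RatFunc K) y))
    exact hz ▸ z.2
  obtain ⟨v, hv⟩ : ∃ v : Place K (RatFunc K), v.toValuationSubring = B := by
    have key : ∀ C : ValuationSubring (RatFunc K), (∀ c : K, algebraMap K (RatFunc K) c ∈ C) →
        C ≠ ⊤ → RatFunc.X ∈ C → ∃ v : Place K (RatFunc K), v.toValuationSubring = C := by
      intro C hCK hC hX
      obtain ⟨P, hP⟩ := exists_ofHeightOneSpectrum_eq (K := K) (R := Polynomial K) C hC fun p => by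
        induction p using Polynomial.induction_on' with
        | add p q hp hq => rw [map_add]; exact add_mem hp hq
        | monomial n c =>
          rw [← Polynomial.C_mul_X_pow_eq_monomial, map_mul, map_pow, RatFunc.algebraMap_X,
            ← Polynomial.algebraMap_eq, ← IsScalarTower.algebraMap_apply]
          exact mul_mem (hCK c) (pow_mem hX n)
      exact ⟨_, hP⟩
    rcases B.mem_or_inv_mem RatFunc.X with hX | hX
    · exact key B hBK hB hX
    · obtain ⟨v, hv⟩ := key (B.comap (invX (K := K)).toAlgHom.toRingHom)
        (fun c => by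
          rw [ValuationSubring.mem_comap]
          show invX (algebraMap K (RatFunc K) c) ∈ B
          rw [AlgEquiv.commutes]; exact hBK c)
        (fun htop => hB (SetLike.ext fun y => ⟨fun _ => ValuationSubring.mem_top y, fun _ => by
          have h1 : invX y ∈ B.comap (invX (K := K)).toAlgHom.toRingHom := by
            rw [htop]; exact ValuationSubring.mem_top _
          rw [ValuationSubring.mem_comap] at h1
          show y ∈ B
          have h2 : invX (invX (K := K) y) = y := invXHom_invXHom y
          rw [← h2]
          exact h1⟩))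
        (by
          rw [ValuationSubring.mem_comap]
          show invXHom RatFunc.X ∈ B
          rw [invXHom_X]; exact hX)
      refine ⟨(invX (K := K)) • v, SetLike.ext fun y => ?_⟩
      rw [Place.smul_toValuationSubring, ValuationSubring.mem_pointwise_smul_iff_inv_smul_mem, hv,
        ValuationSubring.mem_comap]
      show invXHom ((invX (K := K)).symm y) ∈ B ↔ y ∈ B
      rw [show invXHom ((invX (K := K)).symm y) = y from invXHom_invXHom y]
  have hsub : ∀ r : overRing v F, (r : F) ∈ A := by
    intro r
    have hall : ∀ b : v.toValuationSubring, algebraMap (RatFunc K) F b ∈ A := fun b => by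
      have hb : (b : RatFunc K) ∈ B := (SetLike.ext_iff.mp hv (b : RatFunc K)).mp b.2
      exact ValuationSubring.mem_comap.mp hb
    let : Algebra v.toValuationSubring A :=
      (((algebraMap (RatFunc K) F).comp v.toValuationSubring.subtype).codRestrict
        A.toSubring hall).toAlgebra
    have : IsScalarTower v.toValuationSubring A F := IsScalarTower.of_algebraMap_eq fun _ => rfl
    obtain ⟨z, hz⟩ := IsIntegrallyClosed.isIntegral_iff.mp
      (IsIntegral.tower_top (A := A) (show IsIntegral v.toValuationSubring (r : F) from r.2))
    exact hz ▸ z.2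
  obtain ⟨P, hP⟩ := exists_ofHeightOneSpectrum_eq (K := K) (R := overRing v F) A hA hsub
  exact ⟨_, hP⟩

end Rat

end FLTAgent.FF
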