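import Fermat.Agent.FF.PlacesExtension

/-!
# Places of the rational function field

Over an algebraically closed `K` every place of `RatFunc K` is `finPlace a` or `inftyPlace`
(`place_rat_cases`), all have constant residues (`constResidue_rat`), principal divisors have
degree zero (`rat_exists_divisor`), and functions regular at the finite places are polynomials
(`rat_exists_polynomial`). A place is determined by the orders of the linear functions `X - a`.
-/

set_option autoImplicit false

noncomputable section

open WithZero IsDedekindDomain AlgebraicCurve Polynomial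
open scoped RatFunc Classical

namespace FLTAgent.FF

variable {K : Type*} [Field K]

/-- The linear function `X - a`. -/
def linFun (a : K) : RatFunc K := algebraMap K[X] (RatFunc K) (X - C a)

theorem linFun_ne_zero (a : K) : linFun a ≠ 0 :=
  (map_ne_zero_iff _ (RatFunc.algebraMap_injective K)).mpr (X_sub_C_ne_zero a)

theorem linFun_add (a b : K) : linFun a + algebraMap K (RatFunc K) (a - b) = linFun b := by
  simp only [linFun, IsScalarTower.algebraMap_apply K K[X] (RatFunc K), ← map_add,
    Polynomial.algebraMap_eq]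
  congr 1
  simp only [map_sub]
  ring

variable (v : Place K (RatFunc K))

theorem ord_poly_eq [IsAlgClosed K] {p : K[X]} (hp : p ≠ 0) :
    v.ord (algebraMap K[X] (RatFunc K) p) = (p.roots.map fun r => v.ord (linFun r)).sum := by
  have key : ∀ s : Multiset K,
      algebraMap K[X] (RatFunc K) (s.map fun r => X - C r).prod ≠ 0 ∧
      v.ord (algebraMap K[X] (RatFunc K) (s.map fun r => X - C r).prod)
        = (s.map fun r => v.ord (linFun r)).sum := by
    intro s
    induction s using Multiset.induction with
    | empty => simp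
    | cons r s ih =>
      obtain ⟨h0, h⟩ := ih
      simp only [Multiset.map_cons, Multiset.prod_cons, map_mul, Multiset.sum_cons]
      refine ⟨mul_ne_zero (linFun_ne_zero r) h0, ?_⟩
      show v.ord (linFun r * _) = _
      rw [v.ord_mul (linFun_ne_zero r) h0, h]
  conv_lhs => rw [(IsAlgClosed.splits p).eq_prod_roots]
  rw [map_mul, v.ord_mul ?_ (key _).1, (key _).2]
  · rw [← Polynomial.algebraMap_eq, ← IsScalarTower.algebraMap_apply, ord_algebraMap, zero_add]
  · rw [map_ne_zero_iff _ (RatFunc.algebraMap_injective K), ne_eq, C_eq_zero, leadingCoeff_eq_zero]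
    exact hp

theorem ord_linFun_eq_of_ne_zero {a : K} (h : v.ord (linFun a) ≠ 0) (b : K) :
    v.ord (linFun b) = if b = a then v.ord (linFun a) else min (v.ord (linFun a)) 0 := by
  split_ifs with hb
  · rw [hb]
  have hc : algebraMap K (RatFunc K) (a - b) ≠ 0 :=
    (_root_.map_ne_zero _).mpr (sub_ne_zero.mpr (Ne.symm hb))
  rcases lt_or_gt_of_ne h with h1 | h1
  · obtain ⟨-, h2⟩ := ord_add_of_lt v (linFun_ne_zero a) (g := algebraMap K (RatFunc K) (a - b))
      (Or.inr (by rw [ord_algebraMap]; exact h1))
    rw [linFun_add] at h2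
    rw [h2, min_eq_left h1.le]
  · obtain ⟨-, h2⟩ := ord_add_of_lt v hc (g := linFun a)
      (Or.inr (by rw [ord_algebraMap]; exact h1))
    rw [add_comm, linFun_add, ord_algebraMap] at h2
    rw [h2, min_eq_right h1.le]

variable [IsAlgClosed K]

theorem ord_dvd_of_forall {k : ℤ} (h : ∀ a : K, k ∣ v.ord (linFun a)) : k ∣ 1 := by
  obtain ⟨f, hf0, hf⟩ := exists_ord_eq v 1
  rw [← RatFunc.num_div_denom f] at hf0 hf
  have hn : f.num ≠ 0 := fun h0 => hf0 (by rw [h0, map_zero, zero_div])
  have hd : f.denom ≠ 0 := f.denom_ne_zero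
  rw [ord_div v ((map_ne_zero_iff _ (RatFunc.algebraMap_injective K)).mpr hn)
    ((map_ne_zero_iff _ (RatFunc.algebraMap_injective K)).mpr hd), ord_poly_eq v hn,
    ord_poly_eq v hd] at hf
  rw [← hf]
  refine dvd_sub (Multiset.dvd_sum fun x hx => ?_) (Multiset.dvd_sum fun x hx => ?_) <;>
  · obtain ⟨r, -, rfl⟩ := Multiset.mem_map.mp hx
    exact h r

/-- A place is either finite (at some `a`) or infinite. -/
theorem place_cases : (∃ a : K, ∀ b : K, v.ord (linFun b) = if b = a then 1 else 0) ∨
    ∀ b : K, v.ord (linFun b) = -1 := by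
  classical
  obtain ⟨a, ha⟩ : ∃ a : K, v.ord (linFun a) ≠ 0 := by
    by_contra h
    push Not at h
    have := ord_dvd_of_forall v (k := 0) fun a => by rw [h a]
    simp at this
  set k := v.ord (linFun a) with hk
  rcases lt_or_gt_of_ne ha with h | h
  · right
    have hall : ∀ b, v.ord (linFun b) = k := fun b => by
      rw [ord_linFun_eq_of_ne_zero v ha b, min_eq_left h.le]
      split_ifs <;> rfl
    have h1 := ord_dvd_of_forall v (k := k) fun b => by rw [hall b]
    intro b
    rw [hall b]
    rcases Int.isUnit_iff.mp (isUnit_of_dvd_one h1) with h2 | h2 <;> omega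
  · left
    have hall : ∀ b, v.ord (linFun b) = if b = a then k else 0 := fun b => by
      rw [ord_linFun_eq_of_ne_zero v ha b, min_eq_right h.le]
    have h1 := ord_dvd_of_forall v (k := k) fun b => by rw [hall b]; split_ifs <;> simp
    refine ⟨a, fun b => ?_⟩
    rw [hall b, show k = 1 by
      rcases Int.isUnit_iff.mp (isUnit_of_dvd_one h1) with h2 | h2 <;> omega]

theorem place_eq_of_ord_linFun {v w : Place K (RatFunc K)}
    (h : ∀ b : K, v.ord (linFun b) = w.ord (linFun b)) : v = w := by
  refine place_eq_of_ord_nonneg fun f hf => ?_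
  rcases eq_or_ne f 0 with rfl | hf0
  · simp
  rw [← RatFunc.num_div_denom f] at hf ⊢
  have hn : f.num ≠ 0 := RatFunc.num_ne_zero hf0
  have hd : f.denom ≠ 0 := f.denom_ne_zero
  have hn' := (map_ne_zero_iff _ (RatFunc.algebraMap_injective K)).mpr hn
  have hd' := (map_ne_zero_iff _ (RatFunc.algebraMap_injective K)).mpr hd
  rw [ord_div v hn' hd', ord_poly_eq v hn, ord_poly_eq v hd] at hf
  rw [ord_div w hn' hd', ord_poly_eq w hn, ord_poly_eq w hd]
  simpa only [h] using hf

/-- The prime `(X - a)`. -/
def primeAt (a : K) : HeightOneSpectrum K[X] where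
  asIdeal := Ideal.span {X - C a}
  isPrime := by
    rw [Ideal.span_singleton_prime (X_sub_C_ne_zero a)]
    exact prime_X_sub_C a
  ne_bot := by simpa [Ideal.span_singleton_eq_bot] using X_sub_C_ne_zero a

/-- The place at `a`. -/
def finPlace (a : K) : Place K (RatFunc K) :=
  Place.ofHeightOneSpectrum (K := K) (F := RatFunc K) (primeAt a)

theorem ord_finPlace (a b : K) : (finPlace a).ord (linFun b) = if b = a then 1 else 0 := by
  have hpos : 0 < (finPlace a).ord (linFun a) := by
    rw [finPlace, ord_ofHeightOneSpectrum, linFun]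
    have h := ((primeAt a).valuation_lt_one_iff_mem (K := RatFunc K) (X - C a)).mpr
      (Ideal.mem_span_singleton_self _)
    have hne : (primeAt a).valuation (RatFunc K) (algebraMap K[X] (RatFunc K) (X - C a)) ≠ 0 :=
      (Valuation.ne_zero_iff _).mpr (linFun_ne_zero a)
    rw [← WithZero.exp_log hne, ← exp_zero, exp_lt_exp] at h
    omega
  rcases place_cases (finPlace a) with ⟨a', h⟩ | h
  · have haa : a = a' := by
      by_contra hne
      rw [h a, if_neg hne] at hpos
      exact lt_irrefl _ hpos
    subst haa
    exact h b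
  · rw [h a] at hpos
    omega

omit [IsAlgClosed K] in
theorem transcendental_X_inv : Transcendental K (RatFunc.X : RatFunc K)⁻¹ := by
  intro h
  have hX := h.inv
  rw [inv_inv, ← RatFunc.algebraMap_X] at hX
  exact transcendental_X K
    ((isAlgebraic_algebraMap_iff (RatFunc.algebraMap_injective K)).mp hX)

/-- The substitution `X ↦ X⁻¹`. -/
def invXHom : RatFunc K →ₐ[K] RatFunc K :=
  (IntermediateField.val _).comp
    (RatFunc.algEquivOfTranscendental (RatFunc.X : RatFunc K)⁻¹ transcendental_X_inv).toAlgHom

omit [IsAlgClosed K] in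
theorem invXHom_X : invXHom (RatFunc.X : RatFunc K) = RatFunc.X⁻¹ :=
  RatFunc.algEquivOfTranscendental_X _ transcendental_X_inv

omit [IsAlgClosed K] in
theorem invXHom_invXHom (f : RatFunc K) : invXHom (invXHom f) = f := by
  have h : ((invXHom (K := K)).comp invXHom).comp (IsScalarTower.toAlgHom K K[X] (RatFunc K))
      = IsScalarTower.toAlgHom K K[X] (RatFunc K) := by
    refine Polynomial.algHom_ext ?_
    simp [RatFunc.algebraMap_X, invXHom_X]
  rw [← RatFunc.num_div_denom f, map_div₀, map_div₀]
  exact congrArg₂ (· / ·) (DFunLike.congr_fun h f.num) (DFunLike.congr_fun h f.denom)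

/-- The involution `X ↦ X⁻¹`. -/
def invX : RatFunc K ≃ₐ[K] RatFunc K :=
  AlgEquiv.ofAlgHom invXHom invXHom (AlgHom.ext invXHom_invXHom) (AlgHom.ext invXHom_invXHom)

/-- The place at infinity. -/
def inftyPlace : Place K (RatFunc K) := (invX (K := K)) • finPlace (0 : K)

theorem ord_inftyPlace (b : K) : inftyPlace.ord (linFun b) = -1 := by
  have hX : inftyPlace.ord (linFun (0 : K)) < 0 := by
    have h := Place.ord_smul (invX (K := K)) (finPlace (0 : K)) (linFun 0)
    rw [ord_finPlace, if_pos rfl] at h
    have hlin : linFun (0 : K) = RatFunc.X := by simp [linFun]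
    rw [hlin, show invX (K := K) RatFunc.X = RatFunc.X⁻¹ from invXHom_X, Place.ord_inv] at h
    rw [hlin, inftyPlace]
    omega
  rcases place_cases (inftyPlace (K := K)) with ⟨a, h⟩ | h
  · rw [h 0] at hX
    split_ifs at hX <;> omega
  · exact h b

theorem place_rat_cases : (∃ a : K, v = finPlace a) ∨ v = inftyPlace := by
  rcases place_cases v with ⟨a, h⟩ | h
  · exact Or.inl ⟨a, place_eq_of_ord_linFun fun b => by rw [h b, ord_finPlace]⟩
  · exact Or.inr (place_eq_of_ord_linFun fun b => by rw [h b, ord_inftyPlace])

theorem finPlace_ne_inftyPlace (a : K) : finPlace a ≠ inftyPlace := fun h => by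
  have h1 := ord_finPlace a a
  rw [h, ord_inftyPlace, if_pos rfl] at h1
  omega

theorem ord_X_cases : (v = finPlace 0 ∧ v.ord (RatFunc.X : RatFunc K) = 1) ∨
    (v = inftyPlace ∧ v.ord (RatFunc.X : RatFunc K) = -1) ∨
    (v ≠ finPlace 0 ∧ v ≠ inftyPlace ∧ v.ord (RatFunc.X : RatFunc K) = 0) := by
  have hlin : linFun (0 : K) = RatFunc.X := by simp [linFun]
  rw [← hlin]
  rcases place_rat_cases v with ⟨a, rfl⟩ | rfl
  · rcases eq_or_ne a 0 with rfl | ha
    · exact Or.inl ⟨rfl, by rw [ord_finPlace, if_pos rfl]⟩
    · refine Or.inr (Or.inr ⟨fun h => ha ?_, finPlace_ne_inftyPlace a,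
        by rw [ord_finPlace, if_neg ha.symm]⟩)
      have h1 := ord_finPlace a a
      rw [h, ord_finPlace, if_pos rfl] at h1
      split_ifs at h1 with h2
      · exact h2
      · exact absurd h1 zero_ne_one
  · exact Or.inr (Or.inl ⟨rfl, ord_inftyPlace 0⟩)

theorem constResidue_finPlace (a : K) : ConstResidue (finPlace a) := by
  intro f hf
  rcases eq_or_ne f 0 with rfl | hf0
  · exact ⟨0, by simp⟩
  have hd : algebraMap K[X] (RatFunc K) f.denom ≠ 0 :=
    (map_ne_zero_iff _ (RatFunc.algebraMap_injective K)).mpr f.denom_ne_zero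
  have hord : ∀ p : K[X], p ≠ 0 →
      (finPlace a).ord (algebraMap K[X] (RatFunc K) p) = p.rootMultiplicity a := by
    classical
    intro p hp
    have hsum : ∀ s : Multiset K,
        (s.map fun r => if r = a then (1 : ℤ) else 0).sum = s.count a := by
      intro s
      induction s using Multiset.induction with
      | empty => simp
      | cons r s ih =>
        rcases eq_or_ne r a with h | h
        · subst h; simp [ih]; ring
        · simp [ih, h, Multiset.count_cons_of_ne (Ne.symm h)]
    rw [ord_poly_eq _ hp, ← count_roots, ← hsum]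
    simp only [ord_finPlace]
  have hda : f.denom.eval a ≠ 0 := by
    intro hz
    have h1 : 0 < f.denom.rootMultiplicity a := (rootMultiplicity_pos f.denom_ne_zero).mpr hz
    have h2 : f.num.rootMultiplicity a = 0 := by
      rw [rootMultiplicity_eq_zero_iff]
      intro hn
      exfalso
      obtain ⟨u, w, huw⟩ := RatFunc.isCoprime_num_denom f
      have h3 := congrArg (Polynomial.eval a) huw
      rw [IsRoot.def] at hn
      simp [hn, hz] at h3
    rw [mem_iff] at hf
    have h3 := hf.resolve_left hf0
    rw [← RatFunc.num_div_denom f, ord_div _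
      ((map_ne_zero_iff _ (RatFunc.algebraMap_injective K)).mpr (RatFunc.num_ne_zero hf0)) hd,
      hord _ (RatFunc.num_ne_zero hf0), hord _ f.denom_ne_zero, h2] at h3
    omega
  refine ⟨f.num.eval a / f.denom.eval a, ?_⟩
  set q : K[X] := f.num - C (f.num.eval a / f.denom.eval a) * f.denom with hq
  have hqa : q.IsRoot a := by simp [hq, IsRoot.def, div_mul_cancel₀ _ hda]
  have heq : f - algebraMap K (RatFunc K) (f.num.eval a / f.denom.eval a)
      = algebraMap K[X] (RatFunc K) q / algebraMap K[X] (RatFunc K) f.denom := by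
    rw [eq_div_iff hd, sub_mul, hq, map_sub, map_mul,
      IsScalarTower.algebraMap_apply K K[X] (RatFunc K), Polynomial.algebraMap_eq]
    congr 1
    exact (eq_div_iff hd).mp (RatFunc.num_div_denom f).symm
  rw [heq, val_le_exp_iff]
  rcases eq_or_ne q 0 with h0 | h0
  · left; rw [h0, map_zero, zero_div]
  · right
    rw [ord_div _ ((map_ne_zero_iff _ (RatFunc.algebraMap_injective K)).mpr h0) hd, hord _ h0,
      hord _ f.denom_ne_zero, rootMultiplicity_eq_zero (fun h => hda h)]
    have := (rootMultiplicity_pos h0).mpr hqa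
    omega

/-- Every place of the rational function field has residue field `K`. -/
theorem constResidue_rat : ConstResidue v := by
  rcases place_rat_cases v with ⟨a, rfl⟩ | rfl
  · exact constResidue_finPlace a
  intro f hf
  have hmem : (invX (K := K)).symm f ∈ (finPlace (0 : K)).toValuationSubring := by
    have h := (ValuationSubring.mem_pointwise_smul_iff_inv_smul_mem (g := (invX (K := K)))
      (S := (finPlace (0 : K)).toValuationSubring) (x := f)).mp hf
    exact h
  obtain ⟨c, hc⟩ := constResidue_finPlace (0 : K) _ hmem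
  refine ⟨c, ?_⟩
  rw [val_le_exp_iff] at hc ⊢
  have hkey : f - algebraMap K (RatFunc K) c
      = invX ((invX (K := K)).symm f - algebraMap K (RatFunc K) c) := by
    rw [map_sub, AlgEquiv.apply_symm_apply, AlgEquiv.commutes]
  rw [hkey]
  rcases hc with h | h
  · left; rw [h, map_zero]
  · right
    rw [inftyPlace, Place.ord_smul]
    exact h

theorem deg_rat : v.deg = 1 := (constResidue_rat v).deg_eq_one

/-- Divisors with zero degree exist for all rational functions. -/
theorem rat_exists_divisor (f : RatFunc K) (hf : f ≠ 0) : ∃ D : Divisor K (RatFunc K),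
    (∀ w : Place K (RatFunc K), D w = w.ord f) ∧ Divisor.degree D = 0 := by
  classical
  let P : RatFunc K → Prop := fun g => g ≠ 0 ∧ ∃ D : Divisor K (RatFunc K),
    (∀ w : Place K (RatFunc K), D w = w.ord g) ∧ Divisor.degree D = 0
  have hmul : ∀ g h, P g → P h → P (g * h) := by
    rintro g h ⟨hg, D, hD, hD0⟩ ⟨hh, E, hE, hE0⟩
    exact ⟨mul_ne_zero hg hh, D + E, fun w => by rw [Finsupp.add_apply, hD, hE, w.ord_mul hg hh],
      by rw [map_add, hD0, hE0, add_zero]⟩
  have hinv : ∀ g, P g → P g⁻¹ := by
    rintro g ⟨hg, D, hD, hD0⟩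
    exact ⟨inv_ne_zero hg, -D, fun w => by rw [Finsupp.neg_apply, hD, w.ord_inv],
      by rw [map_neg, hD0, neg_zero]⟩
  have hpoly : ∀ p : K[X], p ≠ 0 → P (algebraMap K[X] (RatFunc K) p) := by
    intro p hp
    rw [(IsAlgClosed.splits p).eq_prod_roots, map_mul]
    refine hmul _ _ ?_ ?_
    · refine ⟨(map_ne_zero_iff _ (RatFunc.algebraMap_injective K)).mpr (by simpa using hp), 0,
        fun w => ?_, map_zero _⟩
      rw [← Polynomial.algebraMap_eq, ← IsScalarTower.algebraMap_apply, ord_algebraMap]
      rfl
    induction p.roots using Multiset.induction with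
    | empty => exact ⟨by simp, 0, fun w => by simp, map_zero _⟩
    | cons r s ih =>
      rw [Multiset.map_cons, Multiset.prod_cons, map_mul]
      refine hmul _ _ ⟨linFun_ne_zero r,
        Finsupp.single (finPlace r) 1 - Finsupp.single inftyPlace 1, fun w => ?_, ?_⟩ ih
      · show _ = w.ord (linFun r)
        have hne : finPlace r ≠ (inftyPlace (K := K)) := fun h => by
          have h1 := ord_finPlace r r
          rw [h, ord_inftyPlace, if_pos rfl] at h1
          omega
        rw [Finsupp.sub_apply]
        rcases place_rat_cases w with ⟨a, rfl⟩ | rfl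
        · have hna : finPlace a ≠ (inftyPlace (K := K)) := fun h => by
            have h1 := ord_finPlace a a
            rw [h, ord_inftyPlace, if_pos rfl] at h1
            omega
          rw [ord_finPlace, Finsupp.single_eq_of_ne hna]
          rcases eq_or_ne r a with h | h
          · subst h; simp
          · rw [Finsupp.single_eq_of_ne (fun h' => h ?_), if_neg h, sub_zero]
            have h1 := ord_finPlace a a
            rw [h', ord_finPlace, if_pos rfl] at h1
            split_ifs at h1 with h2
            · exact h2.symm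
            · exact absurd h1 (by norm_num)
        · rw [ord_inftyPlace, Finsupp.single_eq_of_ne hne.symm, Finsupp.single_eq_same, zero_sub]
      · rw [map_sub, Divisor.degree_single, Divisor.degree_single, deg_rat, deg_rat, sub_self]
  rw [← RatFunc.num_div_denom f, div_eq_mul_inv]
  exact (hmul _ _ (hpoly _ (RatFunc.num_ne_zero hf))
    (hinv _ (hpoly _ f.denom_ne_zero))).2

/-- A rational function regular at every finite place is a polynomial. -/
theorem rat_exists_polynomial {f : RatFunc K} (h : ∀ a : K, 0 ≤ (finPlace a).ord f) :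
    ∃ p : K[X], algebraMap K[X] (RatFunc K) p = f := by
  rcases eq_or_ne f 0 with rfl | hf0
  · exact ⟨0, map_zero _⟩
  have hden : f.denom.natDegree = 0 := by
    by_contra hne
    obtain ⟨a, ha⟩ := IsAlgClosed.exists_root f.denom
      (fun hdeg => hne (natDegree_eq_zero_iff_degree_le_zero.mpr hdeg.le))
    have hn : f.num.eval a ≠ 0 := by
      intro hn
      obtain ⟨u, w, huw⟩ := RatFunc.isCoprime_num_denom f
      have h3 := congrArg (Polynomial.eval a) huw
      rw [IsRoot.def] at ha
      simp [hn, ha] at h3
    have hdvd : X - C a ∣ f.denom := dvd_iff_isRoot.mpr ha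
    obtain ⟨s, hs⟩ := hdvd
    have hs0 : s ≠ 0 := fun h0 => f.denom_ne_zero (by rw [hs, h0, mul_zero])
    have hmap := fun q : K[X] =>
      (map_ne_zero_iff (algebraMap K[X] (RatFunc K)) (RatFunc.algebraMap_injective K) (x := q)).mpr
    have hle := h a
    rw [← RatFunc.num_div_denom f, ord_div _ (hmap _ (RatFunc.num_ne_zero hf0))
      (hmap _ f.denom_ne_zero), hs, map_mul,
      Place.ord_mul _ (hmap _ (X_sub_C_ne_zero a)) (hmap _ hs0)] at hle
    have hs1 : 0 ≤ (finPlace a).ord (algebraMap K[X] (RatFunc K) s) :=
      ord_nonneg_of_mem_placeRing _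
        (algebraMap_mem_ofHeightOneSpectrum (K := K) (primeAt a) s)
    have hn0 : (finPlace a).ord (algebraMap K[X] (RatFunc K) f.num) = 0 := by
      classical
      rw [ord_poly_eq _ (RatFunc.num_ne_zero hf0)]
      refine Multiset.sum_eq_zero fun x hx => ?_
      obtain ⟨r, hr, rfl⟩ := Multiset.mem_map.mp hx
      rw [ord_finPlace, if_neg]
      rintro rfl
      exact hn (mem_roots'.mp hr).2
    have h1 := ord_finPlace a a
    rw [if_pos rfl] at h1
    change (finPlace a).ord (algebraMap K[X] (RatFunc K) (X - C a)) = 1 at h1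
    omega
  refine ⟨f.num, ?_⟩
  conv_rhs => rw [← RatFunc.num_div_denom f,
    (RatFunc.monic_denom f).natDegree_eq_zero.mp hden, map_one, div_one]

theorem rat_exists_const {f : RatFunc K} (h : ∀ w : Place K (RatFunc K), 0 ≤ w.ord f) :
    ∃ c : K, algebraMap K (RatFunc K) c = f := by
  obtain ⟨p, rfl⟩ := rat_exists_polynomial fun a => h (finPlace a)
  rcases eq_or_ne p 0 with rfl | hp
  · exact ⟨0, by simp⟩
  have hle := h inftyPlace
  rw [ord_poly_eq _ hp] at hle
  simp only [ord_inftyPlace, Multiset.map_const', Multiset.sum_replicate] at hle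
  have hroots : p.roots.card = 0 := by
    rw [nsmul_eq_mul] at hle
    omega
  rw [(IsAlgClosed.splits p).eq_prod_roots, Multiset.card_eq_zero.mp hroots]
  exact ⟨p.leadingCoeff, by simp⟩

end FLTAgent.FF
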