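import Fermat.Agent.FF.PlacesMain
import Fermat.Prelude.Def_AlgebraicCurve_Repartitions

/-!
# Riemann–Roch: preliminaries

The notations `ell` and `hOne` for the dimensions of `L(D)` and `H¹(D)`, elementary rules for
`L(D)` and degrees, induction on divisors one place at a time (`divisor_induction_up`,
`divisor_induction_down`), and the description of repartitions (`mem_repartitions_iff`,
`exists_mem_repartitionsOf`).
-/

set_option autoImplicit false

noncomputable section

open AlgebraicCurve WithZero

namespace FLTAgent.FF

variable {K F : Type*} [Field K] [Field F] [Algebra K F]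

section Generic

/-- Shorthand: the dimension of `L(D)`. -/
abbrev ell (D : Divisor K F) : ℕ := Module.finrank K (riemannRochSpace D)

/-- Shorthand: the dimension of `H1(D)`. -/
abbrev hOne (D : Divisor K F) : ℕ := Module.finrank K (H1 D)

theorem le_ord_add (v : Place K F) {f g : F} {n : ℤ}
    (hf : f = 0 ∨ n ≤ v.ord f) (hg : g = 0 ∨ n ≤ v.ord g) : f + g = 0 ∨ n ≤ v.ord (f + g) := by
  have h : v.adicValuation (f + g) ≤ exp (-n) := by
    refine (Valuation.map_add _ _ _).trans (max_le ?_ ?_) <;>
      rw [v.adicValuation_le_exp_iff, neg_neg] <;> assumption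
  rwa [v.adicValuation_le_exp_iff, neg_neg] at h

theorem riemannRochSpace_mono {D E : Divisor K F} (h : D ≤ E) :
    riemannRochSpace D ≤ riemannRochSpace E :=
  fun _ hf v => (hf v).trans (exp_le_exp.mpr (Finsupp.le_def.mp h v))

theorem mem_riemannRochSpace_of_ord {D : Divisor K F} {f : F}
    (h : ∀ v : Place K F, -D v ≤ v.ord f) : f ∈ riemannRochSpace D :=
  mem_riemannRochSpace_iff.2 fun v => Or.inr (h v)

theorem ord_of_mem_riemannRochSpace {D : Divisor K F} {f : F} (hf : f ∈ riemannRochSpace D)
    (hf0 : f ≠ 0) (v : Place K F) : -D v ≤ v.ord f :=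
  (mem_riemannRochSpace_iff.1 hf v).resolve_left hf0

theorem mul_mem_riemannRochSpace {D E : Divisor K F} {f g : F} (hf : f ∈ riemannRochSpace D)
    (hg : g ∈ riemannRochSpace E) : f * g ∈ riemannRochSpace (D + E) := by
  intro v
  rw [map_mul, Finsupp.add_apply, exp_add]
  exact mul_le_mul' (hf v) (hg v)

theorem pow_mem_riemannRochSpace {D : Divisor K F} {f : F} (hf : f ∈ riemannRochSpace D) (n : ℕ) :
    f ^ n ∈ riemannRochSpace (n • D) := by
  induction n with
  | zero => intro v; simp
  | succ n ih => rw [pow_succ, succ_nsmul]; exact mul_mem_riemannRochSpace ih hf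

end Generic

section FunctionField

variable [IsAlgClosed K] [IsFF K F]

theorem degree_single_one (v : Place K F) : Divisor.degree (Finsupp.single v (1 : ℤ)) = 1 := by
  simp [deg_eq_one v]

theorem degree_nonneg {D : Divisor K F} (h : 0 ≤ D) : 0 ≤ Divisor.degree D := by
  rw [degree_eq_sum]
  exact Finset.sum_nonneg fun v _ => by simpa using Finsupp.le_def.mp h v

theorem degree_mono {D E : Divisor K F} (h : D ≤ E) : Divisor.degree D ≤ Divisor.degree E := by
  have := degree_nonneg (sub_nonneg.2 h)
  rw [map_sub] at this
  omega

theorem eq_zero_of_degree_nonpos {D : Divisor K F} (h : 0 ≤ D) (hd : Divisor.degree D ≤ 0) :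
    D = 0 := by
  ext v
  by_contra hv
  have hv' : (1 : ℤ) ≤ D v := by
    have := Finsupp.le_def.mp h v
    simp only [Finsupp.coe_zero, Pi.zero_apply] at this hv
    omega
  have hle : Finsupp.single v (1 : ℤ) ≤ D := by
    intro w
    rcases eq_or_ne v w with rfl | hw
    · simpa using hv'
    · simpa [Finsupp.single_eq_of_ne' hw] using Finsupp.le_def.mp h w
  have := degree_mono hle
  rw [degree_single_one] at this
  omega

/-- Induction from a divisor upwards, adding one place at a time. -/
theorem divisor_induction_up {P : Divisor K F → Prop} {D : Divisor K F} (h0 : P D)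
    (hs : ∀ (E : Divisor K F) (v : Place K F), D ≤ E → P E → P (E + Finsupp.single v 1))
    {E : Divisor K F} (hE : D ≤ E) : P E := by
  suffices H : ∀ (n : ℕ) (E : Divisor K F), D ≤ E → Divisor.degree (E - D) = n → P E by
    obtain ⟨n, hn⟩ := Int.eq_ofNat_of_zero_le (degree_nonneg (sub_nonneg.2 hE))
    exact H n E hE hn
  intro n
  induction n with
  | zero =>
    intro E hE hn
    have := eq_zero_of_degree_nonpos (sub_nonneg.2 hE) (by simp [hn])
    rwa [sub_eq_zero.1 this]
  | succ n ih =>
    intro E hE hn
    have hne : E - D ≠ 0 := fun h => by rw [h, map_zero] at hn; omega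
    obtain ⟨v, hv⟩ := Finsupp.ne_iff.1 hne
    have hv1 : D v < E v := by
      have := Finsupp.le_def.mp hE v
      simp only [Finsupp.sub_apply, Finsupp.coe_zero, Pi.zero_apply] at hv
      omega
    have hE' : D ≤ E - Finsupp.single v (1 : ℤ) := by
      intro w
      rcases eq_or_ne v w with rfl | hw
      · simp; omega
      · simpa [Finsupp.single_eq_of_ne' hw] using Finsupp.le_def.mp hE w
    have hp := hs _ v hE' (ih _ hE' (by
      rw [sub_right_comm, map_sub, hn, degree_single_one]; push_cast; ring))
    rwa [sub_add_cancel] at hp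

/-- Induction from a divisor downwards. -/
theorem divisor_induction_down {P : Divisor K F → Prop} {E : Divisor K F} (h0 : P E)
    (hs : ∀ (D : Divisor K F) (v : Place K F), D + Finsupp.single v 1 ≤ E →
      P (D + Finsupp.single v 1) → P D)
    {D : Divisor K F} (hD : D ≤ E) : P D := by
  have h : P (E - (E - D)) := by
    refine divisor_induction_up (P := fun X => P (E - X)) (D := 0) (by simpa using h0) ?_
      (sub_nonneg.2 hD)
    intro X v hX h
    have heq : E - (X + Finsupp.single v 1) + Finsupp.single v 1 = E - X := by abel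
    refine hs _ v ?_ (by rwa [heq])
    rw [heq]
    exact sub_le_self _ hX
  rwa [sub_sub_cancel] at h

/-- A nonzero function has degree zero divisor. -/
theorem exists_div {f : F} (hf : f ≠ 0) : ∃ D : Divisor K F,
    (∀ v : Place K F, D v = v.ord f) ∧ Divisor.degree D = 0 :=
  HasPrincipalDivisors.exists_divisor f hf

theorem finite_setOf_ord_neg (f : F) : {v : Place K F | v.ord f < 0}.Finite := by
  rcases eq_or_ne f 0 with rfl | hf
  · simp
  obtain ⟨D, hD, -⟩ := exists_div (K := K) hf
  refine D.support.finite_toSet.subset fun v (hv : v.ord f < 0) => ?_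
  rw [Finset.mem_coe, Finsupp.mem_support_iff, hD v]
  omega

/-- The repartitions are exactly the families with finitely many poles. -/
theorem mem_repartitions_iff {α : Place K F → F} :
    α ∈ repartitions K F ↔ {v : Place K F | ¬ v.adicValuation (α v) ≤ 1}.Finite := by
  refine ⟨fun hα => ?_, mem_repartitions_of_finite⟩
  induction hα using Algebra.adjoin_induction with
  | mem x hx => exact hx
  | algebraMap f =>
      refine (finite_setOf_ord_neg (K := K) f).subset fun v hv => ?_
      exact v.not_adicValuation_le_one_iff.1 hv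
  | add x y _ _ hx hy =>
      refine (hx.union hy).subset fun v hv => ?_
      simp only [Set.mem_union, Set.mem_ofPred_eq, Pi.add_apply] at hv ⊢
      by_contra h
      push Not at h
      exact hv ((Valuation.map_add _ _ _).trans (max_le h.1 h.2))
  | mul x y _ _ hx hy =>
      refine (hx.union hy).subset fun v hv => ?_
      simp only [Set.mem_union, Set.mem_ofPred_eq, Pi.mul_apply, map_mul] at hv ⊢
      by_contra h
      push Not at h
      exact hv (mul_le_one' h.1 h.2)

/-- Every repartition lies in some `A(E)`, `E` above a given divisor. -/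
theorem exists_mem_repartitionsOf (α : ↥(repartitions K F)) (D : Divisor K F) :
    ∃ E : Divisor K F, D ≤ E ∧ α ∈ repartitionsOf E := by
  classical
  have hfin := mem_repartitions_iff.1 α.2
  let g : Divisor K F := Finsupp.onFinset (hfin.toFinset ∪ D.support)
    (fun v => max (D v) (if (α : Place K F → F) v = 0 then 0 else max 0 (-(v.ord ((α : Place K F → F) v)))))
    (fun v hv => by
      simp only [Finset.mem_union, Set.Finite.mem_toFinset, Set.mem_ofPred_eq,
        Finsupp.mem_support_iff]
      by_contra h
      push Not at h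
      rcases v.adicValuation_le_one_iff.1 h.1 with h' | h'
      · simp [h', h.2] at hv
      · apply hv
        rw [h.2]
        split <;> omega)
  refine ⟨g, fun v => le_max_left _ _, mem_repartitionsOf_iff.2 fun v => ?_⟩
  rcases eq_or_ne ((α : Place K F → F) v) 0 with h | h
  · exact Or.inl h
  · right
    simp only [g, Finsupp.onFinset_apply, if_neg h]
    omega

theorem exists_residue_const (v : Place K F) {f : F} (hf : f = 0 ∨ 0 ≤ v.ord f) :
    ∃ c : K, f - algebraMap K F c = 0 ∨ 1 ≤ v.ord (f - algebraMap K F c) := by
  have hmem := (mem_iff_val_le_one v f).2 (v.adicValuation_le_one_iff.2 hf)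
  have hdeg : Module.finrank K v.ResidueField = 1 := deg_eq_one v
  obtain ⟨c, hc⟩ := (finrank_eq_one_iff_of_nonzero' (1 : v.ResidueField) one_ne_zero).1 hdeg
    (IsLocalRing.residue _ ⟨f, hmem⟩)
  refine ⟨c, ?_⟩
  have hres : IsLocalRing.residue v.toValuationSubring
      (⟨f, hmem⟩ - algebraMap K v.toValuationSubring c) = 0 := by
    rw [map_sub, ← hc, Algebra.smul_def, mul_one]
    exact sub_self _
  rw [IsLocalRing.residue_eq_zero_iff, IsLocalRing.mem_maximalIdeal, mem_nonunits_iff,
    ← v.adicValuation_coe_eq_one_iff] at hres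
  rcases eq_or_ne (f - algebraMap K F c) 0 with h | h
  · exact Or.inl h
  right
  have hle : v.adicValuation (f - algebraMap K F c) ≤ 1 :=
    v.adicValuation_le_one_of_mem (sub_mem hmem (v.algebraMap_mem' c))
  have h0 := (v.adicValuation_le_one_iff.1 hle).resolve_left h
  by_contra hlt
  apply hres
  show v.adicValuation (f - algebraMap K F c) = 1
  rw [v.adicValuation_eq_exp_neg_ord h, show v.ord (f - algebraMap K F c) = 0 by omega]
  simp

end FunctionField

end FLTAgent.FF
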