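import Fermat.Agent.FF.RiemannRochBasic

/-!
# Riemann–Roch: adding a place

`step_cases` and `ell_step_or`: passing from `D` to `D + P` either raises `l` by one and leaves
`H¹` unchanged, or leaves `l` unchanged and lowers `h¹` by one. The proof adds the repartition
`singleRep v t` supported at the place.
-/

set_option autoImplicit false

noncomputable section

open AlgebraicCurve WithZero

namespace FLTAgent.FF

variable {K F : Type*} [Field K] [Field F] [Algebra K F]

open Classical in
/-- The repartition with value `t` at `v` and zero elsewhere. -/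
def singleRep (v : Place K F) (t : F) : ↥(repartitions K F) :=
  ⟨Pi.single v t, mem_repartitions_of_finite ((Set.finite_singleton v).subset fun w hw => by
    by_contra h
    simp [Pi.single_eq_of_ne h] at hw)⟩

@[simp]
theorem singleRep_same (v : Place K F) (t : F) : (singleRep v t : Place K F → F) v = t := by
  classical
  simp [singleRep]

theorem singleRep_of_ne {v w : Place K F} (h : w ≠ v) (t : F) :
    (singleRep v t : Place K F → F) w = 0 := by
  classical
  simp [singleRep, Pi.single_eq_of_ne h]

/-- The constant repartition attached to a function. -/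
def diagRep : F →ₗ[K] ↥(repartitions K F) :=
  (Algebra.linearMap F ↥(repartitions K F)).restrictScalars K

@[simp]
theorem diagRep_apply (f : F) (v : Place K F) : (diagRep (K := K) f : Place K F → F) v = f := rfl

theorem principalRepartitions_eq_range :
    principalRepartitions K F = LinearMap.range (diagRep (K := K) (F := F)) := rfl

theorem diagRep_mem_repartitionsOf {D : Divisor K F} {f : F} :
    diagRep f ∈ repartitionsOf D ↔ f ∈ riemannRochSpace D := Iff.rfl

theorem repRelations_mono {D E : Divisor K F} (h : D ≤ E) :
    repartitionsOf D ⊔ principalRepartitions K F ≤ repartitionsOf E ⊔ principalRepartitions K F :=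
  sup_le_sup_right (repartitionsOf_mono h) _

/-- The canonical surjection `H1(D) → H1(E)` for `D ≤ E`. -/
def h1Map {D E : Divisor K F} (h : D ≤ E) : H1 D →ₗ[K] H1 E :=
  Submodule.factor (H := repRelations_mono h)

theorem h1Map_surjective {D E : Divisor K F} (h : D ≤ E) : Function.Surjective (h1Map h) :=
  Submodule.factor_surjective (repRelations_mono h)

variable [IsAlgClosed K] [IsFF K F]

section Step

variable (D : Divisor K F) (v : Place K F) {t : F}

theorem repartitionsOf_add_single (ht0 : t ≠ 0) (ht : v.ord t = -(D v + 1)) :
    repartitionsOf (D + Finsupp.single v 1) = repartitionsOf D ⊔ (K ∙ singleRep v t) := by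
  classical
  refine le_antisymm (fun α hα => ?_) (sup_le (repartitionsOf_mono ?_) ?_)
  · set a := (α : Place K F → F) v with ha
    have hav := mem_repartitionsOf_iff.1 hα v
    rw [← ha, Finsupp.add_apply, Finsupp.single_eq_same] at hav
    have hq : a / t = 0 ∨ 0 ≤ v.ord (a / t) := by
      rcases eq_or_ne a 0 with h | h
      · simp [h]
      right
      rw [div_eq_mul_inv, v.ord_mul h (inv_ne_zero ht0), v.ord_inv, ht]
      have := hav.resolve_left h
      omega
    obtain ⟨c, hc⟩ := exists_residue_const v hq
    refine Submodule.mem_sup.2 ⟨α - c • singleRep v t, ?_, c • singleRep v t,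
      Submodule.smul_mem _ _ (Submodule.mem_span_singleton_self _), sub_add_cancel _ _⟩
    refine mem_repartitionsOf_iff.2 fun w => ?_
    show (α : Place K F → F) w - c • (singleRep v t : Place K F → F) w = 0 ∨
      -D w ≤ w.ord ((α : Place K F → F) w - c • (singleRep v t : Place K F → F) w)
    rcases eq_or_ne w v with rfl | hw
    · rw [singleRep_same, ← ha, Algebra.smul_def]
      rcases hc with hc | hc
      · left
        field_simp at hc
        linear_combination hc
      · rcases eq_or_ne (a / t - algebraMap K F c) 0 with h | h
        · left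
          field_simp at h
          linear_combination h
        right
        have heq : a - algebraMap K F c * t = (a / t - algebraMap K F c) * t := by
          field_simp
        rw [heq, w.ord_mul h ht0, ht]
        omega
    · rw [singleRep_of_ne hw, smul_zero, sub_zero]
      simpa [Finsupp.single_eq_of_ne hw] using mem_repartitionsOf_iff.1 hα w
  · exact le_add_of_nonneg_right (Finsupp.single_nonneg.2 zero_le_one)
  · rw [Submodule.span_singleton_le_iff_mem]
    refine mem_repartitionsOf_iff.2 fun w => ?_
    rcases eq_or_ne w v with rfl | hw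
    · right
      rw [singleRep_same, ht, Finsupp.add_apply, Finsupp.single_eq_same]
    · exact Or.inl (singleRep_of_ne hw t)

theorem singleRep_notMem (ht0 : t ≠ 0) (ht : v.ord t = -(D v + 1)) :
    singleRep v t ∉ repartitionsOf D := by
  intro h
  have := (mem_repartitionsOf_iff.1 h v)
  rw [singleRep_same] at this
  have := this.resolve_left ht0
  omega

/-- The step `D → D + P`: either `L` grows by one dimension and `H1` is unchanged,
or `L` is unchanged and the kernel of `H1(D) → H1(D+P)` is a line. -/
theorem step_cases (ht0 : t ≠ 0) (ht : v.ord t = -(D v + 1)) :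
    ((∃ f ∈ riemannRochSpace (D + Finsupp.single v 1), f ∉ riemannRochSpace D ∧
        riemannRochSpace (D + Finsupp.single v 1) = riemannRochSpace D ⊔ (K ∙ f)) ∧
      repartitionsOf (D + Finsupp.single v 1) ⊔ principalRepartitions K F =
        repartitionsOf D ⊔ principalRepartitions K F) ∨
    (riemannRochSpace (D + Finsupp.single v 1) = riemannRochSpace D ∧
      singleRep v t ∉ repartitionsOf D ⊔ principalRepartitions K F) := by
  have hA := repartitionsOf_add_single D v ht0 ht
  have hle : D ≤ D + Finsupp.single v 1 :=
    le_add_of_nonneg_right (Finsupp.single_nonneg.2 zero_le_one)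
  by_cases hmem : singleRep v t ∈ repartitionsOf D ⊔ principalRepartitions K F
  · left
    refine ⟨?_, le_antisymm ?_ (repRelations_mono hle)⟩
    · obtain ⟨β, hβ, γ, hγ, hsum⟩ := Submodule.mem_sup.1 hmem
      rw [principalRepartitions_eq_range] at hγ
      obtain ⟨f, rfl⟩ := hγ
      have hfm : f ∈ riemannRochSpace (D + Finsupp.single v 1) := by
        rw [← diagRep_mem_repartitionsOf, hA, show diagRep f = singleRep v t - β from
          eq_sub_of_add_eq' hsum]
        exact Submodule.sub_mem _
          (Submodule.mem_sup_right (Submodule.mem_span_singleton_self _))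
          (Submodule.mem_sup_left hβ)
      have hfn : f ∉ riemannRochSpace D := fun h =>
        singleRep_notMem D v ht0 ht (hsum ▸ add_mem hβ (diagRep_mem_repartitionsOf.2 h))
      refine ⟨f, hfm, hfn, le_antisymm (fun g hg => ?_) (sup_le (riemannRochSpace_mono hle) ?_)⟩
      · obtain ⟨β', hβ', γ', hγ', hsum'⟩ :=
          Submodule.mem_sup.1 (hA ▸ diagRep_mem_repartitionsOf.2 hg)
        obtain ⟨c, rfl⟩ := Submodule.mem_span_singleton.1 hγ'
        refine Submodule.mem_sup.2 ⟨g - c • f, ?_, c • f,
          Submodule.smul_mem _ _ (Submodule.mem_span_singleton_self _), sub_add_cancel _ _⟩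
        rw [← diagRep_mem_repartitionsOf, map_sub, map_smul, ← hsum', ← hsum, smul_add,
          show β' + (c • β + c • diagRep f) - c • diagRep f = β' + c • β by abel]
        exact add_mem hβ' (Submodule.smul_mem _ _ hβ)
      · rwa [Submodule.span_singleton_le_iff_mem]
    · rw [hA]
      exact sup_le (sup_le le_sup_left (by rwa [Submodule.span_singleton_le_iff_mem])) le_sup_right
  · right
    refine ⟨le_antisymm (fun g hg => ?_) (riemannRochSpace_mono hle), hmem⟩
    by_contra hgn
    obtain ⟨β, hβ, γ, hγ, hsum⟩ :=
      Submodule.mem_sup.1 (hA ▸ diagRep_mem_repartitionsOf.2 hg)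
    obtain ⟨c, rfl⟩ := Submodule.mem_span_singleton.1 hγ
    have hc : c ≠ 0 := by
      rintro rfl
      apply hgn
      rw [← diagRep_mem_repartitionsOf, ← hsum]
      simpa using hβ
    apply hmem
    have : singleRep v t = c⁻¹ • (diagRep g - β) := by
      rw [eq_inv_smul_iff₀ hc, eq_sub_iff_add_eq', hsum]
    rw [this]
    exact Submodule.smul_mem _ _ (Submodule.sub_mem _
      (Submodule.mem_sup_right (principalRepartitions_eq_range (K := K) (F := F) ▸ ⟨g, rfl⟩))
      (Submodule.mem_sup_left hβ))

end Step

theorem ell_step_or (D : Divisor K F) (v : Place K F)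
    [FiniteDimensional K (riemannRochSpace D)] :
    (ell (D + Finsupp.single v 1) = ell D + 1 ∧
      repartitionsOf (D + Finsupp.single v 1) ⊔ principalRepartitions K F =
        repartitionsOf D ⊔ principalRepartitions K F) ∨
    (ell (D + Finsupp.single v 1) = ell D ∧
      (∀ [FiniteDimensional K (H1 (D + Finsupp.single v 1))],
        FiniteDimensional K (H1 D) ∧ hOne D = hOne (D + Finsupp.single v 1) + 1)) := by
  obtain ⟨t, ht0, ht⟩ := exists_ord_eq v (-(D v + 1))
  rcases step_cases D v ht0 ht with ⟨⟨f, -, hfn, hL⟩, hA⟩ | ⟨hL, he⟩
  · left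
    refine ⟨?_, hA⟩
    show Module.finrank K _ = Module.finrank K _ + 1
    rw [hL]
    have hf0 : f ≠ 0 := fun h => hfn (h ▸ zero_mem _)
    have := Submodule.finrank_sup_add_finrank_inf_eq (riemannRochSpace D) (K ∙ f)
    rw [finrank_span_singleton hf0, show riemannRochSpace D ⊓ (K ∙ f) = ⊥ from
      (disjoint_iff.1 (Submodule.disjoint_span_singleton_of_notMem hfn)), finrank_bot] at this
    omega
  · right
    refine ⟨by show Module.finrank K _ = _; rw [hL], ?_⟩
    intro hfin
    have hle : D ≤ D + Finsupp.single v 1 :=
      le_add_of_nonneg_right (Finsupp.single_nonneg.2 zero_le_one)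
    set π := h1Map hle with hπ
    have hsup : repartitionsOf (D + Finsupp.single v 1) ⊔ principalRepartitions K F =
        (repartitionsOf D ⊔ principalRepartitions K F) ⊔ (K ∙ singleRep v t) := by
      rw [repartitionsOf_add_single D v ht0 ht, sup_assoc, sup_comm (K ∙ singleRep v t),
        ← sup_assoc]
    have hker : LinearMap.ker π =
        K ∙ ((repartitionsOf D ⊔ principalRepartitions K F).mkQ (singleRep v t)) := by
      rw [hπ, h1Map, Submodule.factor, Submodule.mapQ, Submodule.ker_liftQ, LinearMap.comp_id,
        Submodule.ker_mkQ]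
      refine (congrArg (Submodule.map _) hsup).trans ?_
      rw [Submodule.map_sup, Submodule.map_span, Set.image_singleton, Submodule.mkQ_map_self,
        bot_sup_eq]
    have : FiniteDimensional K (LinearMap.ker π) := by rw [hker]; infer_instance
    have : FiniteDimensional K (H1 D ⧸ LinearMap.ker π) :=
      Module.Finite.equiv (π.quotKerEquivOfSurjective (h1Map_surjective hle)).symm
    have : FiniteDimensional K (H1 D) := Module.Finite.of_submodule_quotient (LinearMap.ker π)
    refine ⟨inferInstance, ?_⟩
    have hrn := π.finrank_range_add_finrank_ker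
    rw [LinearMap.range_eq_top.2 (h1Map_surjective hle), finrank_top, hker,
      finrank_span_singleton] at hrn
    · exact hrn.symm
    · rwa [Submodule.mkQ_apply, ne_eq, Submodule.Quotient.mk_eq_zero]

end FLTAgent.FF
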