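import Fermat.Agent.FF.RiemannRochStep

/-!
# The Riemann–Roch theorem

`riemann_roch`: `l(D) - h¹(D) = deg D + 1 - g`, with `g = h¹(0)` (`genusFF`), together with
finiteness of `L(D)` and `H¹(D)`, Riemann's inequality and invariance under linear equivalence.
The bound `exists_degree_sub_ell_bound` comes from monomials in a separating element times a
basis of `F`; a divisor maximising `deg - l` has `H¹ = 0`, and the steps `D → D + P` do the rest.
-/

set_option autoImplicit false

noncomputable section

open AlgebraicCurve WithZero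

namespace FLTAgent.FF

variable {K F : Type*} [Field K] [Field F] [Algebra K F] [IsAlgClosed K] [IsFF K F]

theorem mem_riemannRochSpace_zero {f : F} :
    f ∈ riemannRochSpace (0 : Divisor K F) ↔ ∃ c : K, algebraMap K F c = f := by
  refine ⟨fun hf => ?_, ?_⟩
  · obtain ⟨v⟩ := place_nonempty (K := K) (F := F)
    have hv := mem_riemannRochSpace_iff.1 hf v
    simp only [Finsupp.coe_zero, Pi.zero_apply, neg_zero] at hv
    obtain ⟨c, hc⟩ := exists_residue_const v hv
    refine ⟨c, (sub_eq_zero.1 ?_).symm⟩
    by_contra h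
    have hg : f - algebraMap K F c ∈ riemannRochSpace (0 : Divisor K F) :=
      sub_mem hf fun w => by
        simpa using w.adicValuation_algebraMap_le_one c
    obtain ⟨G, hG, hG0⟩ := exists_div (K := K) h
    have hnn : 0 ≤ G := fun w => by
      have := ord_of_mem_riemannRochSpace hg h w
      simp only [Finsupp.coe_zero, Pi.zero_apply, neg_zero] at this ⊢
      rw [hG w]; exact this
    have h1 := hc.resolve_left h
    rw [← hG v, eq_zero_of_degree_nonpos hnn hG0.le] at h1
    simp at h1
  · rintro ⟨c, rfl⟩ w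
    simpa using w.adicValuation_algebraMap_le_one c

theorem riemannRochSpace_zero : riemannRochSpace (0 : Divisor K F) = K ∙ (1 : F) := by
  ext f
  rw [mem_riemannRochSpace_zero, Submodule.mem_span_singleton]
  simp [Algebra.smul_def]

instance finiteDimensional_riemannRochSpace (D : Divisor K F) :
    FiniteDimensional K (riemannRochSpace D) := by
  have key : ∀ E : Divisor K F, 0 ≤ E → FiniteDimensional K (riemannRochSpace E) := by
    intro E hE
    refine divisor_induction_up (P := fun X => FiniteDimensional K (riemannRochSpace X)) ?_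
      (fun X v _ hX => ?_) hE
    · rw [riemannRochSpace_zero]; infer_instance
    · obtain ⟨t, ht0, ht⟩ := exists_ord_eq v (-(X v + 1))
      rcases step_cases X v ht0 ht with ⟨⟨f, -, -, hL⟩, -⟩ | ⟨hL, -⟩ <;> rw [hL] <;> infer_instance
  have := key (D ⊔ 0) le_sup_right
  exact Submodule.finiteDimensional_of_le (riemannRochSpace_mono (le_sup_left : D ≤ D ⊔ 0))

theorem ell_zero : ell (0 : Divisor K F) = 1 := by
  show Module.finrank K _ = 1
  rw [riemannRochSpace_zero]
  exact finrank_span_singleton one_ne_zero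

theorem ell_mono {D E : Divisor K F} (h : D ≤ E) : ell D ≤ ell E :=
  Submodule.finrank_mono (riemannRochSpace_mono h)

/-- `deg - l` is monotone. -/
theorem degree_sub_ell_mono {D E : Divisor K F} (h : D ≤ E) :
    Divisor.degree D - (ell D : ℤ) ≤ Divisor.degree E - (ell E : ℤ) := by
  refine divisor_induction_up
    (P := fun X => Divisor.degree D - (ell D : ℤ) ≤ Divisor.degree X - (ell X : ℤ)) le_rfl
    (fun X v _ hX => ?_) h
  rw [map_add, degree_single_one]
  rcases ell_step_or X v with ⟨h', -⟩ | ⟨h', -⟩ <;> rw [h'] <;> push_cast <;> omega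

theorem ell_le_degree_add_one {D : Divisor K F} (h : 0 ≤ D) :
    (ell D : ℤ) ≤ Divisor.degree D + 1 := by
  have := degree_sub_ell_mono h
  rw [ell_zero, map_zero] at this
  omega

theorem exists_ne_zero_of_ell_pos {D : Divisor K F} (h : 0 < ell D) :
    ∃ f ∈ riemannRochSpace D, f ≠ 0 := by
  refine Submodule.exists_mem_ne_zero_of_ne_bot fun hb => ?_
  change 0 < Module.finrank K (riemannRochSpace D) at h
  rw [hb, finrank_bot] at h
  omega

theorem ell_add_div_le (D : Divisor K F) {G : Divisor K F} {z : F} (hz : z ≠ 0)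
    (hG : ∀ v, G v = v.ord z) : ell (D + G) ≤ ell D := by
  have hmem : z ∈ riemannRochSpace (-G) :=
    mem_riemannRochSpace_of_ord fun v => by simp [hG v]
  let φ : riemannRochSpace (D + G) →ₗ[K] riemannRochSpace D :=
    { toFun := fun f => ⟨(f : F) * z, by
        simpa using mul_mem_riemannRochSpace f.2 hmem⟩
      map_add' := fun f g => Subtype.ext (add_mul (f : F) g z)
      map_smul' := fun c f => Subtype.ext (smul_mul_assoc c (f : F) z) }
  refine LinearMap.finrank_le_finrank_of_injective (f := φ) fun f g hfg => ?_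
  exact Subtype.ext (mul_right_cancel₀ hz (congrArg Subtype.val hfg))

theorem ell_congr {D D' : Divisor K F} (h : Divisor.IsPrincipal (D' - D)) : ell D' = ell D := by
  obtain ⟨z, hz, hG⟩ := h
  refine le_antisymm ?_ ?_
  · simpa using ell_add_div_le D hz hG
  · have := ell_add_div_le D' (inv_ne_zero hz) (G := D - D') fun v => by
      have := hG v
      simp only [Finsupp.sub_apply] at this ⊢
      rw [v.ord_inv, ← this]
      ring
    simpa using this

theorem degree_eq_of_isPrincipal {D : Divisor K F} (h : Divisor.IsPrincipal D) :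
    Divisor.degree D = 0 := by
  obtain ⟨z, hz, hG⟩ := h
  obtain ⟨G, hG', hG0⟩ := exists_div (K := K) hz
  rwa [show D = G from Finsupp.ext fun v => (hG v).trans (hG' v).symm]

/-- The effective divisor linearly equivalent to `D` given by a nonzero element of `L(D)`. -/
theorem exists_effective_equiv {D : Divisor K F} {f : F} (hf : f ∈ riemannRochSpace D)
    (hf0 : f ≠ 0) : ∃ E : Divisor K F, 0 ≤ E ∧ Divisor.IsPrincipal (E - D) ∧
      ∀ v, E v = D v + v.ord f := by
  obtain ⟨G, hG, -⟩ := exists_div (K := K) hf0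
  refine ⟨D + G, fun v => ?_, ⟨f, hf0, fun v => by simp [hG v]⟩, fun v => by simp [hG v]⟩
  have := ord_of_mem_riemannRochSpace hf hf0 v
  simp only [Finsupp.coe_zero, Pi.zero_apply, Finsupp.add_apply, hG v]
  omega

theorem ell_eq_zero_of_degree_neg {D : Divisor K F} (h : Divisor.degree D < 0) : ell D = 0 := by
  by_contra h0
  obtain ⟨f, hf, hf0⟩ := exists_ne_zero_of_ell_pos (Nat.pos_of_ne_zero h0)
  obtain ⟨E, hE, hP, -⟩ := exists_effective_equiv hf hf0
  have h1 := degree_eq_of_isPrincipal hP
  have h2 := degree_nonneg hE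
  rw [map_sub] at h1
  omega

/-- Riemann's bound: `deg D - l(D)` is bounded above. -/
theorem exists_degree_sub_ell_bound :
    ∃ γ : ℤ, ∀ D : Divisor K F, Divisor.degree D - (ell D : ℤ) ≤ γ := by
  obtain ⟨x, hx, hfd, hsep⟩ := IsFF.exists_sep (K := K) (F := F)
  set B : Divisor K F := poleDivisor x with hBdef
  have hB : 0 ≤ B := fun v => by simp [hBdef, poleDivisor_apply]
  have hxB : x ∈ riemannRochSpace B := mem_riemannRochSpace_of_ord fun v => by
    rw [hBdef, poleDivisor_apply]; omega
  have hle : Divisor.degree B ≤ Module.finrank (IntermediateField.adjoin K ({x} : Set F)) F :=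
    (degree_poleDivisor hx).le
  have hdeg : 0 < Divisor.degree B := by
    rw [hBdef, degree_poleDivisor hx]
    exact_mod_cast Module.finrank_pos
  set L := IntermediateField.adjoin K ({x} : Set F) with hL
  let b := Module.finBasis L F
  set n := Module.finrank L F with hn
  choose C hC hbC using fun i =>
    exists_mem_repartitionsOf (diagRep (K := K) (b i)) (0 : Divisor K F)
  let Ct : Divisor K F := ∑ i, C i
  have hCt : 0 ≤ Ct := Finset.sum_nonneg fun i _ => hC i
  have hb : ∀ i, b i ∈ riemannRochSpace Ct := fun i =>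
    riemannRochSpace_mono (Finset.single_le_sum (fun j _ => hC j) (Finset.mem_univ i))
      (diagRep_mem_repartitionsOf.1 (hbC i))
  have hlow : ∀ m : ℕ, ((n * (m + 1) : ℕ) : ℤ) - Divisor.degree Ct ≤ ell (m • B) := by
    intro m
    let xL : L := ⟨x, IntermediateField.mem_adjoin_simple_self K x⟩
    have hxL : Transcendental K xL := fun h => hx (h.algebraMap (A := F))
    have hp : LinearIndependent K fun j : ℕ => xL ^ j := by
      have := (Polynomial.basisMonomials K).linearIndependent.map'
        (Polynomial.aeval xL).toLinearMap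
        (LinearMap.ker_eq_bot.2 (transcendental_iff_injective.1 hxL))
      simpa [Function.comp_def] using this
    have hli := linearIndependent_smul
      (hp.comp (fun j : Fin (m + 1) => (j : ℕ)) Fin.val_injective) b.linearIndependent
    have hmem : ∀ p : Fin (m + 1) × Fin n,
        (xL ^ (p.1 : ℕ)) • b p.2 ∈ riemannRochSpace (m • B + Ct) := by
      intro p
      have hj : (p.1 : ℕ) • B ≤ m • B := nsmul_le_nsmul_left hB (Nat.lt_succ_iff.1 p.1.2)
      exact mul_mem_riemannRochSpace
        (riemannRochSpace_mono hj (pow_mem_riemannRochSpace hxB _)) (hb p.2)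
    have hcard : (Fintype.card (Fin (m + 1) × Fin n)) ≤ ell (m • B + Ct) := by
      let w : Fin (m + 1) × Fin n → riemannRochSpace (m • B + Ct) := fun p => ⟨_, hmem p⟩
      exact (LinearIndependent.of_comp (riemannRochSpace (m • B + Ct)).subtype
        (v := w) hli).fintype_card_le_finrank
    have h1 := degree_sub_ell_mono (le_add_of_nonneg_right hCt : m • B ≤ m • B + Ct)
    rw [map_add] at h1
    simp only [Fintype.card_prod, Fintype.card_fin] at hcard
    rw [mul_comm] at hcard
    omega
  refine ⟨Divisor.degree Ct - n, fun D => ?_⟩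
  have hbound : ∀ m : ℕ, Divisor.degree (m • B) - (ell (m • B) : ℤ) ≤ Divisor.degree Ct - n := by
    intro m
    have := hlow m
    rw [map_nsmul, nsmul_eq_mul]
    push_cast at this ⊢
    nlinarith
  set P := D ⊔ 0 with hP
  have hPD : D ≤ P := le_sup_left
  obtain ⟨m, hm⟩ : ∃ m : ℕ, Divisor.degree P + (Divisor.degree Ct - n) < m := by
    exact ⟨(Divisor.degree P + (Divisor.degree Ct - n)).toNat + 1, by omega⟩
  have hpos : 0 < ell (m • B - P) := by
    have h1 := degree_sub_ell_mono
      (sub_le_self _ (le_sup_right : (0 : Divisor K F) ≤ P) : m • B - P ≤ m • B)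
    have h2 := hbound m
    rw [map_sub] at h1
    have h3 : (m : ℤ) ≤ Divisor.degree (m • B) := by
      rw [map_nsmul, nsmul_eq_mul]
      nlinarith
    omega
  obtain ⟨z, hz, hz0⟩ := exists_ne_zero_of_ell_pos hpos
  obtain ⟨G, hG, hG0⟩ := exists_div (K := K) hz0
  have hle' : P - G ≤ m • B := fun v => by
    have := ord_of_mem_riemannRochSpace hz hz0 v
    simp only [Finsupp.sub_apply, hG v] at this ⊢
    omega
  have h1 := degree_sub_ell_mono hPD
  have h2 := degree_sub_ell_mono hle'
  have h3 : ell P = ell (P - G) := ell_congr ⟨z, hz0, fun v => by simp [hG v]⟩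
  rw [map_sub, hG0, sub_zero] at h2
  have := hbound m
  omega

theorem exists_maximal_divisor :
    ∃ D₀ : Divisor K F, (∀ D : Divisor K F,
        Divisor.degree D - (ell D : ℤ) ≤ Divisor.degree D₀ - (ell D₀ : ℤ)) ∧
      repartitionsOf D₀ ⊔ principalRepartitions K F = ⊤ := by
  obtain ⟨γ, hγ⟩ := exists_degree_sub_ell_bound (K := K) (F := F)
  obtain ⟨M, ⟨D₀, hD₀⟩, hM⟩ := Int.exists_greatest_of_bdd
    (P := fun z => ∃ D : Divisor K F, Divisor.degree D - (ell D : ℤ) = z)
    ⟨γ, fun z ⟨D, hD⟩ => hD ▸ hγ D⟩ ⟨_, 0, rfl⟩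
  have hmax : ∀ D : Divisor K F,
      Divisor.degree D - (ell D : ℤ) ≤ Divisor.degree D₀ - (ell D₀ : ℤ) :=
    fun D => hD₀ ▸ hM _ ⟨D, rfl⟩
  refine ⟨D₀, hmax, eq_top_iff.2 fun α _ => ?_⟩
  obtain ⟨E, hE, hα⟩ := exists_mem_repartitionsOf α D₀
  have : repartitionsOf E ⊔ principalRepartitions K F ≤
      repartitionsOf D₀ ⊔ principalRepartitions K F := by
    refine divisor_induction_up (P := fun X => repartitionsOf X ⊔ principalRepartitions K F ≤
      repartitionsOf D₀ ⊔ principalRepartitions K F) le_rfl (fun X v hX ih => ?_) hE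
    rcases ell_step_or X v with ⟨-, h⟩ | ⟨h, -⟩
    · exact h.le.trans ih
    · exfalso
      have h1 := degree_sub_ell_mono hX
      have h2 := hmax (X + Finsupp.single v 1)
      rw [h, map_add, degree_single_one] at h2
      omega
  exact this (Submodule.mem_sup_left hα)

theorem h1_formula_aux : ∃ M : ℤ, ∀ D : Divisor K F, FiniteDimensional K (H1 D) ∧
    (hOne D : ℤ) = M - (Divisor.degree D - (ell D : ℤ)) := by
  obtain ⟨D₀, hmax, htop⟩ := exists_maximal_divisor (K := K) (F := F)
  refine ⟨Divisor.degree D₀ - (ell D₀ : ℤ), fun D => ?_⟩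
  refine divisor_induction_down (P := fun X => FiniteDimensional K (H1 X) ∧
    (hOne X : ℤ) = Divisor.degree D₀ - (ell D₀ : ℤ) - (Divisor.degree X - (ell X : ℤ))) ?_ ?_
    (le_sup_left : D ≤ D ⊔ D₀)
  · have h := eq_top_iff.2 (htop ▸ repRelations_mono (le_sup_right : D₀ ≤ D ⊔ D₀))
    have : Subsingleton (H1 (D ⊔ D₀)) := Submodule.Quotient.subsingleton_iff.2 h
    refine ⟨inferInstance, ?_⟩
    rw [show hOne (D ⊔ D₀) = 0 from Module.finrank_zero_of_subsingleton]
    have h1 := degree_sub_ell_mono (le_sup_right : D₀ ≤ D ⊔ D₀)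
    have h2 := hmax (D ⊔ D₀)
    omega
  · rintro X v - ⟨hfin, heq⟩
    rcases ell_step_or X v with ⟨h, hA⟩ | ⟨h, hH⟩
    · let e : H1 (X + Finsupp.single v 1) ≃ₗ[K] H1 X := Submodule.quotEquivOfEq _ _ hA
      refine ⟨Module.Finite.equiv e, ?_⟩
      rw [show hOne X = hOne (X + Finsupp.single v 1) from e.finrank_eq.symm, heq, h, map_add,
        degree_single_one]
      push_cast; ring
    · obtain ⟨hf, hh⟩ := hH
      refine ⟨hf, ?_⟩
      rw [hh]
      push_cast
      rw [heq, h, map_add, degree_single_one]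
      ring

instance finiteDimensional_H1 (D : Divisor K F) : FiniteDimensional K (H1 D) :=
  (h1_formula_aux (K := K) (F := F)).choose_spec D |>.1

/-- Riemann-Roch, first form. -/
theorem riemann_roch (D : Divisor K F) :
    (ell D : ℤ) - (hOne D : ℤ) = Divisor.degree D + 1 - (genusFF K F : ℤ) := by
  obtain ⟨M, hM⟩ := h1_formula_aux (K := K) (F := F)
  have h0 := (hM 0).2
  rw [ell_zero, map_zero] at h0
  have hD := (hM D).2
  change (hOne (0 : Divisor K F) : ℤ) = _ at h0
  show _ = Divisor.degree D + 1 - (hOne (0 : Divisor K F) : ℤ)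
  omega

/-- Riemann's inequality. -/
theorem degree_add_one_sub_genusFF_le_ell (D : Divisor K F) :
    Divisor.degree D + 1 - (genusFF K F : ℤ) ≤ ell D := by
  have := riemann_roch D
  omega

theorem hOne_zero : hOne (0 : Divisor K F) = genusFF K F := rfl

theorem hOne_congr {D D' : Divisor K F} (h : Divisor.IsPrincipal (D' - D)) :
    hOne D' = hOne D := by
  have h1 := riemann_roch D
  have h2 := riemann_roch D'
  have h3 := degree_eq_of_isPrincipal h
  rw [ell_congr h] at h2
  rw [map_sub] at h3
  omega

end FLTAgent.FF
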